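import Fermat.Agent.LowerSquare.TrivialType
import Mathlib.RingTheory.Noetherian.Basic
import Mathlib.LinearAlgebra.FiniteDimensional.Basic

/-!
# No eigen symbols with values in functions on pairs of lines

If the system of eigenvalues does not occur at level `q M`, its quadratic twist at `q` does not
occur at level `M`, symbols with values in functions on lines modulo constants lift, and the kernel
operators kill eigen symbols, then there are no eigen symbols with values in functions on pairs.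
-/

set_option autoImplicit false

noncomputable section

open Matrix CongruenceSubgroup
open scoped MatrixGroups

namespace FLTAgent.LowerSquare

open FLTAgent.LevelRaising

variable {q : ℕ} [Fact q.Prime] {k : Type} [Field k]

/-- A constant function. -/
def IsConst {X : Type} (f : X → k) : Prop := ∀ L L', f L = f L'

/-- Constant functions are the only eigen symbols modulo constants with vanishing sums. -/
def LinesModConstNoEigen (q : ℕ) [Fact q.Prime] (k : Type) [Field k] (M : ℕ) (S : Finset ℕ)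
    (a : ℕ → k) : Prop :=
  ∀ Φ : Cusp → Cusp → (Lines q → k), (∀ x y, Φ x y ∈ sumZero k) →
    (∀ x y z, IsConst (Φ x y + Φ y z - Φ x z)) →
    (∀ γ ∈ Gamma0 M, ∀ x y,
      IsConst (Φ (glQ γ • x) (glQ γ • y) - lineRep q k (redSL q γ) (Φ x y))) →
    (∀ ℓ, ℓ.Prime → ℓ ∉ S → ∀ x y, IsConst (twOp (lineRep q k) ℓ Φ x y - a ℓ • Φ x y)) →
    ∀ x y, IsConst (Φ x y)

variable {V : Type} [AddCommGroup V] [Module k V]

/-- The representation on an invariant subspace. -/
def subRep (ρ : Representation k (GLq q) V) (W : Submodule k V) (hW : IsInv ρ W) :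
    Representation k (GLq q) W where
  toFun g := (ρ g).restrict fun w hw => hW g w hw
  map_one' := LinearMap.ext fun w => Subtype.ext (by simp [LinearMap.coe_restrict_apply])
  map_mul' g h := LinearMap.ext fun w => Subtype.ext (by simp [LinearMap.coe_restrict_apply])

omit [Fact (Nat.Prime q)] in
theorem coe_subRep (ρ : Representation k (GLq q) V) (W : Submodule k V) (hW : IsInv ρ W)
    (g : GLq q) (w : W) : (subRep ρ W hW g w : V) = ρ g w := rfl

/-- The representation on the quotient by an invariant subspace. -/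
def quotRep (ρ : Representation k (GLq q) V) (U : Submodule k V) (hU : IsInv ρ U) :
    Representation k (GLq q) (V ⧸ U) where
  toFun g := U.mapQ U (ρ g) fun w hw => hU g w hw
  map_one' := Submodule.linearMap_qext _ (LinearMap.ext fun w => by simp)
  map_mul' g h := Submodule.linearMap_qext _ (LinearMap.ext fun w => by simp)

variable {M : ℕ} {S : Finset ℕ} {a : ℕ → k} {ρ : Representation k (GLq q) V}

/-- A simple module which is a quotient of an invariant subspace of the functions on lines. -/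
theorem noEigen_line_quotient (h2 : (2 : k) ≠ 0)
    (hlines : NoEigen (lineRep q k) M S a)
    (hKbar : (q : k) + 1 = 0 → LinesModConstNoEigen q k M S a)
    (hsimple : ∀ U : Submodule k V, IsInv ρ U → U = ⊥ ∨ U = ⊤) (hu : ρ (transl 1) ≠ 1)
    {U : Submodule k (Lines q → k)} (hU : IsInv (lineRep q k) U) (f₀ : U →ₗ[k] V)
    (hf₀ : Function.Surjective f₀) (heq : ∀ g (w : U), f₀ ⟨_, hU g w.1 w.2⟩ = ρ g (f₀ w)) :
    NoEigen ρ M S a := by
  by_cases hker : LinearMap.ker f₀ = ⊥
  · let e := LinearEquiv.ofBijective f₀ ⟨LinearMap.ker_eq_bot.mp hker, hf₀⟩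
    refine noEigen_of_injective (U.subtype ∘ₗ e.symm.toLinearMap)
      (fun v w h => e.symm.injective (Subtype.ext h)) (fun g v => ?_) hlines
    obtain ⟨w, rfl⟩ := hf₀ v
    have h1 : e.symm (f₀ w) = w := e.symm_apply_apply w
    have h2 : e.symm (ρ g (f₀ w)) = ⟨_, hU g w.1 w.2⟩ := by
      rw [← heq]; exact e.symm_apply_apply _
    simp [h1, h2]
  -- the kernel consists of the constants
  set Kr := (LinearMap.ker f₀).map U.subtype with hKrdef
  have hKrU : ∀ f, f ∈ Kr → ∃ hf : f ∈ U, f₀ ⟨f, hf⟩ = 0 := by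
    rintro _ ⟨w, hw, rfl⟩
    exact ⟨w.2, hw⟩
  have hKr : IsInv (lineRep q k) Kr := by
    intro g f hf
    obtain ⟨hfU, hf0⟩ := hKrU f hf
    exact ⟨⟨_, hU g f hfU⟩, (heq g ⟨f, hfU⟩).trans (by rw [hf0, map_zero]), rfl⟩
  have hKrle : ∀ f ∈ Kr, IsConst f := by
    refine (le_const_or_sumZero_le h2 hKr).resolve_right fun hK => hu (LinearMap.ext fun v => ?_)
    obtain ⟨w, rfl⟩ := hf₀ v
    have hd : lineRep q k (transl 1) w.1 - w.1 ∈ Kr := hK (by
      rw [mem_sumZero]
      simp only [Pi.sub_apply, Finset.sum_sub_distrib, sub_eq_zero, permRep_apply]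
      exact Fintype.sum_bijective _ (MulAction.bijective (transl (1 : ZMod q))⁻¹) _ _ fun L => rfl)
    obtain ⟨hdU, hd0⟩ := hKrU _ hd
    rw [show (⟨_, hdU⟩ : U) = ⟨_, hU (transl 1) w.1 w.2⟩ - w from rfl, map_sub, heq,
      sub_eq_zero] at hd0
    rw [hd0, Module.End.one_apply]
  obtain ⟨⟨c, hcU⟩, hc, hcne⟩ := Submodule.exists_mem_ne_zero_of_ne_bot hker
  have hc0 : f₀ ⟨c, hcU⟩ = 0 := hc
  have hcconst : IsConst c := hKrle c ⟨⟨c, hcU⟩, hc, rfl⟩
  have hconst : ∀ f, IsConst f → ∃ hf : f ∈ U, f₀ ⟨f, hf⟩ = 0 := by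
    intro f hf
    have hL : c OnePoint.infty ≠ 0 := fun h => hcne (Subtype.ext (funext fun L =>
      (hcconst L OnePoint.infty).trans h))
    have hfc : f = (f OnePoint.infty / c OnePoint.infty) • c := funext fun L => by
      rw [Pi.smul_apply, smul_eq_mul, hcconst L OnePoint.infty, div_mul_cancel₀ _ hL,
        hf L OnePoint.infty]
    refine ⟨hfc ▸ U.smul_mem _ hcU, ?_⟩
    rw [show (⟨f, hfc ▸ U.smul_mem _ hcU⟩ : U) = (f OnePoint.infty / c OnePoint.infty) • ⟨c, hcU⟩
      from Subtype.ext hfc, map_smul, hc0, smul_zero]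
  have hKU : sumZero k ≤ U := by
    refine (le_const_or_sumZero_le h2 hU).resolve_left fun h => hu (LinearMap.ext fun v => ?_)
    obtain ⟨w, rfl⟩ := hf₀ v
    obtain ⟨_, hw0⟩ := hconst w.1 (h w.1 w.2)
    rw [hw0, map_zero, map_zero]
  let fK : sumZero (q := q) k →ₗ[k] V := f₀ ∘ₗ Submodule.inclusion hKU
  have hfKeq : ∀ g (w : sumZero (q := q) k),
      fK ⟨_, isInv_sumZero k g w.1 w.2⟩ = ρ g (fK w) := fun g w => heq g ⟨w.1, hKU w.2⟩
  have hfKs : Function.Surjective fK := by
    rw [← LinearMap.range_eq_top]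
    refine (hsimple _ ?_).resolve_left fun h => hu (LinearMap.ext fun v => ?_)
    · rintro g _ ⟨w, rfl⟩
      exact ⟨_, hfKeq g w⟩
    · obtain ⟨w, rfl⟩ := hf₀ v
      have hd : lineRep q k (transl 1) w.1 - w.1 ∈ sumZero k := by
        rw [mem_sumZero]
        simp only [Pi.sub_apply, Finset.sum_sub_distrib, sub_eq_zero, permRep_apply]
        exact Fintype.sum_bijective _ (MulAction.bijective (transl (1 : ZMod q))⁻¹) _ _ fun L => rfl
      have h0 : fK ⟨_, hd⟩ = 0 := by
        rw [← Submodule.mem_bot k, ← h]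
        exact LinearMap.mem_range_self _ _
      have h1 : fK ⟨_, hd⟩ = f₀ ⟨_, hU (transl 1) w.1 w.2⟩ - f₀ w := by
        rw [← map_sub]; rfl
      rw [h0, heq] at h1
      rw [Module.End.one_apply, sub_eq_zero.mp h1.symm]
  have hfKker : ∀ w : sumZero (q := q) k, fK w = 0 → IsConst w.1 := fun w hw =>
    hKrle w.1 ⟨⟨w.1, hKU w.2⟩, hw, rfl⟩
  by_cases hq1 : (q : k) + 1 = 0
  · intro Φ hΦ
    choose Φ' hΦ' using fun x y => hfKs (Φ x y)
    have hc : ∀ x y, IsConst (Φ' x y).1 := by
      refine hKbar hq1 (fun x y => (Φ' x y).1) (fun x y => (Φ' x y).2) (fun x y z => ?_)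
        (fun γ hγ x y => ?_) fun ℓ hℓ hℓS x y => ?_
      · exact hfKker (Φ' x y + Φ' y z - Φ' x z) (by
          rw [map_sub, map_add, hΦ', hΦ', hΦ', hΦ.1.1, sub_self])
      · exact hfKker (Φ' (glQ γ • x) (glQ γ • y) -
          ⟨_, isInv_sumZero k (redSL q γ) _ (Φ' x y).2⟩) (by
          rw [map_sub, hfKeq, hΦ', hΦ', hΦ.1.2 γ hγ, sub_self])
      · have h := hfKker ((∑ i : Option (Fin ℓ),
          ⟨_, isInv_sumZero k (redMat q (heckeFam ℓ i))⁻¹ _
            (Φ' (ofMat (heckeFam ℓ i) • x) (ofMat (heckeFam ℓ i) • y)).2⟩) - a ℓ • Φ' x y) (by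
          rw [map_sub, map_sum, map_smul, hΦ', sub_eq_zero]
          simp only [hfKeq, hΦ']
          exact congrFun (congrFun (hΦ.2 ℓ hℓ hℓS) x) y)
        simpa [twOp] using h
    funext x y
    obtain ⟨hf, h0⟩ := hconst _ (hc x y)
    rw [← hΦ' x y]
    exact h0
  · have hinj : Function.Injective fK := by
      rw [← LinearMap.ker_eq_bot, Submodule.eq_bot_iff]
      intro w hw
      have hw' := hfKker w hw
      have hs := (mem_sumZero k).mp w.2
      rw [Finset.sum_congr rfl fun L _ => hw' L OnePoint.infty, Finset.sum_const, Finset.card_univ,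
        nsmul_eq_mul, mul_eq_zero] at hs
      have hcard : ((Fintype.card (Lines q) : ℕ) : k) = (q : k) + 1 := by
        rw [show Fintype.card (Lines q) = q + 1 from
          (Fintype.card_option (α := ZMod q)).trans (by rw [ZMod.card])]
        push_cast; ring
      rw [hcard] at hs
      exact Subtype.ext (funext fun L => (hw' L OnePoint.infty).trans (hs.resolve_left hq1))
    let e := LinearEquiv.ofBijective fK ⟨hinj, hfKs⟩
    refine noEigen_of_injective ((sumZero (q := q) k).subtype ∘ₗ e.symm.toLinearMap)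
      (fun v w h => e.symm.injective (Subtype.ext h)) (fun g v => ?_) hlines
    obtain ⟨w, rfl⟩ := hfKs v
    have h1 : e.symm (fK w) = w := e.symm_apply_apply w
    have h2 : e.symm (ρ g (fK w)) = ⟨_, isInv_sumZero k g w.1 w.2⟩ := by
      rw [← hfKeq]; exact e.symm_apply_apply _
    simp [h1, h2]

/-- The hypotheses on a system of eigenvalues under which nothing occurs at level `q² M`. -/
structure Excluded (q : ℕ) [Fact q.Prime] (k : Type) [Field k] (M : ℕ) (S : Finset ℕ)
    (a : ℕ → k) : Prop where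
  ne_q : ∀ ℓ, ℓ.Prime → ℓ ∉ S → ℓ ≠ q
  level : ∀ Ψ ∈ Lev k (q * M), (∀ ℓ, ℓ.Prime → ℓ ∉ S → tOp k ℓ Ψ = a ℓ • Ψ) → Ψ = 0
  twist : ∀ η : MulChar (ZMod q) k, η ≠ 1 → (∀ x, IsUnit x → η x * η x = 1) → ∀ Ψ ∈ Lev k M,
    (∀ ℓ, ℓ.Prime → ℓ ∉ S → tOp k ℓ Ψ = (η (ℓ : ZMod q) * a ℓ) • Ψ) → Ψ = 0
  lift : (q : k) + 1 = 0 → LinesModConstNoEigen q k M S a
  kills : ∀ ν : Pairs q → k, IsPairKernel ν → ∀ Φ, IsEigen (pairRep q k) M S a Φ →
    ∀ x y, opKer ν (Φ x y) = 0

/-- The main algebraic result. -/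
theorem Excluded.noEigen (H : Excluded q k M S a) (hqM : ¬ q ∣ M) (h2 : (2 : k) ≠ 0)
    [NeZero (q : k)] {ζ : k} (hζ : IsPrimitiveRoot ζ q) :
    NoEigen (pairRep q k) M S a := by
  have hlines := noEigen_lines hqM H.ne_q H.level
  have hsimpleCase : ∀ (V : Type) [AddCommGroup V] [Module k V] [FiniteDimensional k V]
      (σ : Representation k (GLq q) V), (∀ U, IsInv σ U → U = ⊥ ∨ U = ⊤) → FactorsLines σ →
      NoEigen σ M S a := by
    intro V _ _ _ σ hsimple hfix
    by_cases hu : σ (transl 1) = 1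
    · refine noEigen_of_transl_trivial hsimple hfix hu H.ne_q fun η hη Ψ hΨ hev => ?_
      by_cases h1 : η = 1
      · subst h1
        refine H.level Ψ ⟨hΨ.1,
          fun γ hγ => hΨ.2 γ (mem_Gamma0_iff_dvd.mpr ((Int.natCast_dvd_natCast.mpr
          (dvd_mul_left M q)).trans (mem_Gamma0_iff_dvd.mp hγ)))⟩ fun ℓ hℓ hℓS => ?_
        have hℓq : (ℓ : ZMod q) ≠ 0 := natCast_ne_zero_of_not_dvd fun hd =>
          H.ne_q ℓ hℓ hℓS ((Nat.prime_dvd_prime_iff_eq (Fact.out) hℓ).mp hd).symm
        rw [hev ℓ hℓ hℓS, MulChar.one_apply hℓq.isUnit, one_mul]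
      · exact H.twist η h1 hη Ψ hΨ hev
    rcases kernel_or_line_constituent hζ hsimple hfix hu with
      ⟨ι, hι, hιeq, ν, hν, hfixed⟩ | ⟨U, hU, f₀, hf₀, heq⟩
    · intro Φ hΦ
      funext x y
      refine hι ?_
      rw [← hfixed, H.kills ν hν _ (hΦ.comp ι hιeq) x y, Pi.zero_apply, Pi.zero_apply, map_zero]
    · exact noEigen_line_quotient h2 hlines H.lift hsimple hu hU f₀ hf₀ heq
  have hfixPairs : FactorsLines (pairRep q k) :=
    fun g hg => LinearMap.ext fun f => funext fun P => by
    rw [permRep_apply, show g⁻¹ • P = P from pairs_ext (by rw [smul_pair_fst, inv_smul_eq_iff, hg])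
      (by rw [smul_pair_snd, inv_smul_eq_iff, hg]), Module.End.one_apply]
  have key : ∀ (n : ℕ) (W : Submodule k (Pairs q → k)) (hW : IsInv (pairRep q k) W),
      Module.finrank k W = n → NoEigen (subRep _ W hW) M S a := by
    intro n
    induction n using Nat.strong_induction_on with
    | _ n ih =>
    intro W hW hn
    by_cases hbot : W = ⊥
    · intro Φ _
      funext x y
      exact Subtype.ext ((Submodule.mem_bot k).mp (hbot ▸ (Φ x y).2))
    obtain ⟨W', ⟨hW'inv, hW'lt⟩, hmax⟩ := set_has_maximal_iff_noetherian.mpr inferInstance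
      {W' : Submodule k (Pairs q → k) | IsInv (pairRep q k) W' ∧ W' < W}
      ⟨⊥, fun g w hw => by rw [(Submodule.mem_bot k).mp hw, map_zero]; exact zero_mem _,
        bot_lt_iff_ne_bot.mpr hbot⟩
    set U := W'.comap W.subtype with hUdef
    have hU : IsInv (subRep _ W hW) U := fun g w hw => hW'inv g w.1 hw
    let f : W →ₗ[k] (W ⧸ U) := U.mkQ
    refine noEigen_of_exact (σ := quotRep _ U hU) (τ := subRep _ W' hW'inv) f (fun g v => rfl)
      (Submodule.inclusion hW'lt.le) (Submodule.inclusion_injective _) (fun g u => rfl)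
      (fun v hv => ⟨⟨v.1, (Submodule.Quotient.mk_eq_zero U).mp hv⟩, rfl⟩)
      (ih _ (hn ▸ Submodule.finrank_lt_finrank_of_lt hW'lt) W' hW'inv rfl) ?_
    refine hsimpleCase _ _ (fun X hX => ?_) fun g hg => ?_
    · set Y := (X.comap f).map W.subtype with hY
      have hYinv : IsInv (pairRep q k) Y := by
        rintro g _ ⟨w, hw, rfl⟩
        exact ⟨subRep _ W hW g w, hX g _ hw, rfl⟩
      have hYle : Y ≤ W := Submodule.map_subtype_le _ _
      have hW'Y : W' ≤ Y := fun w hw => ⟨⟨w, hW'lt.le hw⟩, by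
        show f _ ∈ X
        rw [show f ⟨w, hW'lt.le hw⟩ = 0 from (Submodule.Quotient.mk_eq_zero U).mpr hw]
        exact zero_mem _, rfl⟩
      by_cases hYW : Y = W
      · right
        rw [eq_top_iff]
        intro z _
        obtain ⟨w, rfl⟩ := Submodule.mkQ_surjective U z
        obtain ⟨w', hw', he⟩ : w.1 ∈ Y := hYW.symm ▸ w.2
        rw [← Subtype.ext he]
        exact hw'
      · left
        have heq : Y = W' := by
          by_contra hne
          exact hmax Y ⟨hYinv, lt_of_le_of_ne hYle hYW⟩ (lt_of_le_of_ne hW'Y (Ne.symm hne))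
        rw [eq_bot_iff]
        intro z hz
        obtain ⟨w, rfl⟩ := Submodule.mkQ_surjective U z
        rw [Submodule.mem_bot, Submodule.mkQ_apply, Submodule.Quotient.mk_eq_zero]
        exact (heq ▸ ⟨w, hz, rfl⟩ : w.1 ∈ W')
    · refine Submodule.linearMap_qext _ (LinearMap.ext fun w => ?_)
      show Submodule.Quotient.mk (subRep _ W hW g w) = Submodule.Quotient.mk w
      congr 1
      exact Subtype.ext (by rw [coe_subRep, hfixPairs g hg, Module.End.one_apply])
  exact noEigen_of_injective (σ := subRep _ ⊤ fun _ _ _ => Submodule.mem_top)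
    (Submodule.topEquiv.symm.toLinearMap) Submodule.topEquiv.symm.injective (fun g v => rfl)
    (key _ ⊤ _ rfl)

end FLTAgent.LowerSquare
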