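import Fermat.Agent.LowerSquare.SymbolPeriods
import Fermat.Agent.ModularityLifting.Twist
import Fermat.Agent.HeckeJacobian.Main
import Fermat.Agent.GaloisAttach.Supplied
import Fermat.Agent.SemistableFinals.MazurAssembly

/-!
# Torsion classes of residual eigen symbols

A symbol of level `L` with values in `ℤ/p` whose eigenvalues are not Eisenstein lifts, up to a
nonzero factor, to `ℤ_p`; hence its periods form the Kummer character of an eigenclass in the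
`p`-torsion of `J₀(L)`.
-/

set_option autoImplicit false

noncomputable section

open Matrix CongruenceSubgroup ModularCurve AlgebraicCurve
open ModularCurve.Period
open scoped MatrixGroups

namespace FLTAgent.LowerSquare

open FLTAgent.LevelRaising FLTAgent.HeckeJacobian FLTAgent.ModularityLifting

local notation "Qbar" => AlgebraicClosure ℚ

variable {p : ℕ} [Fact p.Prime]

/-- The reduction `ℤ_p → ℤ/p` through the residue field. -/
def redP (p : ℕ) [Fact p.Prime] : ℤ_[p] →+* ZMod p :=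
  (PadicInt.residueField (p := p)).toRingHom.comp (IsLocalRing.residue ℤ_[p])

theorem redP_eq_zero {z : ℤ_[p]} {m : ℕ} (hm : 1 ≤ m)
    (h : PadicInt.toZModPow m z = 0) : redP p z = 0 := by
  rw [← RingHom.mem_ker, PadicInt.ker_toZModPow, Ideal.mem_span_singleton] at h
  obtain ⟨w, rfl⟩ := h
  rw [map_mul, map_pow, map_natCast, ZMod.natCast_self, zero_pow (by omega), zero_mul]

theorem isUnit_natCast_padic {n : ℕ} (hn : ¬ p ∣ n) : IsUnit (n : ℤ_[p]) := by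
  rw [← IsLocalRing.residue_ne_zero_iff_isUnit]
  intro h
  refine hn ((ZMod.natCast_eq_zero_iff n p).mp ?_)
  rw [← map_natCast (redP p), redP, RingHom.comp_apply, h, map_zero]

section Lift

variable {L : ℕ} [NeZero L]

omit [NeZero L] in
/-- A residual symbol lifts to `ℤ_p` after applying `(T_ℓ - 2)²`. -/
theorem exists_padic_lift (hp2 : p ≠ 2) (hell : p = 3 → ∃ t, t.Prime ∧ t ∣ L ∧ t % 3 = 2)
    {Φ : Cusp → Cusp → ZMod p} (hΦ : Φ ∈ Lev (ZMod p) L) {ℓ : ℕ} (hℓ : ℓ.Prime) (hℓL : ¬ ℓ ∣ L)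
    (hℓ1 : (ℓ : ZMod L) = 1) (hℓp : ℓ ≠ p) {c : ZMod p} (hT : tOp (ZMod p) ℓ Φ = c • Φ) :
    ∃ Ψ ∈ Lev ℤ_[p] L, mapVal (redP p) Ψ = (c - (1 + (ℓ : ZMod p))) ^ 2 • Φ := by
  set e := PadicInt.residueField (p := p)
  set δ : DirichletCharacter ℤ_[p] L := 1
  have hδk : δ.ringHomComp (IsLocalRing.residue ℤ_[p]) = 1 := MulChar.ringHomComp_one _
  set Φk : Cusp → Cusp → IsLocalRing.ResidueField ℤ_[p] := fun x y => e.symm (Φ x y)
  have hmem : Φk ∈ SymbChar (IsLocalRing.ResidueField ℤ_[p])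
      (δ.ringHomComp (IsLocalRing.residue ℤ_[p])) := by
    rw [hδk, symbChar_eq_lev]
    exact ⟨fun x y z => by simp only [Φk]; rw [← map_add, hΦ.1],
      fun γ hγ x y => congrArg e.symm (hΦ.2 γ hγ x y)⟩
  have hp : p.Prime := Fact.out
  have hu : ∀ n : ℕ, n.Prime → n ≠ p → IsUnit (n : ℤ_[p]) := fun n hn hne =>
    isUnit_natCast_padic fun h => hne ((Nat.prime_dvd_prime_iff_eq hp hn).mp h).symm
  obtain ⟨Ψ, hΨ, hΨr⟩ := exists_symb_lift (δ := δ)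
    (fun γ hγ => by
      rw [chi, MulChar.one_apply (isUnit_lowerRight hγ), map_one])
    (by rw [chi, MulChar.one_apply (isUnit_lowerRight neg_one_mem_Gamma0')])
    (by exact_mod_cast hu 2 Nat.prime_two hp2.symm)
    (by
      by_cases h3 : p = 3
      · obtain ⟨t, ht, htL, ht3⟩ := hell h3
        exact Or.inr (mU_conj_not_mem ht htL ht3)
      · exact Or.inl (by exact_mod_cast hu 3 Nat.prime_three (Ne.symm h3)))
    hℓ hℓL hℓ1 (hu ℓ hℓ hℓp) hmem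
  rw [symbChar_eq_lev] at hΨ
  refine ⟨Ψ, hΨ, ?_⟩
  have heis : ∀ v : Cusp → Cusp → ZMod p, ∀ x y,
      e (eisOp (IsLocalRing.ResidueField ℤ_[p]) (δ.ringHomComp (IsLocalRing.residue ℤ_[p])) ℓ
        (fun x y => e.symm (v x y)) x y) = (tOp (ZMod p) ℓ v - (1 + (ℓ : ZMod p)) • v) x y := by
    intro v x y
    rw [hδk, eisOp, tOpChar_one hℓ hℓL]
    simp [tOp, pullFam_apply, pull_apply, map_sum]
  have h1 : tOp (ZMod p) ℓ Φ - (1 + (ℓ : ZMod p)) • Φ = (c - (1 + (ℓ : ZMod p))) • Φ := by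
    rw [hT, sub_smul]
  funext x y
  show e (IsLocalRing.residue ℤ_[p] (Ψ x y)) = _
  rw [show IsLocalRing.residue ℤ_[p] (Ψ x y) = mapVal (IsLocalRing.residue ℤ_[p]) Ψ x y from rfl,
    hΨr]
  have h2 : eisOp (IsLocalRing.ResidueField ℤ_[p]) (δ.ringHomComp (IsLocalRing.residue ℤ_[p])) ℓ
      Φk = fun x y => e.symm (((c - (1 + (ℓ : ZMod p))) • Φ) x y) := by
    funext x y
    exact e.injective (by rw [heis, h1, RingEquiv.apply_symm_apply])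
  rw [h2, heis, map_smul, hT]
  simp only [Pi.sub_apply, Pi.smul_apply, smul_eq_mul]
  ring

theorem mapVal_trOp {N r : ℕ} (D : ALData N r) (hr : r.Prime) (Ψ : Cusp → Cusp → ℤ_[p]) :
    mapVal (redP p) (D.trOp ℤ_[p] Ψ) = D.trOp (ZMod p) (mapVal (redP p) Ψ) := by
  rw [D.trOp_eq_sum hr, D.trOp_eq_sum hr]
  funext x y
  simp [mapVal, Finset.sum_apply, pull_apply, map_sum]

/-- A lift of a nonzero multiple of an eigen symbol. -/
theorem exists_multiple_lift (hp2 : p ≠ 2) {S : Finset ℕ} (hS : ∀ ℓ, ℓ.Prime → ℓ ∣ L * p → ℓ ∈ S)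
    (a : ℕ → ℕ)
    (hne : ∀ m : ℕ, 0 < m → ∃ ℓ, ℓ.Prime ∧ ℓ ∉ S ∧ (ℓ : ZMod m) = 1 ∧ (a ℓ : ZMod p) ≠ 2)
    (h3 : p = 3 → ∃ r, r.Prime ∧ r ∉ S ∧ r % 3 = 2 ∧ (a r : ZMod p) ≠ 0)
    {Φ : Cusp → Cusp → ZMod p} (hΦ : Φ ∈ Lev (ZMod p) L)
    (heig : ∀ ℓ, ℓ.Prime → ℓ ∉ S → tOp (ZMod p) ℓ Φ = (a ℓ : ZMod p) • Φ) :
    ∃ c : ZMod p, c ≠ 0 ∧ ∃ Ψ ∈ Lev ℤ_[p] L, mapVal (redP p) Ψ = c • Φ := by
  have hp : p.Prime := Fact.out
  have hout : ∀ ℓ, ℓ.Prime → ℓ ∉ S → ¬ ℓ ∣ L ∧ ℓ ≠ p := fun ℓ hℓ h =>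
    ⟨fun hd => h (hS ℓ hℓ (hd.mul_right p)), fun e => h (hS ℓ hℓ (e ▸ dvd_mul_left p L))⟩
  have hcast : ∀ {ℓ m : ℕ}, p ∣ m → (ℓ : ZMod m) = 1 → (ℓ : ZMod p) = 1 := fun {ℓ m} hd h => by
    have := congrArg (ZMod.castHom hd (ZMod p)) h
    rwa [map_natCast, map_one] at this
  have hcast' : ∀ {ℓ m n : ℕ}, n ∣ m → (ℓ : ZMod m) = 1 → (ℓ : ZMod n) = 1 := fun {ℓ m n} hd h => by
    have := congrArg (ZMod.castHom hd (ZMod n)) h
    rwa [map_natCast, map_one] at this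
  by_cases hp3 : p = 3
  · obtain ⟨r, hr, hrS, hr3, har⟩ := h3 hp3
    obtain ⟨hrL, hrp⟩ := hout r hr hrS
    have : NeZero (L * r) := ⟨Nat.mul_ne_zero (NeZero.ne L) hr.ne_zero⟩
    obtain ⟨D⟩ := exists_alData hr hrL
    obtain ⟨ℓ, hℓ, hℓS, hℓ1, hℓa⟩ := hne (L * r * p) (Nat.pos_of_ne_zero
      (Nat.mul_ne_zero (NeZero.ne _) hp.ne_zero))
    obtain ⟨hℓL, hℓp⟩ := hout ℓ hℓ hℓS
    have hℓr : ℓ ≠ r := fun e => by
      have h := hcast' ((dvd_mul_left r L).mul_right p) hℓ1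
      rw [e, ZMod.natCast_self] at h
      have : Fact r.Prime := ⟨hr⟩
      exact zero_ne_one h
    have hℓLr : ¬ ℓ ∣ L * r := fun hd => (hℓ.dvd_mul.mp hd).elim hℓL fun h =>
      hℓr ((Nat.prime_dvd_prime_iff_eq hℓ hr).mp h)
    have hΦ1 : Φ ∈ Lev (ZMod p) (L * r) := lev_mono (dvd_mul_right L r) hΦ
    obtain ⟨Ψ, hΨ, hΨr⟩ := exists_padic_lift hp2 (fun _ => ⟨r, hr, dvd_mul_left r L, hr3⟩)
      (D.wOp_mem hr hΦ1) hℓ hℓLr (hcast' (dvd_mul_right _ p) hℓ1) hℓp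
      (c := (a ℓ : ZMod p)) (by rw [D.tOp_wOp hr hℓ hℓLr hΦ1, heig ℓ hℓ hℓS, map_smul])
    refine ⟨((a ℓ : ZMod p) - (1 + (ℓ : ZMod p))) ^ 2 * (a r : ZMod p),
      mul_ne_zero (pow_ne_zero _ ?_) har, D.trOp ℤ_[p] Ψ, D.trOp_mem hr hrL hΨ, ?_⟩
    · rw [hcast (dvd_mul_left p (L * r)) hℓ1, one_add_one_eq_two]
      exact sub_ne_zero.mpr hℓa
    · rw [mapVal_trOp D hr, hΨr, map_smul, D.trOp_wOp_of_mem hr hΦ, heig r hr hrS, smul_smul]
  · obtain ⟨ℓ, hℓ, hℓS, hℓ1, hℓa⟩ := hne (L * p) (Nat.pos_of_ne_zero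
      (Nat.mul_ne_zero (NeZero.ne _) hp.ne_zero))
    obtain ⟨hℓL, hℓp⟩ := hout ℓ hℓ hℓS
    obtain ⟨Ψ, hΨ, hΨr⟩ := exists_padic_lift hp2 (fun h => absurd h hp3) hΦ hℓ hℓL
      (hcast' (dvd_mul_right L p) hℓ1) hℓp (heig ℓ hℓ hℓS)
    refine ⟨_, pow_ne_zero _ ?_, Ψ, hΨ, hΨr⟩
    rw [hcast (dvd_mul_left p L) hℓ1, one_add_one_eq_two]
    exact sub_ne_zero.mpr hℓa

end Lift

theorem expChar_nsmul (a b : ℕ) (hb : b ≠ 0) (m : ℤ) :
    b • expChar (a * b) m = expChar a m := by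
  simp only [expChar, zmultiplesHom_apply]
  rw [← natCast_zsmul, smul_comm, natCast_zsmul]
  congr 1
  refine Additive.toMul.injective (Units.ext ?_)
  simp only [toMul_nsmul, toMul_ofMul, Units.val_pow_eq_pow_val, Units.val_mk0]
  rw [← Complex.exp_nat_mul]
  congr 1
  have hb' : (b : ℂ) ≠ 0 := Nat.cast_ne_zero.mpr hb
  push_cast
  field_simp

variable [Algebra Qbar ℂ] {L : ℕ} [NeZero L]

theorem KummerRel.eq_of_eq {n : ℕ} (hn : n ≠ 0) {x y : JZero L}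
    {c : Additive (Gamma0 L) →+ Additive ℂˣ} (hx : KummerRel L n x c) (hy : KummerRel L n y c) :
    x = y := by
  have h := hx.add (hy.zsmul hn (-1))
  have e : ((-1 : ℤ) • c : Additive (Gamma0 L) →+ Additive ℂˣ) = -c := neg_one_zsmul c
  have e' : ((-1 : ℤ) • y : JZero L) = -y := neg_one_zsmul y
  rw [e, e'] at h
  have e0 : c + -c = 0 := add_neg_cancel c
  rw [e0] at h
  rw [← sub_eq_zero, sub_eq_add_neg]
  exact h.eq_zero hn

theorem KummerRel.nsmul' {n : ℕ} (hn : n ≠ 0) {x : JZero L}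
    {c : Additive (Gamma0 L) →+ Additive ℂˣ} (hx : KummerRel L n x c) (j : ℕ) :
    KummerRel L n (j • x) (j • c) := by
  have h := hx.zsmul hn j
  have e : ((j : ℤ) • c : Additive (Gamma0 L) →+ Additive ℂˣ) = j • c := natCast_zsmul c j
  have e' : ((j : ℤ) • x : JZero L) = j • x := natCast_zsmul x j
  simpa only [e, e'] using h

/-- A symbol with a lift to `ℤ_p` has a torsion class with the same periods. -/
theorem exists_kummer_of_lift {Φ : Cusp → Cusp → ZMod p} (hΦ : Φ ∈ Lev (ZMod p) L)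
    {Ψ : Cusp → Cusp → ℤ_[p]} (hΨ : Ψ ∈ Lev ℤ_[p] L) (hred : mapVal (redP p) Ψ = Φ) :
    ∃ x : JZero L, KummerRel L p x ((expZ p).comp (perHom hΦ)) := by
  have hp : p.Prime := Fact.out
  obtain ⟨E, hE⟩ := exists_lift (N := L) hp
  set n := p ^ (1 + E) with hn
  have : NeZero n := ⟨pow_ne_zero _ hp.ne_zero⟩
  set d : Additive (Gamma0 L) →+ Additive ℂˣ :=
    (expZ n).comp ((PadicInt.toZModPow (1 + E)).toAddMonoidHom.comp (perHom hΨ)) with hd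
  obtain ⟨φ, hφ⟩ := hE 1 d
    (fun γ hγ => by
      rw [hd, AddMonoidHom.comp_apply, AddMonoidHom.comp_apply, perHom_parabolic hΨ γ hγ, map_zero,
        map_zero])
    (AddMonoidHom.ext fun g => by
      show p ^ (1 + E) • d g = (0 : Additive ℂˣ)
      rw [hd, AddMonoidHom.comp_apply, ← map_nsmul, nsmul_eq_mul,
        ZMod.natCast_self, zero_mul, map_zero])
  obtain ⟨x, hx⟩ := exists_kummerRel_redChar (torsionCount (p := p)) 1 φ
  rw [pow_one] at hx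
  refine ⟨x, ?_⟩
  convert hx using 1
  rw [show redChar p φ = redChar (p ^ 1) φ by rw [pow_one], hφ]
  refine AddMonoidHom.ext fun g => ?_
  obtain ⟨g, rfl⟩ := Additive.ofMul.surjective g
  show _ = p ^ E • d (Additive.ofMul g)
  rw [hd, AddMonoidHom.comp_apply, AddMonoidHom.comp_apply, AddMonoidHom.comp_apply]
  set z := perHom hΨ (Additive.ofMul g)
  obtain ⟨m, hm⟩ := ZMod.intCast_surjective (PadicInt.toZModPow (1 + E) z)
  have hz : perHom hΦ (Additive.ofMul g) = (m : ZMod p) := by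
    have h0 : redP p (z - (m : ℤ_[p])) = 0 :=
      redP_eq_zero (m := 1 + E) (by omega) (by rw [map_sub, map_intCast, hm, sub_self])
    rw [map_sub, map_intCast, sub_eq_zero] at h0
    rw [← h0]
    exact (congrFun (congrFun hred _) _).symm
  rw [hz, expZ_intCast]
  show _ = p ^ E • expZ n (PadicInt.toZModPow (1 + E) z)
  rw [← hm, expZ_intCast, hn, pow_add, pow_one, expChar_nsmul _ _ (pow_ne_zero _ hp.ne_zero)]

/-- **The torsion class of a residual eigen symbol.** -/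
theorem exists_torsion_of_symb (hp2 : p ≠ 2) {S : Finset ℕ}
    (hS : ∀ ℓ, ℓ.Prime → ℓ ∣ L * p → ℓ ∈ S) (a : ℕ → ℕ)
    (hne : ∀ m : ℕ, 0 < m → ∃ ℓ, ℓ.Prime ∧ ℓ ∉ S ∧ (ℓ : ZMod m) = 1 ∧ (a ℓ : ZMod p) ≠ 2)
    (h3 : p = 3 → ∃ r, r.Prime ∧ r ∉ S ∧ r % 3 = 2 ∧ (a r : ZMod p) ≠ 0)
    {Φ : Cusp → Cusp → ZMod p} (hΦ : Φ ∈ Lev (ZMod p) L)
    (heig : ∀ ℓ, ℓ.Prime → ℓ ∉ S → tOp (ZMod p) ℓ Φ = (a ℓ : ZMod p) • Φ) :
    ∃ x ∈ SemistableFinals.eigenTors p L S a, KummerRel L p x ((expZ p).comp (perHom hΦ)) := by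
  have hp : p.Prime := Fact.out
  obtain ⟨c, hc, Ψ, hΨ, hred⟩ := exists_multiple_lift hp2 hS a hne h3 hΦ heig
  obtain ⟨y, hy⟩ := exists_kummer_of_lift (Submodule.smul_mem _ c hΦ) hΨ hred
  have hkey : c⁻¹.val • (expZ p).comp (perHom (Submodule.smul_mem _ c hΦ)) =
      (expZ p).comp (perHom hΦ) := by
    refine AddMonoidHom.ext fun g => ?_
    show c⁻¹.val • expZ p _ = expZ p _
    rw [← map_nsmul, nsmul_eq_mul, ZMod.natCast_zmod_val]
    congr 1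
    show c⁻¹ * (c * _) = _
    rw [← mul_assoc, inv_mul_cancel₀ hc, one_mul]
    rfl
  have hx := KummerRel.nsmul' hp.ne_zero hy c⁻¹.val
  rw [hkey] at hx
  refine ⟨_, ⟨hx.nsmul_self_eq_zero, fun ℓ hℓ hℓS => ?_⟩, hx⟩
  have hℓL : ¬ ℓ ∣ L := fun hd => hℓS (hS ℓ hℓ (hd.mul_right p))
  have : NeZero ℓ := ⟨hℓ.ne_zero⟩
  have h1 := hx.hecke ⟨ℓ, hℓ⟩
  have h2 := KummerRel.nsmul' hp.ne_zero hx (a ℓ)
  refine KummerRel.eq_of_eq hp.ne_zero h1 ?_
  convert h2 using 1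
  show heckeHom L ℓ (Additive ℂˣ) _ = _
  rw [heckeHom_comp, heckeHom_perHom hℓ hℓL hΦ]
  refine AddMonoidHom.ext fun g => ?_
  show expZ p _ = a ℓ • expZ p _
  rw [← map_nsmul, nsmul_eq_mul]
  congr 1
  show tOp (ZMod p) ℓ Φ _ _ = _
  rw [heig ℓ hℓ hℓS]
  rfl

end FLTAgent.LowerSquare

end
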