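import Fermat.Agent.LowerSquare.Interface
import Fermat.Agent.LowerSquare.SymbolModules
import Fermat.Agent.LowerSquare.TorsionOfSymb

/-!
# Kernel operators kill eigen symbols

The geometric input, applied to the torsion classes of residual eigen symbols of level `q² M`,
shows that the kernel operators kill the eigen symbols with values in functions on pairs of lines.
-/

set_option autoImplicit false

noncomputable section

open Matrix CongruenceSubgroup ModularCurve
open scoped MatrixGroups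

namespace FLTAgent.LowerSquare

open FLTAgent.LevelRaising FLTAgent.HeckeJacobian FLTAgent.SemistableHecke
open FLTAgent.SemistableFinals (eigenTors)

local notation "Qbar" => AlgebraicClosure ℚ

theorem gamma_mono {A B : ℕ} (h : A ∣ B) {γ : SL(2, ℤ)} (hγ : γ ∈ Gamma B) : γ ∈ Gamma A := by
  obtain ⟨h1, h2, h3, h4⟩ := Gamma_mem.mp hγ
  refine Gamma_mem.mpr ⟨?_, ?_, ?_, ?_⟩
  · have := congrArg (ZMod.castHom h (ZMod A)) h1
    rwa [map_intCast, map_one] at this
  · simpa using congrArg (ZMod.castHom h (ZMod A)) h2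
  · simpa using congrArg (ZMod.castHom h (ZMod A)) h3
  · have := congrArg (ZMod.castHom h (ZMod A)) h4
    rwa [map_intCast, map_one] at this

/-! ### Pairs and options -/

section Pairs

variable {q : ℕ} [Fact q.Prime] {k : Type} [Field k]

theorem lineOf_eq_smul_infty (g : SL(2, ℤ)) :
    (lineOf q (g 0 0) (g 1 0) : Lines q) = redSL q g • OnePoint.infty := by
  refine Eq.trans ?_ (OnePoint.smul_infty_eq_ite (redSL q g)).symm
  simp only [redSL_apply, lineOf, div_eq_mul_inv]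
  split_ifs <;> rfl

theorem lineOf_eq_smul_zero (g : SL(2, ℤ)) :
    (lineOf q (g 0 1) (g 1 1) : Lines q) = redSL q g • ((0 : ZMod q) : Lines q) := by
  refine Eq.trans ?_ OnePoint.smul_some_eq_ite.symm
  simp only [redSL_apply, lineOf, div_eq_mul_inv, mul_zero, zero_add]
  split_ifs <;> rfl

theorem pairOf_of_smul_base {g : SL(2, ℤ)} {R : Pairs q} (h : redSL q g • pBase = R) :
    pairOf q g = R.1 := by
  subst h
  exact Prod.ext (lineOf_eq_smul_infty g) (lineOf_eq_smul_zero g)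

/-- The extension of a function on pairs by zero on the diagonal. -/
def extDiag {A : Type} [Zero A] (f : Pairs q → A) : Option (ZMod q) × Option (ZMod q) → A :=
  fun P => if h : P.1 ≠ P.2 then f ⟨P, h⟩ else 0

omit [Fact (Nat.Prime q)] in
theorem extDiag_apply {A : Type} [Zero A] (f : Pairs q → A) (R : Pairs q) :
    extDiag f R.1 = f R := by
  exact (dif_pos R.2).trans (congrArg f (Subtype.ext rfl))

omit [Fact (Nat.Prime q)] in
theorem extDiag_diag {A : Type} [Zero A] (f : Pairs q → A) {P : Option (ZMod q) × Option (ZMod q)}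
    (h : P.1 = P.2) : extDiag f P = 0 := by
  rw [extDiag, dif_neg (not_not.mpr h)]

theorem sum_extDiag {A : Type} [AddCommMonoid A] (f : Pairs q → A)
    (g : Option (ZMod q) × Option (ZMod q) → A) (h : ∀ R : Pairs q, g R.1 = f R)
    (h0 : ∀ P : Option (ZMod q) × Option (ZMod q), P.1 = P.2 → g P = 0) :
    ∑ P, g P = ∑ R, f R := by
  refine (Fintype.sum_of_injective (fun R : Pairs q => R.1) Subtype.val_injective f g
    (fun P hP => h0 P (by_contra fun hne => hP ⟨⟨P, hne⟩, rfl⟩)) fun R => (h R).symm).symm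

theorem torus_smul_option (u : (ZMod q)ˣ) (L : Lines q) :
    torus u • L = Option.map ((u : ZMod q) * ·) (L : Option (ZMod q)) := by
  cases L using OnePoint.rec with
  | infty => exact torus_smul_infty u
  | coe x => exact torus_smul_coe u x

/-- A kernel of pairs, read through a functional, is a kernel. -/
theorem IsPairKernel.isKernel {ν : Pairs q → k} (hν : IsPairKernel ν) {R : Type} [CommRing R]
    (f : k →+ R) : IsKernel (extDiag fun P => f (ν P)) where
  diag L := extDiag_diag _ rfl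
  invariant u L L' := by
    by_cases h : L = L'
    · subst h
      rw [extDiag_diag _ rfl, extDiag_diag _ rfl]
    · set R : Pairs q := ⟨(L, L'), h⟩
      have e : (torus u • R).1 = (L.map ((u : ZMod q) * ·), L'.map ((u : ZMod q) * ·)) :=
        Prod.ext (torus_smul_option u L) (torus_smul_option u L')
      rw [← e, extDiag_apply, show (L, L') = R.1 from rfl, extDiag_apply, hν.invariant]
  sum_fst L := by
    have e := congrArg f (hν.sum_fst L)
    rw [map_sum, map_zero] at e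
    rw [← e, ← sum_extDiag (fun R : Pairs q => f (if R.1.1 = L then ν R else 0))
      (fun P => if P.1 = L then extDiag (fun P => f (ν P)) P else 0)
      (fun R => by
        rw [extDiag_apply]
        by_cases hL : R.1.1 = L
        · exact (if_pos hL).trans (congrArg f (if_pos hL).symm)
        · exact ((if_neg hL).trans (map_zero f).symm).trans (congrArg f (if_neg hL).symm))
      (fun P hP => by rw [extDiag_diag _ hP, ite_self])]
    rw [Fintype.sum_prod_type, Finset.sum_eq_single L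
      (fun b _ hb => Finset.sum_eq_zero fun c _ => if_neg hb)
      (fun h => absurd (Finset.mem_univ L) h)]
    exact Finset.sum_congr rfl fun L' _ => (if_pos rfl).symm
  sum_snd L' := by
    have e := congrArg f (hν.sum_snd L')
    rw [map_sum, map_zero] at e
    rw [← e, ← sum_extDiag (fun R : Pairs q => f (if R.1.2 = L' then ν R else 0))
      (fun P => if P.2 = L' then extDiag (fun P => f (ν P)) P else 0)
      (fun R => by
        rw [extDiag_apply]
        by_cases hL : R.1.2 = L'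
        · exact (if_pos hL).trans (congrArg f (if_pos hL).symm)
        · exact ((if_neg hL).trans (map_zero f).symm).trans (congrArg f (if_neg hL).symm))
      (fun P hP => by rw [extDiag_diag _ hP, ite_self])]
    rw [Fintype.sum_prod_type]
    refine Finset.sum_congr rfl fun L _ => Eq.symm ?_
    rw [Finset.sum_eq_single L' (fun b _ hb => if_neg hb)
      (fun h => absurd (Finset.mem_univ L') h)]
    exact if_pos rfl

/-- The kernel operators are equivariant. -/
theorem opKer_pairRep {ν : Pairs q → k} (hν : IsPairKernel ν) (g : GLq q) (f : Pairs q → k) :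
    opKer ν (pairRep q k g f) = pairRep q k g (opKer ν f) := by
  funext P
  rw [permRep_apply, opKer_apply, opKer_apply]
  obtain ⟨a, ha⟩ := exists_torus_of_smul_base
    (g := (pairElt (g⁻¹ • P))⁻¹ * g⁻¹ * pairElt P) (by
      rw [mul_smul, mul_smul, pairElt_smul, inv_smul_eq_iff, pairElt_smul])
  have hd : ∀ R : Pairs q,
      g⁻¹ • pairElt P • R = pairElt (g⁻¹ • P) • torus a • R := fun R => by
    have hL : ∀ L : Lines q, g⁻¹ • pairElt P • L = pairElt (g⁻¹ • P) • torus a • L := fun L => by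
      have h := ha (torus a • L)
      rw [mul_smul, inv_smul_smul, mul_smul, mul_smul, inv_smul_eq_iff] at h
      exact h
    exact pairs_ext (hL R.1.1) (hL R.1.2)
  simp only [permRep_apply, hd]
  exact Fintype.sum_bijective _ (MulAction.bijective (torus a)) _ _ fun R => by
    rw [hν.invariant]

theorem opKer_apply_base {ν : Pairs q → k} (hν : IsPairKernel ν) (f : Pairs q → k) :
    opKer ν f pBase = ∑ R, ν R * f R := by
  obtain ⟨a, ha⟩ := exists_torus_of_smul_base (pairElt_smul (pBase : Pairs q))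
  have hd : ∀ R : Pairs q, pairElt pBase • R = torus a • R := fun R => by
    have hL : ∀ L : Lines q, pairElt pBase • L = torus a • L := fun L => by
      have h := ha (torus a • L)
      rwa [mul_smul, inv_smul_smul] at h
    refine pairs_ext ?_ ?_
    · rw [smul_pair_fst, smul_pair_fst]; exact hL _
    · rw [smul_pair_snd, smul_pair_snd]; exact hL _
  rw [opKer_apply]
  exact Fintype.sum_bijective _ (MulAction.bijective (torus a)) _ _ fun R => by
    rw [hν.invariant, hd]

variable {M : ℕ} {S : Finset ℕ} {a : ℕ → k}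

/-- Every eigen symbol with values in functions on pairs comes from level `q² M`. -/
theorem exists_of_isEigen_pairs (hqM : ¬ q ∣ M)
    (hS : ∀ ℓ, ℓ.Prime → ℓ ∉ S → ¬ ℓ ∣ q * M * q) {Φ : Cusp → Cusp → (Pairs q → k)}
    (hΦ : IsEigen (pairRep q k) M S a Φ) :
    (fun x y => Φ (ofMat (diagQ q) • x) (ofMat (diagQ q) • y) pBase) ∈ Lev k (q * M * q) ∧
      (∀ ℓ, ℓ.Prime → ℓ ∉ S →
        tOp k ℓ (fun x y => Φ (ofMat (diagQ q) • x) (ofMat (diagQ q) • y) pBase) =
          a ℓ • fun x y => Φ (ofMat (diagQ q) • x) (ofMat (diagQ q) • y) pBase) ∧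
      toPairs hqM (fun x y => Φ (ofMat (diagQ q) • x) (ofMat (diagQ q) • y) pBase) = Φ := by
  set φ : Cusp → Cusp → k := fun x y => Φ (ofMat (diagQ q) • x) (ofMat (diagQ q) • y) pBase
  have hmem : φ ∈ Lev k (q * M * q) := by
    refine ⟨fun x y z => congrFun (hΦ.1.1 _ _ _) pBase, fun γ hγ x y => ?_⟩
    obtain ⟨c, hc⟩ : ((q * M * q : ℕ) : ℤ) ∣ γ 1 0 := mem_Gamma0_iff_dvd.mp hγ
    push_cast at hc
    have hdet := γ.det_coe
    rw [Matrix.det_fin_two, hc] at hdet
    set γ' : SL(2, ℤ) := ⟨!![γ 0 0, (q : ℤ) * γ 0 1; (q : ℤ) * M * c, γ 1 1], by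
      rw [Matrix.det_fin_two_of]; linear_combination hdet⟩
    have hγ' : γ' ∈ Gamma0 M :=
      mem_Gamma0_iff_dvd.mpr (Dvd.intro_left _ rfl |>.mul_right c : (M : ℤ) ∣ (q : ℤ) * M * c)
    have hfix : (redSL q γ')⁻¹ • (pBase : Pairs q) = pBase := by
      rw [inv_smul_eq_iff]
      refine (pairs_ext ?_ ?_).symm
      · rw [smul_pair_fst]
        show redSL q γ' • (OnePoint.infty : Lines q) = OnePoint.infty
        rw [OnePoint.smul_infty_eq_self_iff, redSL_apply]
        simp [γ']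
      · rw [smul_pair_snd]
        show redSL q γ' • ((0 : ZMod q) : Lines q) = ((0 : ZMod q) : Lines q)
        rw [OnePoint.smul_some_eq_ite, redSL_apply, redSL_apply, redSL_apply, redSL_apply]
        have hd1 : ((γ 1 1 : ℤ) : ZMod q) ≠ 0 := fun h0 => by
          have h1 := congrArg (Int.cast : ℤ → ZMod q) hdet
          simp [h0] at h1
        simp [γ', hd1]
    have e : ∀ z : Cusp,
        ofMat (diagQ q) • glQ γ • z = glQ γ' • ofMat (diagQ q) • z := fun z => by
      rw [← mul_smul, ← mul_smul, ← ofMat_coe, ← ofMat_coe,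
        ← ofMat_mul diagQ_det_ne_zero (sl_det_ne_zero _),
        ← ofMat_mul (sl_det_ne_zero _) diagQ_det_ne_zero]
      congr 2
      ext i j
      fin_cases i <;> fin_cases j <;> simp [diagQ, γ', Matrix.mul_apply, Fin.sum_univ_two, hc] <;>
        ring
    show Φ (ofMat (diagQ q) • glQ γ • x) (ofMat (diagQ q) • glQ γ • y) pBase = φ x y
    rw [e, e, hΦ.1.2 γ' hγ', permRep_apply, hfix]
  have heq : toPairs hqM φ = Φ := funext fun x => funext fun y => funext fun P => by
    simp only [toPairs, φ, smul_inv_smul, ← map_inv]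
    rw [hΦ.1.2 _ (inv_mem (pairSL_mem P)), permRep_apply, map_inv, inv_inv, pairSL_smul]
  refine ⟨hmem, fun ℓ hℓ hℓS => ?_, heq⟩
  have hℓM := hS ℓ hℓ hℓS
  by_contra hne
  refine toPairs_ne_zero (hqM := hqM) (sub_mem (tOp_mem hℓ hℓM hmem) (Submodule.smul_mem _ _ hmem))
    (sub_ne_zero.mpr hne) ?_
  have h1 := hΦ.2 ℓ hℓ hℓS
  rw [← heq, twOp_toPairs hℓ hℓM hmem] at h1
  funext x y P
  exact sub_eq_zero.mpr (congrFun (congrFun (congrFun h1 x) y) P)

end Pairs

/-! ### The kernel combination of periods over `ℤ/p` -/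

/-- The vanishing of the kernel combination of periods on a principal congruence subgroup. -/
def KillsPeriods {A : Type} [AddCommMonoid A] (q M : ℕ) [NeZero q]
    (w : Option (ZMod q) × Option (ZMod q) → Gamma0 (q * M * q) → A) : Prop :=
  ∃ L : ℕ, 0 < L ∧ q * M ∣ L ∧
    ∀ g : Option (ZMod q) × Option (ZMod q) → SL(2, ℤ),
      (∀ P, P.1 ≠ P.2 → g P ∈ Gamma0 M ∧ pairOf q (g P) = P) →
    ∀ γ ∈ Gamma L, ∀ δ : Option (ZMod q) × Option (ZMod q) → Gamma0 (q * M * q),
      (∀ P, P.1 ≠ P.2 → !![(q : ℤ), 0; 0, 1] * ((δ P : SL(2, ℤ)) : Matrix (Fin 2) (Fin 2) ℤ) =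
        (((g P)⁻¹ * γ * g P : SL(2, ℤ)) : Matrix (Fin 2) (Fin 2) ℤ) * !![(q : ℤ), 0; 0, 1]) →
      ∑ P, w P (δ P) = 0

theorem killsPeriods_scalar [Algebra Qbar ℂ] (hOK : OperatorKills) {q p : ℕ} [Fact q.Prime]
    [Fact p.Prime] (hp2 : p ≠ 2) (hqp : q ≠ p) {M : ℕ} [NeZero M] [NeZero q] [NeZero (q * M)]
    [NeZero (q * M * q)] (hqM : ¬ q ∣ M) {S : Finset ℕ}
    (hS : ∀ ℓ, ℓ.Prime → ℓ ∣ q * M * q * p → ℓ ∈ S) (a : ℕ → ℕ)
    (hne : ∀ m, 0 < m → ∃ ℓ, ℓ.Prime ∧ ℓ ∉ S ∧ (ℓ : ZMod m) = 1 ∧ (a ℓ : ZMod p) ≠ 2)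
    (h3 : p = 3 → ∃ r, r.Prime ∧ r ∉ S ∧ r % 3 = 2 ∧ (a r : ZMod p) ≠ 0)
    (hpush : ∀ x ∈ eigenTors p (q * M * q) S a,
      pushJ (heckeAlphaBar Qbar (q * M) q) x = 0 ∧ pushJ (heckeBetaBar Qbar (q * M) q) x = 0)
    (hspan : ∀ U : AddSubgroup (JZero (q * M * q)),
      (∀ x ∈ eigenTors p (q * M * q) S a, ∀ A : ValuationSubring Qbar, A.LiesOverPrime q →
        (∀ s ∈ A.inertiaSubgroupIn ℚ, s • x = x) → x ∈ U) →
      ∀ x ∈ eigenTors p (q * M * q) S a, x ∈ U)
    {ν : Option (ZMod q) × Option (ZMod q) → ZMod p} (hν : IsKernel ν)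
    {φ : Cusp → Cusp → ZMod p} (hφ : φ ∈ Lev (ZMod p) (q * M * q))
    (heig : ∀ ℓ, ℓ.Prime → ℓ ∉ S → tOp (ZMod p) ℓ φ = (a ℓ : ZMod p) • φ) :
    KillsPeriods q M fun P δ => ν P * perHom hφ (Additive.ofMul δ) := by
  have hp : p.Prime := Fact.out
  let W : (Additive (Gamma0 (q * M * q)) →+ Additive ℂˣ) → Prop := fun c =>
    KillsPeriods q M fun P δ => (ν P).val • c (Additive.ofMul δ)
  let U : AddSubgroup (JZero (q * M * q)) :=
    { carrier := {x | ∃ c, KummerRel (q * M * q) p x c ∧ W c}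
      zero_mem' := ⟨0, KummerRel.zero, q * M, Nat.pos_of_ne_zero (NeZero.ne _), dvd_rfl,
        fun g _ γ _ δ _ => Finset.sum_eq_zero fun P _ => nsmul_zero _⟩
      add_mem' := by
        rintro x y ⟨c, hx, L, hL, hdL, hc⟩ ⟨d, hy, L', hL', hdL', hd⟩
        refine ⟨c + d, hx.add hy, L * L', Nat.mul_pos hL hL', hdL.trans (dvd_mul_right _ _),
          fun g hg γ hγ δ hδ => ?_⟩
        simp only [AddMonoidHom.add_apply, nsmul_add, Finset.sum_add_distrib]
        rw [hc g hg γ (gamma_mono (dvd_mul_right L L') hγ) δ hδ,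
          hd g hg γ (gamma_mono (dvd_mul_left L' L) hγ) δ hδ, add_zero]
      neg_mem' := by
        rintro x ⟨c, hx, L, hL, hdL, hc⟩
        refine ⟨-c, ?_, L, hL, hdL, fun g hg γ hγ δ hδ => ?_⟩
        · have h := hx.zsmul hp.ne_zero (-1)
          convert h using 1
          · exact (neg_one_zsmul x).symm
          · exact (neg_one_zsmul c).symm
        · simp only [AddMonoidHom.neg_apply, neg_nsmul, Finset.sum_neg_distrib]
          rw [hc g hg γ hγ δ hδ, neg_zero] }
  obtain ⟨x, hx, hxc⟩ := exists_torsion_of_symb hp2 hS a hne h3 hφ heig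
  obtain ⟨c, hxc', L, hL, hdL, hc⟩ := hspan U (fun y hy A hA hfix => by
    obtain ⟨c, hc⟩ := KummerRel.exists_of_torsion hp.ne_zero hy.1
    exact ⟨c, hc, hOK q p M Fact.out hp hp2 hqp hqM A hA y hy.1 hfix (hpush y hy).1 (hpush y hy).2
      c hc ν hν⟩) x hx
  cases KummerRel.unique hp.ne_zero hxc' hxc
  refine ⟨L, hL, hdL, fun g hg γ hγ δ hδ => expZ_injective p ?_⟩
  rw [map_sum, map_zero]
  refine Eq.trans (Finset.sum_congr rfl fun P _ => ?_) (hc g hg γ hγ δ hδ)
  show expZ p (ν P * _) = (ν P).val • expZ p _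
  rw [← map_nsmul, nsmul_eq_mul, ZMod.natCast_zmod_val]

/-! ### Extension of scalars and the main statement -/

variable {q p : ℕ} [Fact q.Prime] [Fact p.Prime] {M : ℕ} [NeZero M] [NeZero q] [NeZero (q * M)]
  [NeZero (q * M * q)] {k : Type} [Field k] [Finite k] [CharP k p] {S : Finset ℕ}

theorem killsPeriods_field [Algebra Qbar ℂ] (hOK : OperatorKills) (hp2 : p ≠ 2) (hqp : q ≠ p)
    (hqM : ¬ q ∣ M) (hS : ∀ ℓ, ℓ.Prime → ℓ ∣ q * M * q * p → ℓ ∈ S) (a : ℕ → ℕ)
    (hne : ∀ m, 0 < m → ∃ ℓ, ℓ.Prime ∧ ℓ ∉ S ∧ (ℓ : ZMod m) = 1 ∧ (a ℓ : ZMod p) ≠ 2)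
    (h3 : p = 3 → ∃ r, r.Prime ∧ r ∉ S ∧ r % 3 = 2 ∧ (a r : ZMod p) ≠ 0)
    (hpush : ∀ x ∈ eigenTors p (q * M * q) S a,
      pushJ (heckeAlphaBar Qbar (q * M) q) x = 0 ∧ pushJ (heckeBetaBar Qbar (q * M) q) x = 0)
    (hspan : ∀ U : AddSubgroup (JZero (q * M * q)),
      (∀ x ∈ eigenTors p (q * M * q) S a, ∀ A : ValuationSubring Qbar, A.LiesOverPrime q →
        (∀ s ∈ A.inertiaSubgroupIn ℚ, s • x = x) → x ∈ U) →
      ∀ x ∈ eigenTors p (q * M * q) S a, x ∈ U)
    {ν : Pairs q → k} (hν : IsPairKernel ν) {φ : Cusp → Cusp → k}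
    (hφ : φ ∈ Lev k (q * M * q))
    (heig : ∀ ℓ, ℓ.Prime → ℓ ∉ S → tOp k ℓ φ = (a ℓ : k) • φ) :
    KillsPeriods q M fun P δ => extDiag ν P * perHom hφ (Additive.ofMul δ) := by
  classical
  let _ : Algebra (ZMod p) k := ZMod.algebra k p
  have : Module.Finite (ZMod p) k := Module.Finite.of_finite
  let b := Module.Free.chooseBasis (ZMod p) k
  let f : Module.Free.ChooseBasisIndex (ZMod p) k → (k →+ ZMod p) := fun i =>
    (b.coord i).toAddMonoidHom
  have hmem : ∀ i, (fun x y => f i (φ x y)) ∈ Lev (ZMod p) (q * M * q) := fun i =>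
    ⟨fun x y z => by rw [← map_add, hφ.1], fun γ hγ x y => congrArg (f i) (hφ.2 γ hγ x y)⟩
  have heig' : ∀ i, ∀ ℓ, ℓ.Prime → ℓ ∉ S →
      tOp (ZMod p) ℓ (fun x y => f i (φ x y)) = (a ℓ : ZMod p) • fun x y => f i (φ x y) := by
    intro i ℓ hℓ hℓS
    funext x y
    have h := congrArg (f i) (congrFun (congrFun (heig ℓ hℓ hℓS) x) y)
    simp only [tOp, pullFam_apply, Finset.sum_apply, pull_apply, Pi.smul_apply, map_sum,
      smul_eq_mul, ← nsmul_eq_mul, map_nsmul] at h ⊢
    exact h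
  have hij := fun i j => killsPeriods_scalar hOK hp2 hqp hqM hS a hne h3 hpush hspan
    (hν.isKernel (f i)) (hmem j) (heig' j)
  choose L hL hdL hLk using hij
  refine ⟨q * M * ∏ i, ∏ j, L i j, Nat.mul_pos (Nat.pos_of_ne_zero (NeZero.ne _))
    (Finset.prod_pos fun i _ => Finset.prod_pos fun j _ => hL i j), dvd_mul_right _ _,
    fun g hg γ hγ δ hδ => ?_⟩
  have h0 : ∀ i j, ∑ P,
    extDiag (fun R => f i (ν R)) P * f j (perHom hφ (Additive.ofMul (δ P))) = 0 :=
    fun i j => hLk i j g hg γ (gamma_mono (Dvd.dvd.mul_left ((Finset.dvd_prod_of_mem _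
      (Finset.mem_univ j)).trans (Finset.dvd_prod_of_mem (fun i => ∏ j, L i j)
        (Finset.mem_univ i))) _) hγ) δ hδ
  have hf : ∀ i P, extDiag (fun R => f i (ν R)) P = f i (extDiag ν P) := fun i P => by
    by_cases h : P.1 = P.2
    · rw [extDiag_diag _ h, extDiag_diag _ h, map_zero]
    · rw [extDiag, extDiag, dif_pos h, dif_pos h]
  simp only [hf] at h0
  have hexp : ∀ z : k, z = ∑ i, f i z • b i := fun z => (b.sum_repr z).symm
  calc ∑ P, extDiag ν P * perHom hφ (Additive.ofMul (δ P))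
      = ∑ P, ∑ i, ∑ j, (f i (extDiag ν P) * f j (perHom hφ (Additive.ofMul (δ P)))) •
        (b i * b j) := by
        refine Finset.sum_congr rfl fun P _ => ?_
        conv_lhs => rw [hexp (extDiag ν P), hexp (perHom hφ _), Finset.sum_mul_sum]
        exact Finset.sum_congr rfl fun i _ => Finset.sum_congr rfl fun j _ => smul_mul_smul_comm ..
    _ = ∑ i, ∑ j, (∑ P, f i (extDiag ν P) * f j (perHom hφ (Additive.ofMul (δ P)))) •
          (b i * b j) := by
        rw [Finset.sum_comm]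
        refine Finset.sum_congr rfl fun i _ => ?_
        rw [Finset.sum_comm]
        exact Finset.sum_congr rfl fun j _ => (Finset.sum_smul).symm
    _ = 0 := by simp [h0]

/-- **Kernel operators kill eigen symbols.** -/
theorem kills_of_inputs (hOK : OperatorKills) [Algebra Qbar ℂ] {q p : ℕ} [Fact q.Prime]
    [Fact p.Prime] (hp2 : p ≠ 2) (hqp : q ≠ p) {M : ℕ} [NeZero M] [NeZero q] [NeZero (q * M)]
    [NeZero (q * M * q)] (hqM : ¬ q ∣ M) {k : Type} [Field k] [Finite k] [CharP k p]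
    {S : Finset ℕ} (hS : ∀ ℓ, ℓ.Prime → ℓ ∣ q * M * q * p → ℓ ∈ S) (a : ℕ → ℕ)
    (hne : ∀ m, 0 < m → ∃ ℓ, ℓ.Prime ∧ ℓ ∉ S ∧ (ℓ : ZMod m) = 1 ∧ (a ℓ : ZMod p) ≠ 2)
    (h3 : p = 3 → ∃ r, r.Prime ∧ r ∉ S ∧ r % 3 = 2 ∧ (a r : ZMod p) ≠ 0)
    (hpush : ∀ x ∈ eigenTors p (q * M * q) S a,
      pushJ (heckeAlphaBar Qbar (q * M) q) x = 0 ∧ pushJ (heckeBetaBar Qbar (q * M) q) x = 0)
    (hspan : ∀ U : AddSubgroup (JZero (q * M * q)),
      (∀ x ∈ eigenTors p (q * M * q) S a, ∀ A : ValuationSubring Qbar, A.LiesOverPrime q →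
        (∀ s ∈ A.inertiaSubgroupIn ℚ, s • x = x) → x ∈ U) →
      ∀ x ∈ eigenTors p (q * M * q) S a, x ∈ U) :
    ∀ ν : Pairs q → k, IsPairKernel ν → ∀ Φ, IsEigen (pairRep q k) M S (fun l => (a l : k)) Φ →
      ∀ x y, opKer ν (Φ x y) = 0 := by
  intro ν hν Φ hΦ
  have hp : p.Prime := Fact.out
  have hSL : ∀ ℓ, ℓ.Prime → ℓ ∉ S → ¬ ℓ ∣ q * M * q := fun ℓ hℓ hℓS h =>
    hℓS (hS ℓ hℓ (h.mul_right p))
  obtain ⟨hφ, hφe, hφP⟩ := exists_of_isEigen_pairs hqM hSL hΦ
  set φ : Cusp → Cusp → k := fun x y => Φ (ofMat (diagQ q) • x) (ofMat (diagQ q) • y) pBase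
  have hΦ'' := hΦ.comp (opKer ν) (fun g v => opKer_pairRep hν g v)
  obtain ⟨hψ, hψe, hψP⟩ := exists_of_isEigen_pairs hqM hSL hΦ''
  set ψ : Cusp → Cusp → k :=
    fun x y => opKer ν (Φ (ofMat (diagQ q) • x) (ofMat (diagQ q) • y)) pBase
  obtain ⟨L, hL, hdL, hLk⟩ := killsPeriods_field hOK hp2 hqp hqM hS a hne h3 hpush hspan hν hφ hφe
  set L' := q * L * (q * M * q) * p with hL'
  obtain ⟨ℓ, hℓ, hℓS, hℓ1, hℓa⟩ := hne L' (Nat.pos_of_ne_zero (Nat.mul_ne_zero (Nat.mul_ne_zero
    (Nat.mul_ne_zero (NeZero.ne q) hL.ne') (NeZero.ne _)) hp.ne_zero))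
  have hψ0 : ψ = 0 := by
    refine eq_zero_of_periods hψ (L' := L') ((dvd_mul_left _ _).mul_right p) ?_ hℓ hℓ1
      (c := (a ℓ : k)) ?_ (hψe ℓ hℓ hℓS)
    · intro γ' hγ' hγ'0
      have hqL : q * L ∣ L' := (dvd_mul_right _ _).mul_right p
      obtain ⟨⟨h00, h01, h10, h11⟩⟩ : _ ∧ True := ⟨Gamma_mem.mp (gamma_mono hqL hγ'), trivial⟩
      obtain ⟨c, hc⟩ : (q : ℤ) * L ∣ γ' 1 0 := by
        rw [ZMod.intCast_zmod_eq_zero_iff_dvd] at h10; exact_mod_cast h10
      have hL' : ∀ {z w : ℤ}, (z : ZMod (q * L)) = w → (z : ZMod L) = w := fun {z w} h => by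
        have := congrArg (ZMod.castHom (dvd_mul_left L q) (ZMod L)) h
        rwa [map_intCast, map_intCast] at this
      have hdet := γ'.det_coe
      rw [Matrix.det_fin_two, hc] at hdet
      set γ : SL(2, ℤ) := ⟨!![γ' 0 0, (q : ℤ) * γ' 0 1; (L : ℤ) * c, γ' 1 1], by
        rw [Matrix.det_fin_two_of]; linear_combination hdet⟩ with hγdef
      have hγ : γ ∈ Gamma L := by
        rw [Gamma_mem]
        refine ⟨?_, ?_, ?_, ?_⟩
        · simpa [γ] using hL' (z := γ' 0 0) (w := 1) (by simpa using h00)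
        · simp [γ, show ((γ' 0 1 : ℤ) : ZMod L) = 0 by
            simpa using hL' (z := γ' 0 1) (w := 0) (by simpa using h01)]
        · simp [γ]
        · simpa [γ] using hL' (z := γ' 1 1) (w := 1) (by simpa using h11)
      have hDγ : ofMat (diagQ q) * glQ γ' = glQ γ * ofMat (diagQ q) := by
        rw [← ofMat_coe, ← ofMat_coe, ← ofMat_mul diagQ_det_ne_zero (sl_det_ne_zero _),
          ← ofMat_mul (sl_det_ne_zero _) diagQ_det_ne_zero]
        congr 1
        ext i j
        fin_cases i <;> fin_cases j <;> simp [diagQ, γ, Matrix.mul_apply, Fin.sum_univ_two, hc] <;>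
          ring
      set gR : Pairs q → SL(2, ℤ) := pairSL hqM
      have hA : ∀ R : Pairs q, ∃ A' : Gamma0 (q * M * q),
          (((gR R)⁻¹ * γ * gR R : SL(2, ℤ)) : M2) * diagQ q =
            diagQ q * ((A' : SL(2, ℤ)) : M2) := fun R => by
        have hG : (gR R)⁻¹ * γ * gR R ∈ Gamma (q * M) := gamma_mono hdL
          (by simpa using (Gamma_normal L).conj_mem γ hγ (gR R)⁻¹)
        obtain ⟨-, e01, e10, -⟩ := Gamma_mem.mp hG
        rw [ZMod.intCast_zmod_eq_zero_iff_dvd] at e01 e10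
        obtain ⟨A', hA', hdet', hlow⟩ := exists_conj_diagQ (M := M)
          ((Int.natCast_dvd_natCast.mpr (dvd_mul_right q M)).trans e01)
          ((Int.natCast_dvd_natCast.mpr (dvd_mul_right q M)).trans e10)
          ((Int.natCast_dvd_natCast.mpr (dvd_mul_left M q)).trans e10) hqM
        rw [((gR R)⁻¹ * γ * gR R).det_coe] at hdet'
        exact ⟨⟨⟨A', hdet'⟩, mem_Gamma0_iff_dvd.mpr hlow⟩, hA'⟩
      choose δR hδR using hA
      classical
      have key := hLk (fun P => if h : P.1 ≠ P.2 then gR ⟨P, h⟩ else 1)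
        (fun P hP => by
          rw [dif_pos hP]
          exact ⟨pairSL_mem _, pairOf_of_smul_base (R := ⟨P, hP⟩) (pairSL_smul _)⟩)
        γ hγ (fun P => if h : P.1 ≠ P.2 then δR ⟨P, h⟩ else 1)
        (fun P hP => by
          rw [dif_pos hP, dif_pos hP]
          exact (hδR _).symm)
      rw [sum_extDiag (fun R : Pairs q => ν R * perHom hφ (Additive.ofMul (δR R))) _
        (fun R => congrArg₂ (fun u d => u * perHom hφ (Additive.ofMul d)) (extDiag_apply ν R)
          ((dif_pos R.2).trans (congrArg δR (Subtype.ext rfl))))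
        (fun P hP => (congrArg (· * _) (extDiag_diag ν hP)).trans (zero_mul _))] at key
      rw [perHom_apply hψ ⟨γ', hγ'0⟩ OnePoint.infty]
      show opKer ν (Φ _ _) pBase = 0
      rw [opKer_apply_base hν, ← key]
      refine Finset.sum_congr rfl fun R _ => congrArg (ν R * ·) ?_
      set D := ofMat (diagQ q)
      set z : Cusp := D⁻¹ • (glQ (gR R))⁻¹ • D • OnePoint.infty with hz
      have hδe : glQ (gR R)⁻¹ * glQ γ * glQ (gR R) * D = D * glQ (δR R : SL(2, ℤ)) := by
        rw [← map_mul, ← map_mul, ← ofMat_coe, ← ofMat_coe,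
          ← ofMat_mul (sl_det_ne_zero _) diagQ_det_ne_zero, hδR,
          ← ofMat_mul diagQ_det_ne_zero (sl_det_ne_zero _)]
      have e1 : glQ (δR R : SL(2, ℤ)) • z =
          D⁻¹ • (glQ (gR R))⁻¹ • D • glQ γ' • OnePoint.infty := by
        rw [eq_inv_mul_of_mul_eq hδe.symm, hz, ← mul_smul D (glQ γ'), hDγ, map_inv]
        simp only [mul_smul, smul_inv_smul]
      rw [perHom_apply hφ (δR R) z, e1, hz]
      show Φ _ _ R = toPairs hqM φ (D • OnePoint.infty) (D • glQ γ' • OnePoint.infty) R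
      rw [hφP]
    · have hℓp : (ℓ : ZMod p) = 1 := by
        have := congrArg (ZMod.castHom (dvd_mul_left p _) (ZMod p)) hℓ1
        rwa [map_natCast, map_one] at this
      intro h
      apply hℓa
      refine (ZMod.castHom (dvd_refl p) k).injective ?_
      rw [map_natCast, h, map_ofNat]
      have := congrArg (ZMod.castHom (dvd_refl p) k) hℓp
      rw [map_natCast, map_one] at this
      rw [this, one_add_one_eq_two]
  intro x y
  rw [show opKer ν (Φ x y) = toPairs hqM ψ x y from (congrFun (congrFun hψP x) y).symm, hψ0]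
  rfl

end FLTAgent.LowerSquare

end
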