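import Fermat.Agent.LowerSquare.Assembly
import Fermat.Agent.LowerSquare.Kills
import Fermat.Agent.LowerSquare.Geometry.HasPoints
import Fermat.Agent.CarayolSquare.Ordinary.Ordinary
import Fermat.Agent.CarayolSquare.Cusps.Cusps

/-!
# Lowering a square from the level

* `FLTAgent.LowerSquare.squareLowering`: a residually modular semistable curve of level divisible
  by `q²` but not by `q³` is residually modular of the level divided by `q`.
-/

set_option autoImplicit false

noncomputable section

namespace FLTAgent.LowerSquare

open FLTAgent.ModularityLifting

/-- The kernel input follows from the geometric input. -/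
theorem killsInput (hOK : OperatorKills) : KillsInput := by
  intro _ q p _ _ hp2 hqp M _ _ _ _ hqM k _ _ _ S hS a hne h3 hpush hspan
  exact kills_of_inputs hOK hp2 hqp hqM hS a hne h3 hpush hspan

/-- The operators kill, as ordinary points and cusps lie on a single component of the models. -/
theorem operatorKills : OperatorKills :=
  Geometry.operatorKills_of_single (fun G _ P hP => G.singleAt_ordinary P hP)
    (fun G _ _ hu P h0 => G.singleAt_cusp hu P h0)

/-- **Lowering at a prime other than `p` whose square divides the level.** -/
theorem squareLowering (p : ℕ) [Fact p.Prime] (hp2 : p ≠ 2) (W : WeierstrassCurve ℤ)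
    (hΔ : W.Δ ≠ 0) (hW : W.IsSemistableModel) (hirr : W.ModRepIsIrreducible p) :
    Start.LowerSquareInput p W :=
  lowerSquare_of_kills (killsInput operatorKills) hp2 W hΔ hW hirr

end FLTAgent.LowerSquare

end
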