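import Fermat.Agent.LowerSquare.LiftPotential
import Fermat.Agent.LevelRaising.SymbolAlgebra
import Fermat.Agent.IgusaCover.LinAlg

/-!
# Symbols with values in functions on lines modulo constants lift

An eigen symbol with values in functions on lines modulo constants is, up to a nonzero scalar, the
image of a symbol with values in functions on lines, hence zero when the eigenvalues do not occur
at level `q M`.
-/

set_option autoImplicit false

noncomputable section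

open Matrix CongruenceSubgroup
open scoped MatrixGroups

namespace FLTAgent.LowerSquare

open FLTAgent.LevelRaising FLTAgent.ModularityLifting

local notation "GQ" => GL (Fin 2) ℚ

variable {q : ℕ} [Fact q.Prime] {k : Type} [Field k] {M : ℕ}

section Potential

variable {V W : Type} [AddCommGroup V] [Module k V] [AddCommGroup W] [Module k W]
  {ρ : Representation k (GLq q) V} {σ : Representation k (GLq q) W}
  (π : V →ₗ[k] W) (hπ : Function.Surjective π) (heq : ∀ g v, π (ρ g v) = σ g (π v))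

include hπ heq in
/-- A potential extends to `GL₂(ℚ)`. -/
theorem exists_gq_potential {Φ : Cusp → Cusp → W} (hΦ : Φ ∈ VSymb σ M) {F : SL(2, ℤ) → V}
    (hF : IsPot ρ M F) (hFπ : ∀ g, π (F g) = Φ OnePoint.infty (glQ g • OnePoint.infty)) :
    ∃ P : GQ → V, (∀ γ ∈ Gamma0 M, ∀ g, P (glQ γ * g) = ρ (redSL q γ) (P g) + F γ) ∧
      ∀ g, π (P g) = Φ OnePoint.infty (g • OnePoint.infty) := by
  set Γ' := (Gamma0 M).map (glQ : SL(2, ℤ) →* GQ)
  have hsel : ∀ r : GQ, ∃ γ ∈ Gamma0 M, glQ γ = r * ((r⁻¹ : GQ) : GQ ⧸ Γ').out := by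
    intro r
    obtain ⟨⟨h, γ, hγ, rfl⟩, heq⟩ := QuotientGroup.mk_out_eq_mul Γ' r⁻¹
    simp only at heq
    exact ⟨γ, hγ, by rw [heq, mul_inv_cancel_left]⟩
  choose γr hγr heqr using hsel
  have hrep : ∀ γ ∈ Gamma0 M, ∀ r,
      ((((glQ γ : GQ) * r)⁻¹ : GQ) : GQ ⧸ Γ') = ((r⁻¹ : GQ) : GQ ⧸ Γ') := by
    intro γ hγ r
    rw [QuotientGroup.eq, inv_inv, mul_inv_cancel_right]
    exact Subgroup.mem_map_of_mem _ hγ
  refine ⟨fun r => ρ (redSL q (γr r)) (Function.surjInv hπ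
    (Φ OnePoint.infty (((r⁻¹ : GQ) : GQ ⧸ Γ').out⁻¹ • OnePoint.infty))) + F (γr r),
    fun γ hγ r => ?_, fun r => ?_⟩
  · have hg : γr (glQ γ * r) = γ * γr r := ModularityLifting.glQ_injective (by
      rw [heqr, hrep γ hγ, map_mul, heqr, mul_assoc])
    simp only [hg, hrep γ hγ, hF.2 γ hγ, map_mul, Module.End.mul_apply, map_add]
    abel
  · rw [map_add, heq, Function.surjInv_eq hπ, hFπ, ← hΦ.2 _ (hγr r), add_comm, hΦ.1, ← mul_smul,
      heqr, mul_inv_cancel_right]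

end Potential

/-- The constant functions. -/
def constLines (q : ℕ) [Fact q.Prime] (k : Type) [Field k] : Submodule k (Lines q → k) where
  carrier := {f | IsConst f}
  zero_mem' := fun _ _ => rfl
  add_mem' := fun {f g} hf hg L L' => by simp only [Pi.add_apply, hf L L', hg L L']
  smul_mem' := fun c f hf L L' => by simp only [Pi.smul_apply, hf L L']

theorem isInv_constLines : IsInv (lineRep q k) (constLines q k) := fun g f hf => fun L L' => by
  rw [permRep_apply, permRep_apply]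
  exact hf _ _

theorem lineRep_neg_one : lineRep q k (redSL q (-1)) = 1 := by
  have h : ∀ L : Lines q, redSL q (-1) • L = L := fun L => by
    induction L using OnePoint.rec with
    | infty =>
      rw [OnePoint.smul_infty_eq_self_iff, redSL_apply]
      simp
    | coe x =>
      rw [OnePoint.smul_some_eq_ite]
      simp [redSL_apply]
  refine LinearMap.ext fun f => funext fun L => ?_
  rw [permRep_apply, Module.End.one_apply, show (redSL q (-1))⁻¹ • L = L from by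
    rw [inv_smul_eq_iff, h]]

theorem lineRep_apply_fixed {g : GLq q} {L : Lines q} (h : g • L = L) (f : Lines q → k) :
    lineRep q k g f L = f L := by
  rw [permRep_apply, inv_smul_eq_iff.mpr h.symm]

/-- The value of a symbol at the line `∞` is a symbol of level `q M`. -/
theorem eval_infty_mem {Φ : Cusp → Cusp → (Lines q → k)} (hΦ : Φ ∈ VSymb (lineRep q k) M) :
    (fun x y => Φ x y OnePoint.infty) ∈ Lev k (q * M) := by
  refine ⟨fun x y z => congrFun (hΦ.1 x y z) OnePoint.infty, fun γ hγ x y => ?_⟩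
  have hd := mem_Gamma0_iff_dvd.mp hγ
  push_cast at hd
  have h10 : redSL q γ • (OnePoint.infty : Lines q) = OnePoint.infty := by
    rw [OnePoint.smul_infty_eq_self_iff, redSL_apply, ZMod.intCast_zmod_eq_zero_iff_dvd]
    exact (dvd_mul_right _ _).trans hd
  show Φ _ _ OnePoint.infty = Φ x y OnePoint.infty
  rw [hΦ.2 γ (mem_Gamma0_iff_dvd.mpr ((dvd_mul_left _ _).trans hd)), lineRep_apply_fixed h10]

theorem eq_zero_of_eval_infty (hqM : ¬ q ∣ M) {Φ : Cusp → Cusp → (Lines q → k)}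
    (hΦ : Φ ∈ VSymb (lineRep q k) M) (h : ∀ x y, Φ x y OnePoint.infty = 0) : Φ = 0 := by
  funext x y L
  obtain ⟨γ, hγ, rfl⟩ := exists_gamma0_smul_infty hqM L
  have h1 := congrFun (hΦ.2 γ⁻¹ (inv_mem hγ) x y) OnePoint.infty
  rw [h, permRep_apply, map_inv, inv_inv] at h1
  exact h1.symm

theorem eval_twOp {ℓ : ℕ} (hℓq : ¬ q ∣ ℓ) (Φ : Cusp → Cusp → (Lines q → k)) :
    (fun x y => twOp (lineRep q k) ℓ Φ x y OnePoint.infty) =
      tOp k ℓ (fun x y => Φ x y OnePoint.infty) := by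
  funext x y
  simp only [twOp, Finset.sum_apply, permRep_apply, inv_inv, redMat_heckeFam_infty hℓq, tOp,
    pullFam_apply, pull_apply]

theorem twOp_comm (hqM : ¬ q ∣ M) {ℓ m : ℕ} (hℓ : ℓ.Prime) (hm : m.Prime) (hℓM : ¬ ℓ ∣ q * M)
    (hmM : ¬ m ∣ q * M) {Φ : Cusp → Cusp → (Lines q → k)} (hΦ : Φ ∈ VSymb (lineRep q k) M) :
    twOp (lineRep q k) ℓ (twOp (lineRep q k) m Φ) =
      twOp (lineRep q k) m (twOp (lineRep q k) ℓ Φ) := by
  rcases eq_or_ne ℓ m with rfl | hne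
  · rfl
  have hq : ∀ {n : ℕ}, n.Prime → ¬ n ∣ q * M → ¬ q ∣ n ∧ ¬ n ∣ M := fun {n} hn h =>
    ⟨fun hd => h (((Nat.prime_dvd_prime_iff_eq (Fact.out : q.Prime) hn).mp hd) ▸ dvd_mul_right q M),
      fun hd => h (hd.trans (dvd_mul_left M q))⟩
  obtain ⟨hℓq, hℓM'⟩ := hq hℓ hℓM
  obtain ⟨hmq, hmM'⟩ := hq hm hmM
  have h1 := twOp_mem hℓ hℓM' hℓq (twOp_mem hm hmM' hmq hΦ)
  have h2 := twOp_mem hm hmM' hmq (twOp_mem hℓ hℓM' hℓq hΦ)
  refine sub_eq_zero.mp (eq_zero_of_eval_infty hqM (sub_mem h1 h2) fun x y => ?_)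
  have e1 := eval_twOp hℓq (twOp (lineRep q k) m Φ)
  have e2 := eval_twOp hmq (twOp (lineRep q k) ℓ Φ)
  rw [eval_twOp hmq] at e1
  rw [eval_twOp hℓq] at e2
  rw [tOp_comm hℓ hm hne hℓM hmM (eval_infty_mem hΦ)] at e1
  simp only [Pi.sub_apply]
  rw [sub_eq_zero]
  exact congrFun (congrFun (e1.trans e2.symm) x) y

theorem finite_vsymb_lines [Finite k] [NeZero M] (hqM : ¬ q ∣ M) :
    Finite (VSymb (lineRep q k) M) := by
  have : NeZero (q * M) := ⟨mul_ne_zero (Fact.out : q.Prime).ne_zero (NeZero.ne M)⟩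
  have : Finite (Lev k (q * M)) := Module.finite_of_finite k
  refine Finite.of_injective
    (fun Φ : VSymb (lineRep q k) M => (⟨_, eval_infty_mem Φ.2⟩ : Lev k (q * M))) fun Φ Ψ h => ?_
  refine Subtype.ext (sub_eq_zero.mp (eq_zero_of_eval_infty hqM (sub_mem Φ.2 Ψ.2) fun x y => ?_))
  simp only [Pi.sub_apply]
  rw [sub_eq_zero]
  exact congrFun (congrFun (congrArg Subtype.val h) x) y

/-! ### Descent to the cusps -/

section Descent

variable {p : ℕ} [Fact p.Prime] [CharP k p]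

/-- The combination `T_ℓ P - 2 P` of a potential. -/
private def heckeDefect (ℓ : ℕ) (P : GQ → (Lines q → k)) (g : GQ) : Lines q → k :=
  heckeSum (lineRep q k) ℓ P g - (2 : k) • P g

/-- The parabolic element of exponent `n` fixing `u ∞`. -/
private def parab (u : SL(2, ℤ)) (n : ℤ) : SL(2, ℤ) := u * mT ^ n * u⁻¹

/-- `parab u` is additive in the exponent. -/
private theorem parab_add (u : SL(2, ℤ)) (a c : ℤ) :
    parab u a * parab u c = parab u (a + c) := by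
  simp only [parab, _root_.zpow_add]; group

/-- The exponents of the parabolic elements in `Γ₀(M)`. -/
private def parabExps (M : ℕ) (u : SL(2, ℤ)) : AddSubgroup ℤ where
  carrier := {n | parab u n ∈ Gamma0 M}
  zero_mem' := by
    show parab u 0 ∈ Gamma0 M
    simp only [parab, zpow_zero, mul_one, mul_inv_cancel]
    exact one_mem _
  add_mem' := fun {a c} ha hc => by
    show parab u (a + c) ∈ Gamma0 M
    rw [← parab_add]; exact mul_mem ha hc
  neg_mem' := fun {a} ha => by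
    show parab u (-a) ∈ Gamma0 M
    rw [show parab u (-a) = (parab u a)⁻¹ by
      simp only [parab, _root_.zpow_neg, _root_.mul_inv_rev, inv_inv, mul_assoc]]
    exact inv_mem ha

/-- A parabolic element fixes its line. -/
private theorem redSL_parab_smul (u : SL(2, ℤ)) (n : ℤ) :
    redSL q (parab u n) • redSL q u • (OnePoint.infty : Lines q) =
      redSL q u • OnePoint.infty := by
  have h : redSL q (mT ^ n) • (OnePoint.infty : Lines q) = OnePoint.infty := by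
    rw [OnePoint.smul_infty_eq_self_iff, redSL_apply, ModularGroup.coe_T_zpow]
    simp
  rw [parab, smul_smul, ← map_mul, inv_mul_cancel_right, map_mul, mul_smul, h]

/-- The error cocycle is additive along a parabolic subgroup, at its line. -/
private theorem apply_parab_natCast_mul {F : SL(2, ℤ) → (Lines q → k)}
    (hF : ∀ γ ∈ Gamma0 M, ∀ g, F (γ * g) = lineRep q k (redSL q γ) (F g) + F γ) (u : SL(2, ℤ))
    {L₀ : Lines q} (hL₀ : L₀ = redSL q u • OnePoint.infty) {n : ℤ} (hn : n ∈ parabExps M u)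
    (m : ℕ) : F (parab u ((m : ℤ) * n)) L₀ = (m : k) * F (parab u n) L₀ := by
  subst hL₀
  set L₀ : Lines q := redSL q u • OnePoint.infty
  have hadd : ∀ a c, a ∈ parabExps M u →
      F (parab u (a + c)) L₀ = F (parab u a) L₀ + F (parab u c) L₀ := fun a c ha => by
    rw [← parab_add, hF _ ha, Pi.add_apply, lineRep_apply_fixed (redSL_parab_smul u a), add_comm]
  induction m with
  | zero =>
    have h0 := hadd 0 0 (parabExps M u).zero_mem
    rw [add_zero, left_eq_add] at h0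
    simp [h0]
  | succ m ih =>
    rw [Nat.cast_succ, Nat.cast_succ, add_mul, one_mul, hadd _ _ (by
      rw [← smul_eq_mul]; exact (parabExps M u).zsmul_mem hn _), ih, add_mul, one_mul]

/-- One term of `T_ℓ P` under a parabolic translation by `ℓ n`. -/
private theorem heckeTerm_parab {P : GQ → (Lines q → k)} {F : SL(2, ℤ) → (Lines q → k)}
    (hP : ∀ γ ∈ Gamma0 M, ∀ g, P (glQ γ * g) = lineRep q k (redSL q γ) (P g) + F γ)
    (hF : ∀ γ ∈ Gamma0 M, ∀ g, F (γ * g) = lineRep q k (redSL q γ) (F g) + F γ)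
    {ℓ : ℕ} (hℓ : ℓ.Prime) (hℓq : ¬ q ∣ ℓ) (hℓz : (ℓ : ZMod q) = 1) (u : SL(2, ℤ)) {L₀ : Lines q}
    (hL₀ : L₀ = redSL q u • OnePoint.infty) {n : ℤ}
    (hn : n ∈ parabExps M u) (i : Option (Fin ℓ)) {γ : SL(2, ℤ)} (hγ : γ ∈ Gamma0 M) {c e β : ℤ}
    (hce : c * e = (ℓ : ℤ)) {cn : ℕ} (hcn : (cn : ℤ) = c) (hcnk : (cn : k) = 1)
    (heq : heckeFam ℓ i * (u : M2) = ((γ * u : SL(2, ℤ)) : M2) * !![c, β; 0, e]) :
    lineRep q k (redMat q (heckeFam ℓ i))⁻¹
        (P (ofMat (heckeFam ℓ i) * (glQ (parab u ((ℓ : ℤ) * n)) * glQ u))) L₀ =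
      lineRep q k (redMat q (heckeFam ℓ i))⁻¹ (P (ofMat (heckeFam ℓ i) * glQ u)) L₀ +
        F (parab u n) L₀ := by
  set B : M2 := !![c, β; 0, e] with hB
  have hBdet : B.det = (ℓ : ℤ) := by
    rw [hB, Matrix.det_fin_two_of, mul_zero, sub_zero, hce]
  have hBd0 : B.det ≠ 0 := by rw [hBdet]; exact_mod_cast hℓ.ne_zero
  have hBq : ((B.det : ℤ) : ZMod q) ≠ 0 := by
    rw [hBdet, Int.cast_natCast, hℓz]; exact one_ne_zero
  have hX : ofMat (heckeFam ℓ i) * glQ u = glQ γ * (glQ u * ofMat B) := by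
    rw [← ofMat_coe u, ← ofMat_mul (heckeFam_det_ne_zero hℓ.ne_zero i) (sl_det_ne_zero u),
      heq, ofMat_mul (sl_det_ne_zero _) hBd0, Matrix.SpecialLinearGroup.coe_mul,
      ofMat_mul (sl_det_ne_zero _) (sl_det_ne_zero _), ofMat_coe, mul_assoc]
  have hBT : ofMat B * glQ (mT ^ ((ℓ : ℤ) * n)) =
      glQ (mT ^ (((cn ^ 2 : ℕ) : ℤ) * n)) * ofMat B := by
    rw [← ofMat_coe, ← ofMat_coe, ← ofMat_mul hBd0 (sl_det_ne_zero _),
      ← ofMat_mul (sl_det_ne_zero _) hBd0, ModularGroup.coe_T_zpow, ModularGroup.coe_T_zpow]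
    congr 1
    ext a b
    fin_cases a <;> fin_cases b <;> simp [hB, Matrix.mul_apply, Fin.sum_univ_two, hcn]
    linear_combination -(n * c) * hce
  have hY : ofMat (heckeFam ℓ i) * (glQ (parab u ((ℓ : ℤ) * n)) * glQ u) =
      glQ γ * (glQ (parab u (((cn ^ 2 : ℕ) : ℤ) * n)) * (glQ u * ofMat B)) := by
    calc ofMat (heckeFam ℓ i) * (glQ (parab u ((ℓ : ℤ) * n)) * glQ u)
        = ofMat (heckeFam ℓ i) * glQ u * glQ (mT ^ ((ℓ : ℤ) * n)) := by
          simp only [parab, map_mul, map_inv]; group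
      _ = glQ γ * (glQ u * (ofMat B * glQ (mT ^ ((ℓ : ℤ) * n)))) := by
          rw [hX, mul_assoc, mul_assoc]
      _ = _ := by rw [hBT]; simp only [parab, map_mul, map_inv]; group
  have hline : (redSL q γ)⁻¹ • redMat q (heckeFam ℓ i) • L₀ = L₀ := by
    have hBfix : redMat q B • (OnePoint.infty : Lines q) = OnePoint.infty := by
      rw [OnePoint.smul_infty_eq_self_iff, redMat_apply hBq]
      simp [hB]
    rw [inv_smul_eq_iff, hL₀, smul_smul, redSL_eq_redMat,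
      ← redMat_mul (heckeFam_det_cast hℓq i) (det_cast_sl _), heq,
      redMat_mul (det_cast_sl _) hBq, ← redSL_eq_redMat, map_mul, mul_smul, mul_smul,
      hBfix, redSL_eq_redMat u]
  have hev' : ∀ x : GQ, lineRep q k (redMat q (heckeFam ℓ i))⁻¹ (P (glQ γ * x)) L₀ =
      P x L₀ + lineRep q k (redMat q (heckeFam ℓ i))⁻¹ (F γ) L₀ := fun x => by
    rw [hP _ hγ, map_add, Pi.add_apply, permRep_apply, inv_inv, permRep_apply, hline]
  have hPdiff : ∀ a ∈ parabExps M u, ∀ x : GQ,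
      P (glQ (parab u a) * x) L₀ = P x L₀ + F (parab u a) L₀ := fun a ha x => by
    rw [hP _ ha, Pi.add_apply, lineRep_apply_fixed (hL₀ ▸ redSL_parab_smul u a)]
  rw [hY, hX, hev', hev', hPdiff _ (by
    rw [← smul_eq_mul]; exact (parabExps M u).zsmul_mem hn _), apply_parab_natCast_mul hF u hL₀ hn,
    Nat.cast_pow, hcnk, one_pow, one_mul]
  ring

omit [Fact p.Prime] [CharP k p] in
/-- `T_ℓ P - 2 P` at the line of `u` is unchanged by the parabolic translation by `ℓ n`. -/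
private theorem heckeDefect_parab_natCast_mul {P : GQ → (Lines q → k)}
    {F : SL(2, ℤ) → (Lines q → k)}
    (hP : ∀ γ ∈ Gamma0 M, ∀ g, P (glQ γ * g) = lineRep q k (redSL q γ) (P g) + F γ)
    (hF : ∀ γ ∈ Gamma0 M, ∀ g, F (γ * g) = lineRep q k (redSL q γ) (F g) + F γ)
    {ℓ : ℕ} (hℓ : ℓ.Prime) (hℓq : ¬ q ∣ ℓ) (hℓ1 : (ℓ : ZMod (q * M * p)) = 1)
    (hℓz : (ℓ : ZMod q) = 1) (hℓk : (ℓ : k) = 1) (u : SL(2, ℤ))
    {L₀ : Lines q} (hL₀ : L₀ = redSL q u • OnePoint.infty) {n : ℤ} (hn : n ∈ parabExps M u) :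
    heckeDefect ℓ P (glQ (parab u ((ℓ : ℤ) * n)) * glQ u) L₀ =
      heckeDefect ℓ P (glQ u) L₀ := by
  choose h c e β hh _ hce hbig hsmall heq' using exists_decomp (L := q * M * p) hℓ hℓ1 u
  have hhM : ∀ i, h i ∈ Gamma0 M := fun i => mem_Gamma0_iff_dvd.mpr
    ((Int.natCast_dvd_natCast.mpr ((dvd_mul_left M q).trans (dvd_mul_right _ p))).trans
      (mem_Gamma0_iff_dvd.mp (hh i)))
  have hcnat : ∀ i, ∃ cn : ℕ, (cn : ℤ) = c i ∧ (cn : k) = 1 := fun i => by
    by_cases hb : IsBigIndex ℓ u i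
    · exact ⟨ℓ, (hbig i hb).symm, hℓk⟩
    · exact ⟨1, by rw [hsmall i hb, Nat.cast_one], Nat.cast_one⟩
  choose cn hcn hcnk using hcnat
  have hterm := fun i =>
    heckeTerm_parab hP hF hℓ hℓq hℓz u hL₀ hn i (hhM i) (hce i) (hcn i) (hcnk i) (heq' i)
  have hmem : (ℓ : ℤ) * n ∈ parabExps M u := by
    rw [← smul_eq_mul]; exact (parabExps M u).zsmul_mem hn _
  simp only [heckeDefect, heckeSum, Pi.sub_apply, Pi.smul_apply, Finset.sum_apply, hterm,
    Finset.sum_add_distrib, Finset.sum_const, Finset.card_univ, Fintype.card_option,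
    Fintype.card_fin, nsmul_eq_mul, smul_eq_mul]
  rw [hP _ hmem, Pi.add_apply, lineRep_apply_fixed (hL₀ ▸ redSL_parab_smul u _),
    apply_parab_natCast_mul hF u hL₀ hn, hℓk]
  push_cast
  rw [hℓk]
  ring

/-- A twisted equivariant function, constant up to lines on the fibres over cusps, is invariant
under parabolic elements if its value at their line is invariant under translation by `ℓ n`. -/
private theorem eq_of_parabolic_fix {DP : GQ → (Lines q → k)} {C : SL(2, ℤ) → (Lines q → k)}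
    (hC : ∀ γ ∈ Gamma0 M, ∀ g, DP (glQ γ * g) = lineRep q k (redSL q γ) (DP g) + C γ)
    (hconst : ∀ g g' : GQ, g • (OnePoint.infty : Cusp) = g' • OnePoint.infty →
      IsConst (DP g - DP g'))
    (hneg : ∀ g, DP (glQ (-1) * g) = DP g) {ℓ : ℕ} (hℓk : (ℓ : k) = 1) (u : SL(2, ℤ))
    {L₀ : Lines q}
    (hval : ∀ n ∈ parabExps M u, DP (glQ (parab u ((ℓ : ℤ) * n)) * glQ u) L₀ = DP (glQ u) L₀)
    {g : SL(2, ℤ)} (hg : g ∈ Gamma0 M)
    (hfix : glQ g • glQ u • (OnePoint.infty : Cusp) = glQ u • OnePoint.infty) :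
    DP (glQ g * glQ u) = DP (glQ u) := by
  let E : ℤ → (Lines q → k) := fun n => DP (glQ (parab u n) * glQ u) - DP (glQ u)
  have hEconst : ∀ n, IsConst (E n) := fun n => hconst _ _ (by
    rw [parab, mul_smul, ← glQ_mul_smul, inv_mul_cancel_right, glQ_mul_smul]
    congr 1
    rw [OnePoint.smul_infty_eq_self_iff, glQ_apply, ModularGroup.coe_T_zpow]
    simp)
  have hEadd : ∀ a c, a ∈ parabExps M u → E (a + c) = E a + E c := fun a c ha => by
    simp only [E]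
    rw [← parab_add, map_mul, mul_assoc, hC _ ha, hC _ ha,
      show DP (glQ (parab u c) * glQ u) = DP (glQ u) + E c by simp only [E]; abel, map_add,
      show lineRep q k (redSL q (parab u a)) (E c) = E c from
        funext fun L => by rw [permRep_apply]; exact hEconst c _ _]
    abel
  have hEmul : ∀ n ∈ parabExps M u, ∀ m : ℕ, E ((m : ℤ) * n) = (m : k) • E n := by
    intro n hn m
    induction m with
    | zero => simp [E, parab]
    | succ m ih =>
      rw [Nat.cast_succ, Nat.cast_succ, add_mul, one_mul, hEadd _ _ (by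
        rw [← smul_eq_mul]; exact (parabExps M u).zsmul_mem hn _), ih, add_smul, one_smul]
  have hE0 : ∀ n ∈ parabExps M u, E n = 0 := by
    intro n hn
    have h : E ((ℓ : ℤ) * n) L₀ = 0 := sub_eq_zero.mpr (hval n hn)
    rw [hEmul n hn, hℓk, one_smul] at h
    exact funext fun L => (hEconst n L L₀).trans h
  have hfix' : glQ (u⁻¹ * g * u) • (OnePoint.infty : Cusp) = OnePoint.infty := by
    rw [map_mul, map_mul, map_inv, mul_smul, mul_smul, hfix, inv_smul_smul]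
  obtain ⟨n, hn⟩ := eq_zpow_of_smul_infty hfix'
  have hgn : g = parab u n ∨ g = -parab u n := by
    rcases hn with hn | hn
    · left; simp only [parab]; rw [← hn]; group
    · right
      simp only [parab]
      rw [show mT ^ n = -(u⁻¹ * g * u) by rw [hn, neg_neg]]
      simp [mul_assoc]
  have hnZ : n ∈ parabExps M u := by
    show parab u n ∈ Gamma0 M
    rcases hgn with h | h
    · exact h ▸ hg
    · rw [← ModularityLifting.neg_mem_Gamma0_iff]; exact h ▸ hg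
  have h0 := hE0 n hnZ
  simp only [E, sub_eq_zero] at h0
  rcases hgn with h | h
  · rw [h, h0]
  · rw [h, ← neg_one_mul (parab u n), map_mul, mul_assoc, hneg, h0]

/-- A twisted equivariant function on `GL₂(ℚ)`, invariant under the parabolic elements, descends
to the cusps. -/
private theorem exists_descent {DP : GQ → (Lines q → k)} {C : SL(2, ℤ) → (Lines q → k)}
    (hC : ∀ γ ∈ Gamma0 M, ∀ g, DP (glQ γ * g) = lineRep q k (redSL q γ) (DP g) + C γ)
    (hpar : ∀ (u g : SL(2, ℤ)), g ∈ Gamma0 M →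
      glQ g • glQ u • (OnePoint.infty : Cusp) = glQ u • OnePoint.infty →
      DP (glQ g * glQ u) = DP (glQ u)) :
    ∃ f : Cusp → (Lines q → k),
      (∀ γ ∈ Gamma0 M, ∀ x, f (glQ γ • x) = lineRep q k (redSL q γ) (f x) + C γ) ∧
        ∀ x, ∃ g : GQ, g • OnePoint.infty = x ∧ f x = DP g := by
  let O := MulAction.orbitRel.Quotient ((Gamma0 M).map (glQ : SL(2, ℤ) →* GQ)) Cusp
  have hrep : ∀ o : O, ∃ u : SL(2, ℤ), glQ u • OnePoint.infty = Quotient.out o :=
    fun o => exists_glQ_smul_infty _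
  choose uo huo using hrep
  have hsel : ∀ x : Cusp, ∃ γ ∈ Gamma0 M, glQ γ • Quotient.out (⟦x⟧ : O) = x := fun x => by
    obtain ⟨⟨_, γ, hγ, rfl⟩, he⟩ := Quotient.exact (Quotient.out_eq (⟦x⟧ : O))
    refine ⟨γ⁻¹, inv_mem hγ, ?_⟩
    rw [← he, map_inv]
    exact inv_smul_smul (glQ γ) x
  choose γx hγx hxeq using hsel
  refine ⟨fun x => DP (glQ (γx x) * glQ (uo ⟦x⟧)), fun γ hγ x => ?_,
    fun x => ⟨_, by rw [mul_smul, huo, hxeq], rfl⟩⟩
  have hq' : (⟦glQ γ • x⟧ : O) = ⟦x⟧ :=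
    Quotient.sound ⟨⟨glQ γ, Subgroup.mem_map_of_mem _ hγ⟩, rfl⟩
  set δ := (γ * γx x)⁻¹ * γx (glQ γ • x) with hδdef
  have hδ : δ ∈ Gamma0 M := mul_mem (inv_mem (mul_mem hγ (hγx x))) (hγx _)
  have hstab : glQ δ • glQ (uo ⟦x⟧) • (OnePoint.infty : Cusp) =
      glQ (uo ⟦x⟧) • OnePoint.infty := by
    have e := hxeq (glQ γ • x)
    rw [hq'] at e
    rw [hδdef, glQ_mul_smul, huo, e, map_inv, inv_smul_eq_iff, glQ_mul_smul, hxeq]
  show DP (glQ (γx (glQ γ • x)) * glQ (uo ⟦glQ γ • x⟧)) =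
    lineRep q k (redSL q γ) (DP (glQ (γx x) * glQ (uo ⟦x⟧))) + C γ
  rw [hq', show γx (glQ γ • x) = γ * γx x * δ from (mul_inv_cancel_left _ _).symm, map_mul,
    mul_assoc, hC _ (mul_mem hγ (hγx x)), hpar _ _ hδ hstab, ← hC _ (mul_mem hγ (hγx x)), map_mul,
    mul_assoc, hC γ hγ]

/-- A potential with values in functions on lines descends to the cusps after one Hecke step at a
prime which is `1` modulo `q M p`. -/
theorem exists_cusp_lift (hp2 : p ≠ 2) {W : Type} [AddCommGroup W] [Module k W]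
    {σ : Representation k (GLq q) W} (π : (Lines q → k) →ₗ[k] W)
    (heq : ∀ g v, π (lineRep q k g v) = σ g (π v)) (hker : ∀ v, π v = 0 → IsConst v)
    {Φ : Cusp → Cusp → W} {ℓ : ℕ} (hℓ : ℓ.Prime)
    (hℓM : ¬ ℓ ∣ M) (hℓq : ¬ q ∣ ℓ) (hℓ1 : (ℓ : ZMod (q * M * p)) = 1)
    {b : k} (hev : twOp σ ℓ Φ = b • Φ) {P : GQ → (Lines q → k)} {F : SL(2, ℤ) → (Lines q → k)}
    (hP : ∀ γ ∈ Gamma0 M, ∀ g, P (glQ γ * g) = lineRep q k (redSL q γ) (P g) + F γ)
    (hF : ∀ γ ∈ Gamma0 M, ∀ g, F (γ * g) = lineRep q k (redSL q γ) (F g) + F γ)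
    (hPπ : ∀ g, π (P g) = Φ OnePoint.infty (g • OnePoint.infty)) :
    ∃ (f : Cusp → (Lines q → k)) (C : SL(2, ℤ) → (Lines q → k)),
      (∀ γ ∈ Gamma0 M, ∀ x, f (glQ γ • x) = lineRep q k (redSL q γ) (f x) + C γ) ∧
        ∀ x, π (f x) = (b - 2) • Φ OnePoint.infty x := by
  classical
  have hk2 : (2 : k) ≠ 0 := fun h => hp2 ((Nat.prime_dvd_prime_iff_eq (Fact.out : p.Prime)
    Nat.prime_two).mp ((CharP.cast_eq_zero_iff k p 2).mp (by simpa using h)))
  have hcast : ∀ {n : ℕ}, n ∣ q * M * p → ((ℓ : ℕ) : ZMod n) = 1 := fun {n} hn => by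
    have := congrArg (ZMod.castHom hn (ZMod n)) hℓ1
    rwa [map_natCast, map_one] at this
  have hℓk : (ℓ : k) = 1 := by
    have := congrArg (ZMod.castHom (dvd_refl p) k) (hcast (dvd_mul_left p _))
    rwa [map_natCast, map_one] at this
  have hℓz : (ℓ : ZMod q) = 1 := hcast ((dvd_mul_right q M).trans (dvd_mul_right _ p))
  have hinf : ∀ i, ofMat (heckeFam ℓ i) • OnePoint.infty = (OnePoint.infty : Cusp) := fun i => by
    rw [OnePoint.smul_infty_eq_self_iff, ofMat_apply (heckeFam_det_ne_zero hℓ.ne_zero i),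
      heckeFam_lower, Int.cast_zero]
  set DP : GQ → (Lines q → k) := heckeDefect ℓ P
  have hDPeq : ∀ γ ∈ Gamma0 M, ∃ C, ∀ g,
      DP (glQ γ * g) = lineRep q k (redSL q γ) (DP g) + C := by
    intro γ hγ
    obtain ⟨C, hC, -⟩ := heckeSum_equiv (ρ := lineRep q k) hℓ hℓM hℓq (X := GQ) (P := P) (F := F)
      (fun δ hδ g => hP δ hδ g) hγ
    refine ⟨C - (2 : k) • F γ, fun g => ?_⟩
    simp only [DP, heckeDefect]
    rw [← smul_eq_mul (glQ γ) g, hC, smul_eq_mul, hP γ hγ, map_sub, map_smul, smul_add]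
    abel
  choose! C hC using hDPeq
  have hDPπ : ∀ g, π (DP g) = (b - 2) • Φ OnePoint.infty (g • OnePoint.infty) := fun g => by
    have h1 := congrFun (congrFun hev OnePoint.infty) (g • OnePoint.infty)
    simp only [twOp, Pi.smul_apply, hinf] at h1
    simp only [DP, heckeDefect, heckeSum, map_sub, map_smul, map_sum, heq, hPπ, smul_eq_mul,
      ← smul_smul]
    rw [h1, sub_smul]
  have hCneg : C (-1) = 0 := by
    have h1 := hC _ neg_one_mem_Gamma0' (glQ (-1) * 1)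
    rw [← mul_assoc, ← map_mul, neg_one_mul, neg_neg, map_one, one_mul,
      hC _ neg_one_mem_Gamma0' 1, lineRep_neg_one, Module.End.one_apply, Module.End.one_apply,
      add_assoc, left_eq_add, ← two_smul k] at h1
    exact (smul_eq_zero.mp h1).resolve_left hk2
  have hDPneg : ∀ g, DP (glQ (-1) * g) = DP g := fun g => by
    rw [hC _ neg_one_mem_Gamma0', lineRep_neg_one, hCneg, add_zero, Module.End.one_apply]
  -- descend, as parabolic elements fix the values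
  obtain ⟨f, hf, hfπ⟩ := exists_descent hC fun u g hg hfix => eq_of_parabolic_fix hC
    (fun g g' h => hker _ (by rw [map_sub, hDPπ, hDPπ, h, sub_self])) hDPneg hℓk u
    (fun n hn => heckeDefect_parab_natCast_mul hP hF hℓ hℓq hℓ1 hℓz hℓk u rfl hn) hg hfix
  refine ⟨f, C, hf, fun x => ?_⟩
  obtain ⟨g, rfl, hg⟩ := hfπ x
  rw [hg, hDPπ]

end Descent

/-- **Symbols with values in functions on lines modulo constants lift.** -/
theorem linesModConstNoEigen [Finite k] (p : ℕ) [Fact p.Prime] [CharP k p] [NeZero M]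
    {S : Finset ℕ} {a : ℕ → k}
    (hp2 : p ≠ 2) (_hqp : q ≠ p) (hqM : ¬ q ∣ M)
    (hS : ∀ ℓ, ℓ.Prime → ℓ ∉ S → ¬ ℓ ∣ q * M ∧ ℓ ≠ p)
    (hlevel : ∀ Ψ ∈ Lev k (q * M), (∀ ℓ, ℓ.Prime → ℓ ∉ S → tOp k ℓ Ψ = a ℓ • Ψ) → Ψ = 0)
    (hne : ∀ L : ℕ, 0 < L → ∃ ℓ, ℓ.Prime ∧ ℓ ∉ S ∧ (ℓ : ZMod L) = 1 ∧ a ℓ ≠ 2)
    (h3 : p = 3 → ∃ r, r.Prime ∧ r ∉ S ∧ r % 3 = 2 ∧ a r ≠ 0) :
    LinesModConstNoEigen q k M S a := by
  intro Φ₀ _ hadd hequiv hev
  have hk2 : (2 : k) ≠ 0 := fun h => hp2 ((Nat.prime_dvd_prime_iff_eq (Fact.out : p.Prime)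
    Nat.prime_two).mp ((CharP.cast_eq_zero_iff k p 2).mp (by simpa using h)))
  have hgood : ∀ ℓ, ℓ.Prime → ℓ ∉ S → ¬ q ∣ ℓ ∧ ¬ ℓ ∣ M := fun ℓ hℓ hℓS =>
    ⟨fun hd => (hS ℓ hℓ hℓS).1 (((Nat.prime_dvd_prime_iff_eq (Fact.out : q.Prime) hℓ).mp hd) ▸
      dvd_mul_right q M), fun hd => (hS ℓ hℓ hℓS).1 (hd.trans (dvd_mul_left M q))⟩
  let π : (Lines q → k) →ₗ[k] ((Lines q → k) ⧸ constLines q k) := (constLines q k).mkQ
  let σ := quotRep (lineRep q k) (constLines q k) isInv_constLines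
  have hπ : Function.Surjective π := Submodule.mkQ_surjective _
  have heq : ∀ g v, π (lineRep q k g v) = σ g (π v) := fun g v => rfl
  have hker : ∀ v, π v = 0 → IsConst v := fun v hv => (Submodule.Quotient.mk_eq_zero _).mp hv
  have hneg : lineRep q k (redSL q (-1)) = 1 := lineRep_neg_one
  set Φ : Cusp → Cusp → ((Lines q → k) ⧸ constLines q k) := fun x y => π (Φ₀ x y) with hΦdef
  have hker' : ∀ v, IsConst v → π v = 0 := fun v hv => (Submodule.Quotient.mk_eq_zero _).mpr hv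
  have hΦ : IsEigen σ M S a Φ := by
    refine ⟨⟨fun x y z => ?_, fun γ hγ x y => ?_⟩,
      fun ℓ hℓ hℓS => funext fun x => funext fun y => ?_⟩
    · rw [hΦdef, ← map_add, ← sub_eq_zero, ← map_sub]
      exact hker' _ (hadd x y z)
    · show π _ = σ _ (π _)
      rw [← heq, ← sub_eq_zero, ← map_sub]
      exact hker' _ (hequiv γ hγ x y)
    · show twOp σ ℓ Φ x y = a ℓ • π (Φ₀ x y)
      rw [hΦdef, ← map_twOp π heq, ← map_smul, ← sub_eq_zero, ← map_sub]
      exact hker' _ (hev ℓ hℓ hℓS x y)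
  suffices hzero : Φ = 0 by
    intro x y
    exact hker _ (congrFun (congrFun hzero x) y)
  obtain ⟨c, hc, F, hF, hFπ⟩ : ∃ c : k, c ≠ 0 ∧ ∃ F : SL(2, ℤ) → (Lines q → k),
      IsPot (lineRep q k) M F ∧ ∀ g, π (F g) = c • Φ OnePoint.infty (glQ g • OnePoint.infty) := by
    by_cases hp3 : p = 3
    · obtain ⟨r, hr, hrS, hr3, har⟩ := h3 hp3
      exact ⟨a r, har, exists_pot_lift_aux π hπ heq hneg hk2 hr (hgood r hr hrS).2
        (hgood r hr hrS).1 hr3 hΦ.1 (hΦ.2 r hr hrS)⟩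
    · obtain ⟨F, hF, hFπ⟩ := exists_pot_lift π hπ heq hneg hk2 (Or.inl (Ne.isUnit fun h => hp3
        ((Nat.prime_dvd_prime_iff_eq (Fact.out : p.Prime) Nat.prime_three).mp
          ((CharP.cast_eq_zero_iff k p 3).mp (by simpa using h))))) hΦ.1
      exact ⟨1, one_ne_zero, F, hF, fun g => by rw [hFπ, one_smul]⟩
  have hΦc : c • Φ ∈ VSymb σ M := Submodule.smul_mem _ c hΦ.1
  obtain ⟨P, hP, hPπ⟩ := exists_gq_potential π hπ heq hΦc hF hFπ
  have hL : 0 < q * M * p := Nat.mul_pos (Nat.mul_pos (Fact.out : q.Prime).pos (NeZero.pos M))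
    (Fact.out : p.Prime).pos
  obtain ⟨ℓ, hℓ, hℓS, hℓ1, haℓ⟩ := hne _ hL
  obtain ⟨f, C, hf, hfπ⟩ := exists_cusp_lift hp2 π heq hker hℓ
    (hgood ℓ hℓ hℓS).2 (hgood ℓ hℓ hℓS).1 hℓ1 (b := a ℓ)
    (by rw [twOp_smul, hΦ.2 ℓ hℓ hℓS, smul_comm]) hP hF.2 hPπ
  set d : k := (a ℓ - 2) * c with hd
  have hd0 : d ≠ 0 := mul_ne_zero (sub_ne_zero.mpr haℓ) hc
  set Ψ₀ : Cusp → Cusp → (Lines q → k) := fun x y => f y - f x with hΨ₀
  have hΨ₀m : Ψ₀ ∈ VSymb (lineRep q k) M := by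
    refine ⟨fun x y z => by simp only [Ψ₀]; abel, fun γ hγ x y => ?_⟩
    simp only [Ψ₀, hf γ hγ, map_sub]
    abel
  have hΨ₀π : ∀ x y, π (Ψ₀ x y) = d • Φ x y := fun x y => by
    simp only [Ψ₀, map_sub, hfπ, Pi.smul_apply, ← smul_sub]
    rw [sub_eq_iff_eq_add'.mpr (hΦ.1.1 OnePoint.infty x y).symm, smul_smul, hd]
  have := finite_vsymb_lines (k := k) hqM
  let I := {ℓ : ℕ // ℓ.Prime ∧ ℓ ∉ S}
  let T : ∀ ℓ : I, (Cusp → Cusp → (Lines q → k)) →ₗ[k] (Cusp → Cusp → (Lines q → k)) := fun ℓ =>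
    { toFun := fun Ψ => twOp (lineRep q k) ℓ.1 Ψ - a ℓ.1 • Ψ
      map_add' := fun Ψ Ψ' => by rw [twOp_add, smul_add]; abel
      map_smul' := fun t Ψ => by
        rw [twOp_smul, RingHom.id_apply, smul_sub, smul_comm t (a ℓ.1)] }
  have hTmem : ∀ (ℓ : I) Ψ, Ψ ∈ VSymb (lineRep q k) M → T ℓ Ψ ∈ VSymb (lineRep q k) M :=
    fun ℓ Ψ hΨ => sub_mem (twOp_mem ℓ.2.1 (hgood _ ℓ.2.1 ℓ.2.2).2 (hgood _ ℓ.2.1 ℓ.2.2).1 hΨ)
      (Submodule.smul_mem _ _ hΨ)
  let Lop : I → Module.End k (VSymb (lineRep q k) M) := fun ℓ => (T ℓ).restrict (hTmem ℓ)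
  have hcomm : ∀ i j, Commute (Lop i) (Lop j) := fun i j => LinearMap.ext fun Ψ => Subtype.ext (by
    show T i (T j Ψ.1) = T j (T i Ψ.1)
    have key := twOp_comm hqM i.2.1 j.2.1 (hS _ i.2.1 i.2.2).1 (hS _ j.2.1 j.2.2).1 Ψ.2
    simp only [T, LinearMap.coe_mk, AddHom.coe_mk, sub_eq_add_neg, twOp_add, ← neg_smul, twOp_smul,
      key, smul_add, smul_smul, mul_comm]
    abel)
  let proj : VSymb (lineRep q k) M →ₗ[k] (Cusp → Cusp → ((Lines q → k) ⧸ constLines q k)) :=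
    { toFun := fun Ψ x y => π (Ψ.1 x y)
      map_add' := fun Ψ Ψ' => funext fun x => funext fun y => map_add π _ _
      map_smul' := fun t Ψ => funext fun x => funext fun y => map_smul π t _ }
  have hprojT : ∀ (i : I) (Ψ : VSymb (lineRep q k) M),
      proj (Lop i Ψ) = twOp σ i.1 (proj Ψ) - a i.1 • proj Ψ := fun i Ψ => by
    funext x y
    show π (twOp (lineRep q k) i.1 Ψ.1 x y - a i.1 • Ψ.1 x y) = _
    rw [map_sub, map_twOp π heq, map_smul]
    rfl
  have hlines := noEigen_lines hqM (fun ℓ hℓ hℓS e => (hgood ℓ hℓ hℓS).1 (e ▸ dvd_rfl)) hlevel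
  obtain ⟨Ψ, hΨπ, hΨ⟩ := IgusaCover.exists_common_kernel Lop hcomm proj (d • Φ)
    (fun i Ψ hΨ => by
      obtain ⟨t, ht⟩ := hΨ
      rw [hprojT, ht, twOp_smul, twOp_smul, hΦ.2 _ i.2.1 i.2.2, smul_smul, smul_smul, smul_smul,
        smul_smul, sub_eq_zero]
      ring_nf)
    (fun Ψ _ hL => Subtype.ext (hlines Ψ.1 ⟨Ψ.2, fun ℓ hℓ hℓS => sub_eq_zero.mp
      (congrArg Subtype.val (hL ⟨ℓ, hℓ, hℓS⟩))⟩))
    (v₀ := ⟨Ψ₀, hΨ₀m⟩) (funext fun x => funext fun y => hΨ₀π x y)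
  have hΨ0 : Ψ = 0 := Subtype.ext (hlines Ψ.1 ⟨Ψ.2, fun ℓ hℓ hℓS => sub_eq_zero.mp
    (congrArg Subtype.val (hΨ ⟨ℓ, hℓ, hℓS⟩))⟩)
  rw [hΨ0, map_zero] at hΨπ
  exact (smul_eq_zero.mp hΨπ.symm).resolve_left hd0

end FLTAgent.LowerSquare
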