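import Fermat.Agent.LowerSquare.StartSymb
import Fermat.Agent.LowerSquare.Lift
import Fermat.Agent.GaloisImage.TWHypothesis
import Fermat.Agent.ModularityLifting.Start.Level

/-!
# Lowering a square from the level

From the geometric input, a semistable curve residually modular of level `q² M` with `q ∤ M` is
residually modular of level `q M`.
-/

set_option autoImplicit false

noncomputable section

open Matrix CongruenceSubgroup ModularCurve AlgebraicCurve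
open scoped MatrixGroups

namespace FLTAgent.LowerSquare

open FLTAgent.LevelRaising FLTAgent.SemistableFinals FLTAgent.SemistableHecke

local notation "Qbar" => AlgebraicClosure ℚ

/-- Eigen symbols twisted at `q` do not occur at levels prime to `q`. -/
theorem twist_symb_eq_zero [Algebra Qbar ℂ] {p : ℕ} [Fact p.Prime] (hp2 : p ≠ 2)
    {W : WeierstrassCurve ℤ} (hΔ : W.Δ ≠ 0) (hW : W.IsSemistableModel) {q : ℕ} [Fact q.Prime]
    (hqp : q ≠ p) {N : ℕ} [NeZero N] (hqN : ¬ q ∣ N) {S : Finset ℕ}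
    (hS : ∀ r : ℕ, r.Prime → r ∣ N * p * q → r ∈ S)
    (hSbad : ∀ r : ℕ, r.Prime → (r : ℤ) ∣ W.Δ → r ∈ S) {a : ℕ → ℕ}
    (ha : ∀ ℓ : ℕ, (a ℓ : ZMod p) = (W.apOfModel ℓ : ZMod p))
    (hne : ∀ m : ℕ, 0 < m → ∃ ℓ, ℓ.Prime ∧ ℓ ∉ S ∧ (ℓ : ZMod m) = 1 ∧ (a ℓ : ZMod p) ≠ 2)
    (h3 : p = 3 → ∃ r, r.Prime ∧ r ∉ S ∧ r % 3 = 2 ∧ (a r : ZMod p) ≠ 0)
    {k : Type} [Field k] [CharP k p] {η : MulChar (ZMod q) k} (hη : η ≠ 1)
    (hη2 : ∀ x, IsUnit x → η x * η x = 1) {Ψ : Cusp → Cusp → k} (hΨ : Ψ ∈ Lev k N)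
    (hev : ∀ ℓ, ℓ.Prime → ℓ ∉ S → tOp k ℓ Ψ = (η (ℓ : ZMod q) * (a ℓ : k)) • Ψ) : Ψ = 0 := by
  classical
  have hp : p.Prime := Fact.out
  have hq : q.Prime := Fact.out
  have h2 : (2 : k) ≠ 0 := fun h => hp2 ((Nat.prime_dvd_prime_iff_eq hp Nat.prime_two).mp
    ((CharP.cast_eq_zero_iff k p 2).mp (by exact_mod_cast h)))
  obtain ⟨u, hu⟩ : ∃ u : (ZMod q)ˣ, η (u : ZMod q) ≠ 1 := by
    by_contra! h
    exact hη (MulChar.ext fun u => by rw [h u, MulChar.one_apply_coe])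
  have hu' : η (u : ZMod q) = -1 :=
    (mul_self_eq_one_iff.mp (hη2 _ u.isUnit)).resolve_left hu
  let a' : ℕ → ℕ := fun ℓ =>
    if η (ℓ : ZMod q) = 1 then a ℓ else (-(a ℓ : ZMod p)).val
  have hne' : ∀ m : ℕ, 0 < m → ∃ ℓ, ℓ.Prime ∧ ℓ ∉ S ∧ (ℓ : ZMod m) = 1 ∧ (a' ℓ : ZMod p) ≠ 2 := by
    intro m hm
    obtain ⟨ℓ, hℓ, hℓS, hℓ1, hℓa⟩ := hne (m * q) (Nat.mul_pos hm hq.pos)
    have h1 : (ℓ : ZMod q) = 1 := by
      have := congrArg (ZMod.castHom (dvd_mul_left q m) (ZMod q)) hℓ1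
      rwa [map_natCast, map_one] at this
    refine ⟨ℓ, hℓ, hℓS, ?_, ?_⟩
    · have := congrArg (ZMod.castHom (dvd_mul_right m q) (ZMod m)) hℓ1
      rwa [map_natCast, map_one] at this
    · simp only [a', h1, map_one, if_true]
      exact hℓa
  have h3' : p = 3 → ∃ r, r.Prime ∧ r ∉ S ∧ r % 3 = 2 ∧ (a' r : ZMod p) ≠ 0 := fun e => by
    obtain ⟨r, hr, hrS, hr3, hra⟩ := h3 e
    refine ⟨r, hr, hrS, hr3, ?_⟩
    simp only [a']
    split_ifs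
    · exact hra
    · rw [ZMod.natCast_zmod_val, neg_ne_zero]; exact hra
  refine symb_eq_zero_of_torsion hp2 (fun ℓ hℓ hd => hS ℓ hℓ (hd.mul_right q)) hne' h3'
    (eigenTors_eq_zero_of_twist hp2 hΔ hW hqp hqN hS hSbad (u := u) fun ℓ _ _ hℓu => ?_) hΨ
    fun ℓ hℓ hℓS => ?_
  · simp only [a', hℓu, hu', if_neg (fun h : (-1 : k) = 1 => h2 (by linear_combination -h))]
    rw [ZMod.natCast_zmod_val, ha]
  · have hℓq : IsUnit (ℓ : ZMod q) := (ZMod.isUnit_iff_coprime ℓ q).mpr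
      ((Nat.coprime_primes hℓ hq).mpr fun e => hℓS (hS ℓ hℓ (by rw [e]; exact dvd_mul_left q _)))
    rw [hev ℓ hℓ hℓS]
    congr 1
    rcases mul_self_eq_one_iff.mp (hη2 _ hℓq) with h | h
    · simp only [a', h, if_true, one_mul]
    · simp only [a', h, if_neg (fun h : (-1 : k) = 1 => h2 (by linear_combination -h))]
      rw [← map_natCast (ZMod.castHom (dvd_refl p) k) (-(a ℓ : ZMod p)).val, ZMod.natCast_zmod_val,
        map_neg, map_natCast, neg_one_mul]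

/-- The kernel operators kill eigen symbols, in the form used below. -/
def KillsInput : Prop :=
  ∀ [Algebra Qbar ℂ] {q p : ℕ} [Fact q.Prime] [Fact p.Prime], p ≠ 2 → q ≠ p →
    ∀ {M : ℕ} [NeZero M] [NeZero q] [NeZero (q * M)] [NeZero (q * M * q)], ¬ q ∣ M →
    ∀ {k : Type} [Field k] [Finite k] [CharP k p] {S : Finset ℕ},
      (∀ l, l.Prime → l ∣ q * M * q * p → l ∈ S) → ∀ a : ℕ → ℕ,
      (∀ m, 0 < m → ∃ l, l.Prime ∧ l ∉ S ∧ (l : ZMod m) = 1 ∧ (a l : ZMod p) ≠ 2) →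
      (p = 3 → ∃ r, r.Prime ∧ r ∉ S ∧ r % 3 = 2 ∧ (a r : ZMod p) ≠ 0) →
      (∀ x ∈ eigenTors p (q * M * q) S a, pushJ (heckeAlphaBar Qbar (q * M) q) x = 0 ∧
        pushJ (heckeBetaBar Qbar (q * M) q) x = 0) →
      (∀ U : AddSubgroup (JZero (q * M * q)),
        (∀ x ∈ eigenTors p (q * M * q) S a, ∀ A : ValuationSubring Qbar, A.LiesOverPrime q →
          (∀ s ∈ A.inertiaSubgroupIn ℚ, s • x = x) → x ∈ U) →
        ∀ x ∈ eigenTors p (q * M * q) S a, x ∈ U) →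
      ∀ ν : Pairs q → k, IsPairKernel ν → ∀ Φ, IsEigen (pairRep q k) M S (fun l => (a l : k)) Φ →
        ∀ x y, opKer ν (Φ x y) = 0

/-- **Lowering a square from the level.** -/
theorem lowerSquare_of_kills (hkills : KillsInput) {p : ℕ} [Fact p.Prime] (hp2 : p ≠ 2)
    (W : WeierstrassCurve ℤ) (hΔ : W.Δ ≠ 0) (hW : W.IsSemistableModel)
    (hirr : W.ModRepIsIrreducible p) (M q : ℕ) (hq : q.Prime) (hqp : q ≠ p) (h2 : q ^ 2 ∣ M)
    (h3 : ¬ q ^ 3 ∣ M) (h : W.IsResiduallyModularOfLevel p M) :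
    W.IsResiduallyModularOfLevel p (M / q) := by
  classical
  have hp : p.Prime := Fact.out
  have : Fact q.Prime := ⟨hq⟩
  obtain ⟨M', rfl⟩ : ∃ M', M = q * M' * q := by
    obtain ⟨M', rfl⟩ := h2
    exact ⟨M', by ring⟩
  have hqM : ¬ q ∣ M' := fun ⟨c, hc⟩ => h3 ⟨c, by rw [hc]; ring⟩
  rw [Nat.mul_div_cancel _ hq.pos]
  by_contra hnot
  have : NeZero q := ⟨hq.ne_zero⟩
  have : NeZero M' := ⟨by rintro rfl; exact hqM (dvd_zero q)⟩
  have : NeZero (q * M') := ⟨Nat.mul_ne_zero hq.ne_zero (NeZero.ne M')⟩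
  have : NeZero (q * M' * q) := ⟨Nat.mul_ne_zero (NeZero.ne _) hq.ne_zero⟩
  let : Algebra Qbar ℂ := FLTAgent.HeckeJacobian.qbarToC.toAlgebra
  obtain ⟨f, 𝔪, hf, hmax, hpm, hfa⟩ := h
  set S : Finset ℕ := (q * M' * q * p).primeFactors ∪ W.Δ.natAbs.primeFactors
  have hS : ∀ r : ℕ, r.Prime → r ∣ q * M' * q * p → r ∈ S := fun r hr hd =>
    Finset.mem_union_left _ (Nat.mem_primeFactors.mpr
      ⟨hr, hd, Nat.mul_ne_zero (NeZero.ne _) hp.ne_zero⟩)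
  have hSbad : ∀ r : ℕ, r.Prime → (r : ℤ) ∣ W.Δ → r ∈ S := fun r hr hd =>
    Finset.mem_union_right _
      (Nat.mem_primeFactors.mpr ⟨hr, Int.natCast_dvd.mp hd, by simpa using hΔ⟩)
  have hout : ∀ ℓ : ℕ, ℓ.Prime → ℓ ∉ S →
      W.IsGoodPrimeFor ℓ ∧ ¬ ℓ ∣ q * M' * q ∧ ℓ ≠ p := fun ℓ hℓ h =>
    ⟨fun hd => h (hSbad ℓ hℓ hd), fun hd => h (hS ℓ hℓ (hd.mul_right p)),
      fun e => h (hS ℓ hℓ (by rw [e]; exact dvd_mul_left p _))⟩
  let a : ℕ → ℕ := fun ℓ => (W.apOfModel ℓ : ZMod p).val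
  have ha : ∀ ℓ : ℕ, (a ℓ : ZMod p) = (W.apOfModel ℓ : ZMod p) := fun ℓ => ZMod.natCast_zmod_val _
  have hne : ∀ m : ℕ, 0 < m →
      ∃ ℓ, ℓ.Prime ∧ ℓ ∉ S ∧ (ℓ : ZMod m) = 1 ∧ (a ℓ : ZMod p) ≠ 2 := by
    intro m hm
    obtain ⟨ℓ, hℓ, hℓS, -, -, hℓ1, hap⟩ :=
      LevelRaising.exists_prime_not_eisenstein hp2 hΔ hirr hm S
    refine ⟨ℓ, hℓ, hℓS, by rw [(ZMod.natCast_eq_natCast_iff _ _ _).mpr hℓ1, Nat.cast_one],
      fun he => hap ?_⟩
    rw [← ZMod.intCast_zmod_eq_zero_iff_dvd, Int.cast_sub, ← ha, he, Int.cast_ofNat, sub_self]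
  have h3' : p = 3 → ∃ r, r.Prime ∧ r ∉ S ∧ r % 3 = 2 ∧ (a r : ZMod p) ≠ 0 := by
    intro e
    obtain ⟨b⟩ := GaloisImage.exists_basis (W := W) (p := p) hΔ
    obtain ⟨t, ht, htS, ht3, htr⟩ :=
      (GaloisImage.tw_hypothesis hp2 W hΔ hW hirr (GaloisImage.matRep W p b) b fun _ => rfl).2 e S
    obtain ⟨A, hA⟩ := Density.exists_liesOverPrime ht
    obtain ⟨φ, hφ⟩ := Density.exists_isFrobeniusAt A ht hA
    obtain ⟨hgood, -, htp⟩ := hout t ht htS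
    refine ⟨t, ht, htS, ht3, ?_⟩
    rw [ha, ← (ECTorsion.trace_det_frobeniusAt ht hgood htp hA hφ).1,
      WeierstrassCurve.Affine.Point.galoisTrace_def, LinearMap.trace_eq_matrix_trace (ZMod p) b]
    exact htr A hA φ hφ
  -- the eigenclass at level `q² M'`
  obtain ⟨x, hx0, hxp, hxe⟩ := exists_torsion_eigen hf hmax hpm S
    (fun r hr hd => hS r hr (hd.mul_right p)) a fun ℓ hℓ hℓS => by
      obtain ⟨hgood, hℓN, hℓp⟩ := hout ℓ hℓ hℓS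
      obtain ⟨c, hc, hcm⟩ := hfa ℓ hℓ hgood hℓN hℓp
      exact ⟨c, hc, sub_natCast_mem hpm (ha ℓ) hcm⟩
  -- nothing occurs at level `q M'`
  have hqM'S : ∀ r : ℕ, r.Prime → r ∣ q * M' * p → r ∈ S := fun r hr hd =>
    hS r hr (hd.trans (mul_dvd_mul_right (dvd_mul_right _ q) p))
  have hzero : ∀ z ∈ eigenTors p (q * M') S a, z = 0 := by
    refine eigenTors_eq_zero_of_not_residual (T := ∅) hqM'S (fun r hr hrp _ hgood hrM => ?_)
      (fun ℓ _ _ => ha ℓ) fun hres => hnot (residualOutside_empty.mp hres)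
    rcases Finset.mem_union.mp hr with hm | hm
    · rcases hrp.dvd_mul.mp (Nat.mem_primeFactors.mp hm).2.1 with h' | h'
      · exact (hrp.dvd_mul.mp h').elim (absurd · hrM) fun h'' =>
          absurd (h''.trans (dvd_mul_right q M')) hrM
      · exact (Nat.prime_dvd_prime_iff_eq hrp hp).mp h'
    · exact absurd (Int.natCast_dvd.mpr (Nat.mem_primeFactors.mp hm).2.1) hgood
  have hpushS : ∀ r : ℕ, r.Prime → r ∣ q * M' * (q * M' * q) * p → r ∈ S := fun r hr hd => by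
    rcases hr.dvd_mul.mp hd with h' | h'
    · rcases hr.dvd_mul.mp h' with h'' | h''
      · exact hS r hr ((h''.mul_right q).mul_right p)
      · exact hS r hr (h''.mul_right p)
    · exact hS r hr (dvd_mul_of_dvd_right h' _)
  obtain ⟨k, _, _, _, hqk, ζ, hζ⟩ := exists_field_root (p := p) q hqp
  have : NeZero (q : k) := ⟨hqk⟩
  have hk2 : (2 : k) ≠ 0 := fun h => hp2 ((Nat.prime_dvd_prime_iff_eq hp Nat.prime_two).mp
    ((CharP.cast_eq_zero_iff k p 2).mp (by exact_mod_cast h)))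
  let e := ZMod.castHom (dvd_refl p) k
  have hneqS : ∀ ℓ, ℓ.Prime → ℓ ∉ S → ℓ ≠ q := fun ℓ hℓ h e =>
    (hout ℓ hℓ h).2.1 (by rw [e]; exact dvd_mul_left q _)
  have hlevel : ∀ Ψ ∈ Lev k (q * M'),
      (∀ ℓ, ℓ.Prime → ℓ ∉ S → tOp k ℓ Ψ = (a ℓ : k) • Ψ) → Ψ = 0 :=
    fun Ψ hΨ => symb_eq_zero_of_torsion hp2 hqM'S hne h3' hzero hΨ
  have hne_k : ∀ m : ℕ, 0 < m → ∃ ℓ, ℓ.Prime ∧ ℓ ∉ S ∧ (ℓ : ZMod m) = 1 ∧ (a ℓ : k) ≠ 2 :=
    fun m hm => by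
      obtain ⟨ℓ, hℓ, hℓS, hℓ1, hap⟩ := hne m hm
      refine ⟨ℓ, hℓ, hℓS, hℓ1, fun he => hap (e.injective ?_)⟩
      rw [map_natCast, map_ofNat]
      exact he
  have H : Excluded q k M' S fun ℓ => (a ℓ : k) := by
    refine ⟨hneqS, hlevel, fun η hη hη2 Ψ hΨ hev => ?_, fun _ => ?_, ?_⟩
    · exact twist_symb_eq_zero hp2 hΔ hW hqp hqM
        (fun r hr hd => hS r hr (hd.trans (by exact ⟨q, by ring⟩))) hSbad ha hne h3' hη hη2 hΨ hev
    · exact linesModConstNoEigen p hp2 hqp hqM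
        (fun ℓ hℓ hℓS => ⟨fun hd => (hout ℓ hℓ hℓS).2.1 (hd.mul_right q), (hout ℓ hℓ hℓS).2.2⟩)
        hlevel hne_k fun e3 => by
          obtain ⟨r, hr, hrS, hr3, hra⟩ := h3' e3
          refine ⟨r, hr, hrS, hr3, fun he => hra (e.injective ?_)⟩
          rw [map_natCast, map_zero]
          exact he
    · exact hkills hp2 hqp hqM hS a hne h3' (fun z hz =>
        ⟨hzero _ (pushJ_mem_eigenTors _ (SemistableHecke.intertwines_alpha) hpushS hz),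
          hzero _ (pushJ_mem_eigenTors _ (SemistableHecke.intertwines_beta) hpushS hz)⟩)
        fun U hU => eigenTors_induction hp2 hΔ hW hirr hqp hS hSbad (fun ℓ _ _ => ha ℓ) U hU
  -- the nonzero eigen symbol
  obtain ⟨Φ, hΦ, hΦ0, hΦe⟩ := exists_symb_of_torsion hS hne (x := x) ⟨hxp, hxe⟩ hx0
  set Φk : Cusp → Cusp → k := fun x y => e (Φ x y)
  have hΦk : Φk ∈ Lev k (q * M' * q) := ⟨fun x y z => by simp only [Φk]; rw [← map_add, hΦ.1],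
    fun γ hγ x y => congrArg e (hΦ.2 γ hγ x y)⟩
  have hΦke : ∀ ℓ, ℓ.Prime → ℓ ∉ S → tOp k ℓ Φk = (a ℓ : k) • Φk := fun ℓ hℓ hℓS => by
    funext x y
    have h := congrArg e (congrFun (congrFun (hΦe ℓ hℓ hℓS) x) y)
    simpa [Φk, tOp, pullFam_apply, Finset.sum_apply, pull_apply, map_sum] using h
  refine toPairs_ne_zero (hqM := hqM) hΦk (fun h => hΦ0 ?_)
    (H.noEigen hqM hk2 hζ _ (isEigen_toPairs (fun ℓ hℓ hℓS => (hout ℓ hℓ hℓS).2.1) hΦk hΦke))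
  funext x y
  exact e.injective (by rw [show e (Φ x y) = Φk x y from rfl, h]; exact (map_zero e).symm)

end FLTAgent.LowerSquare

end
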