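import Fermat.Agent.LowerSquare.PairModules
import Mathlib.LinearAlgebra.Eigenspace.Basic
import Mathlib.LinearAlgebra.Dual.Lemmas
import Mathlib.NumberTheory.LegendreSymbol.AddCharacter

/-!
# Simple modules of `PGL₂(𝔽_q)` inside the functions on pairs of lines

A simple module on which the unipotent elements act nontrivially embeds in the functions on
ordered pairs of distinct lines.  Either the image is fixed by a kernel operator, or the module is
a constituent of the functions on lines.
-/

set_option autoImplicit false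

noncomputable section

open Matrix OnePoint
open scoped MatrixGroups

namespace FLTAgent.LowerSquare

variable {q : ℕ} [Fact q.Prime]

variable (q) in
/-- Ordered pairs of distinct lines. -/
def Pairs : Type := {P : Lines q × Lines q // P.1 ≠ P.2}

instance : Fintype (Pairs q) := Subtype.fintype _

instance : DecidableEq (Pairs q) := Subtype.instDecidableEq

instance : MulAction (GLq q) (Pairs q) where
  smul g P := ⟨(g • P.1.1, g • P.1.2), fun h => P.2 (MulAction.injective g h)⟩
  one_smul P := Subtype.ext (Prod.ext (one_smul _ P.1.1) (one_smul _ P.1.2))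
  mul_smul g h P := Subtype.ext (Prod.ext (mul_smul g h P.1.1) (mul_smul g h P.1.2))

theorem smul_pair_fst (g : GLq q) (P : Pairs q) : (g • P).1.1 = g • P.1.1 := rfl

theorem smul_pair_snd (g : GLq q) (P : Pairs q) : (g • P).1.2 = g • P.1.2 := rfl

omit [Fact (Nat.Prime q)] in
theorem pairs_ext {P P' : Pairs q} (h1 : P.1.1 = P'.1.1) (h2 : P.1.2 = P'.1.2) : P = P' :=
  Subtype.ext (Prod.ext h1 h2)

/-- The pair `(∞, 0)`. -/
def pBase : Pairs q := ⟨(∞, ((0 : ZMod q) : Lines q)), OnePoint.infty_ne_coe _⟩

theorem exists_smul_base (P : Pairs q) : ∃ g : GLq q, g • (pBase : Pairs q) = P := by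
  obtain ⟨g, h1, h2⟩ := exists_smul_pair P.2
  exact ⟨g, pairs_ext h1 h2⟩

/-- A chosen element sending `(∞, 0)` to a pair. -/
def pairElt (P : Pairs q) : GLq q := (exists_smul_base P).choose

theorem pairElt_smul (P : Pairs q) : pairElt P • (pBase : Pairs q) = P :=
  (exists_smul_base P).choose_spec

/-- A diagonal element of the stabiliser acts on lines as an element of the torus. -/
theorem exists_torus_of_smul_base {g : GLq q} (h : g • (pBase : Pairs q) = pBase) :
    ∃ a : (ZMod q)ˣ, ∀ L : Lines q, (g * (torus a)⁻¹) • L = L := by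
  have h1 : g • (∞ : Lines q) = ∞ := congrArg (fun P => P.1.1) h
  have h0 : g • ((0 : ZMod q) : Lines q) = ((0 : ZMod q) : Lines q) :=
    congrArg (fun P => P.1.2) h
  obtain ⟨h10, h01⟩ := apply_eq_zero_of_smul h1 h0
  have hdet := g.det_ne_zero
  rw [Matrix.det_fin_two] at hdet
  simp only [h10, h01, mul_zero, sub_zero] at hdet
  obtain ⟨h00, h11⟩ := mul_ne_zero_iff.mp hdet
  refine ⟨Units.mk0 (g 0 0 / g 1 1) (div_ne_zero h00 h11), fun L => ?_⟩
  rw [mul_smul, torus_inv]
  cases L using OnePoint.rec with
  | infty => rw [torus_smul_infty, h1]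
  | coe x =>
    rw [torus_smul_coe, smul_some_eq_ite, h10, h01, zero_mul, zero_add, if_neg h11, add_zero]
    simp only [OnePoint.coe_eq_coe, Units.val_inv_eq_inv_val, Units.val_mk0]
    field_simp

variable {k : Type} [Field k] {V : Type} [AddCommGroup V] [Module k V]
  (ρ : Representation k (GLq q) V)

/-- The action factors through the permutations of the lines. -/
def FactorsLines : Prop := ∀ g : GLq q, (∀ L : Lines q, g • L = L) → ρ g = 1

variable {ρ}

theorem FactorsLines.eq_torus (hfix : FactorsLines ρ) {g : GLq q}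
    (h : g • (pBase : Pairs q) = pBase) : ∃ a : (ZMod q)ˣ, ρ g = ρ (torus a) := by
  obtain ⟨a, ha⟩ := exists_torus_of_smul_base h
  refine ⟨a, ?_⟩
  conv_lhs => rw [← inv_mul_cancel_right g (torus a)]
  rw [map_mul, hfix _ ha, one_mul]

variable (q k) in
/-- Functions on pairs. -/
abbrev pairRep : Representation k (GLq q) (Pairs q → k) := permRep k (Pairs q)

/-- A kernel: torus invariant with vanishing fibre sums. -/
structure IsPairKernel (ν : Pairs q → k) : Prop where
  invariant : ∀ (a : (ZMod q)ˣ) (R : Pairs q), ν (torus a • R) = ν R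
  sum_fst : ∀ L, ∑ R : Pairs q, (if R.1.1 = L then ν R else 0) = 0
  sum_snd : ∀ L, ∑ R : Pairs q, (if R.1.2 = L then ν R else 0) = 0

/-- The operator of a kernel. -/
def opKer (ν : Pairs q → k) : (Pairs q → k) →ₗ[k] (Pairs q → k) where
  toFun f P := ∑ R, ν R * f (pairElt P • R)
  map_add' f g := funext fun P => by simp [mul_add, Finset.sum_add_distrib]
  map_smul' c f := funext fun P => by simp [Finset.mul_sum, mul_left_comm]

theorem opKer_apply (ν : Pairs q → k) (f : Pairs q → k) (P : Pairs q) :
    opKer ν f P = ∑ R, ν R * f (pairElt P • R) := rfl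

/-- The embedding given by a functional fixed by the torus. -/
def embed (ρ : Representation k (GLq q) V) (lam : V →ₗ[k] k) : V →ₗ[k] (Pairs q → k) :=
  LinearMap.pi fun P => lam ∘ₗ ρ (pairElt P)⁻¹

theorem embed_apply (lam : V →ₗ[k] k) (v : V) (P : Pairs q) :
    embed ρ lam v P = lam (ρ (pairElt P)⁻¹ v) := rfl

variable {lam : V →ₗ[k] k}

theorem embed_eq (hfix : FactorsLines ρ) (hlam : ∀ a : (ZMod q)ˣ, lam ∘ₗ ρ (torus a) = lam)
    {g : GLq q} {P : Pairs q} (h : g • (pBase : Pairs q) = P) (v : V) :
    embed ρ lam v P = lam (ρ g⁻¹ v) := by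
  have hd : ((pairElt P)⁻¹ * g) • (pBase : Pairs q) = pBase := by
    rw [mul_smul, h, inv_smul_eq_iff, pairElt_smul]
  obtain ⟨a, ha⟩ := hfix.eq_torus hd
  rw [embed_apply, show (pairElt P)⁻¹ = (pairElt P)⁻¹ * g * g⁻¹ by group, map_mul,
    Module.End.mul_apply, ha]
  exact LinearMap.congr_fun (hlam a) _

theorem embed_map (hfix : FactorsLines ρ) (hlam : ∀ a : (ZMod q)ˣ, lam ∘ₗ ρ (torus a) = lam)
    (g : GLq q) (v : V) : embed ρ lam (ρ g v) = pairRep q k g (embed ρ lam v) := by
  funext P
  rw [permRep_apply, embed_eq hfix hlam (pairElt_smul P),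
    embed_eq hfix hlam (g := g⁻¹ * pairElt P) (by rw [mul_smul, pairElt_smul]),
    _root_.mul_inv_rev, inv_inv, map_mul, Module.End.mul_apply]

theorem embed_injective (hsimple : ∀ U : Submodule k V, IsInv ρ U → U = ⊥ ∨ U = ⊤)
    (hfix : FactorsLines ρ) (hlam : ∀ a : (ZMod q)ˣ, lam ∘ₗ ρ (torus a) = lam) (hne : lam ≠ 0) :
    Function.Injective (embed ρ lam) := by
  rw [← LinearMap.ker_eq_bot]
  refine (hsimple _ fun g w hw => ?_).resolve_right fun h => hne (LinearMap.ext fun v => ?_)
  · rw [LinearMap.mem_ker] at hw ⊢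
    rw [embed_map hfix hlam, hw, map_zero]
  · have hv : embed ρ lam v = 0 := by
      rw [← LinearMap.mem_ker, h]
      exact Submodule.mem_top
    have := congrFun hv pBase
    rw [embed_eq hfix hlam (one_smul _ _), inv_one, map_one] at this
    simpa using this

/-- A torus-fixed functional from a nontrivial character of the translations. -/
theorem exists_torus_functional [NeZero (q : k)] {ζ : k} (hζ : IsPrimitiveRoot ζ q)
    (hu : ρ (transl 1) ≠ 1) :
    ∃ μ : V →ₗ[k] k, (∑ a : (ZMod q)ˣ, μ ∘ₗ ρ (torus a)) ≠ 0 := by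
  classical
  set χ : AddChar (ZMod q) k := AddChar.zmodChar q hζ.pow_eq_one with hχdef
  have hχinj : ∀ x y, χ x = χ y → x = y := fun x y h => by
    rw [hχdef, AddChar.zmodChar_apply, AddChar.zmodChar_apply] at h
    exact ZMod.val_injective q (hζ.pow_inj (ZMod.val_lt x) (ZMod.val_lt y) h)
  have hχne : χ ≠ 1 := fun h => one_ne_zero (hχinj 1 0 (by rw [h]; rfl))
  let e : ZMod q → Module.End k V := fun i => ∑ j : ZMod q, χ (-(i * j)) • ρ (transl j)
  have hshift : ∀ i b, e i * ρ (transl b) = χ (i * b) • e i := by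
    intro i b
    simp only [e, Finset.sum_mul, Finset.smul_sum, smul_mul_assoc, ← map_mul, transl_mul,
      smul_smul, ← AddChar.map_add_eq_mul]
    refine Fintype.sum_bijective (· + b) (Equiv.addRight b).bijective _ _ fun j => ?_
    congr 2
    ring
  have hsum : ∑ i, e i = (q : k) • (1 : Module.End k V) := by
    simp only [e]
    rw [Finset.sum_comm, Fintype.sum_eq_single (0 : ZMod q) fun j hj => ?_]
    · simp [transl_zero, ← Nat.cast_smul_eq_nsmul k]
    · rw [← Finset.sum_smul]
      have : ∑ i : ZMod q, χ (-(i * j)) = 0 := by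
        rw [← AddChar.sum_eq_zero_of_ne_one hχne]
        exact Fintype.sum_bijective (fun i => -(i * j))
          ((Equiv.mulRight₀ j hj).trans (Equiv.neg _)).bijective _ _ fun i => rfl
      rw [this, zero_smul]
  obtain ⟨i, hi0, hi⟩ : ∃ i, i ≠ 0 ∧ e i ≠ 0 := by
    by_contra h
    push Not at h
    rw [Fintype.sum_eq_single (0 : ZMod q) fun j hj => h j hj] at hsum
    have h1 := hshift 0 1
    rw [zero_mul, AddChar.map_zero_eq_one, one_smul, hsum, smul_mul_assoc, one_mul] at h1
    exact hu (smul_right_injective _ (NeZero.ne (q : k)) h1)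
  obtain ⟨v, hv⟩ := not_forall.mp fun h => hi (LinearMap.ext h)
  obtain ⟨f, hf⟩ := not_forall.mp fun h => hv ((Module.forall_dual_apply_eq_zero_iff k _).mp h)
  let μ : V →ₗ[k] k := f ∘ₗ e i
  refine ⟨μ, fun h0 => ?_⟩
  have hμ : μ ≠ 0 := fun h => hf (LinearMap.congr_fun h v)
  have heig : ∀ a : (ZMod q)ˣ,
      (μ ∘ₗ ρ (torus a)) ∘ₗ ρ (transl 1) = χ (i * a) • (μ ∘ₗ ρ (torus a)) := by
    intro a
    have hcomm : torus a * transl 1 = transl (a : ZMod q) * torus a := by
      refine ext_gl ?_ ?_ ?_ ?_ <;>
        simp [torus, transl, gl2_apply, Matrix.mul_apply, Fin.sum_univ_two]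
    refine LinearMap.ext fun w => ?_
    have h1 : ρ (torus a) (ρ (transl 1) w) = ρ (transl (a : ZMod q)) (ρ (torus a) w) := by
      rw [← Module.End.mul_apply, ← map_mul, hcomm, map_mul, Module.End.mul_apply]
    have h2 := LinearMap.congr_fun (hshift i (a : ZMod q)) (ρ (torus a) w)
    simp only [Module.End.mul_apply, LinearMap.smul_apply] at h2
    simp [μ, h1, h2]
  have hne : ∀ a : (ZMod q)ˣ, μ ∘ₗ ρ (torus a) ≠ 0 := fun a h => hμ (LinearMap.ext fun w => by
    have := LinearMap.congr_fun h (ρ (torus a)⁻¹ w)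
    rwa [LinearMap.comp_apply, ← Module.End.mul_apply, ← map_mul, mul_inv_cancel, map_one,
      Module.End.one_apply] at this)
  have hind : LinearIndependent k fun a : (ZMod q)ˣ => μ ∘ₗ ρ (torus a) := by
    refine Module.End.eigenvectors_linearIndependent' (ρ (transl 1)).dualMap
      (fun a : (ZMod q)ˣ => χ (i * a)) (fun a b h => Units.ext (mul_left_cancel₀ hi0 (hχinj _ _ h)))
      _ fun a => ⟨?_, hne a⟩
    rw [Module.End.mem_eigenspace_iff, LinearMap.dualMap_apply']
    exact heig a
  exact one_ne_zero (Fintype.linearIndependent_iff.mp hind (fun _ => 1) (by simpa using h0) 1)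

section Combination

variable {W : Type} [AddCommGroup W] [Module k W]

/-- The operator of a combination of group elements. -/
def combo [Fintype (GLq q)] (σ : Representation k (GLq q) W) :
    (GLq q → k) →ₗ[k] Module.End k W where
  toFun a := ∑ g, a g • σ g
  map_add' a b := by simp [add_smul, Finset.sum_add_distrib]
  map_smul' c a := by simp [Finset.smul_sum, smul_smul]

omit [Fact (Nat.Prime q)] in
theorem combo_apply [Fintype (GLq q)] (σ : Representation k (GLq q) W) (a : GLq q → k) (w : W) :
    combo σ a w = ∑ g, a g • σ g w := by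
  simp [combo]

omit [Fact (Nat.Prime q)] in
theorem combo_mul_left [Fintype (GLq q)] (σ : Representation k (GLq q) W) (a : GLq q → k)
    (h : GLq q) : σ h * combo σ a = combo σ fun g => a (h⁻¹ * g) := by
  simp only [combo, LinearMap.coe_mk, AddHom.coe_mk, Finset.mul_sum, mul_smul_comm, ← map_mul]
  exact Fintype.sum_bijective _ (Group.mulLeft_bijective h) _ _ fun g => by
    rw [inv_mul_cancel_left]

omit [Fact (Nat.Prime q)] in
theorem combo_mul_right [Fintype (GLq q)] (σ : Representation k (GLq q) W) (a : GLq q → k)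
    (h : GLq q) : combo σ a * σ h = combo σ fun g => a (g * h⁻¹) := by
  simp only [combo, LinearMap.coe_mk, AddHom.coe_mk, Finset.sum_mul, smul_mul_assoc, ← map_mul]
  exact Fintype.sum_bijective _ (Group.mulRight_bijective h) _ _ fun g => by
    rw [mul_inv_cancel_right]

omit [Fact (Nat.Prime q)] in
theorem combo_single [Fintype (GLq q)] (σ : Representation k (GLq q) W) [DecidableEq (GLq q)]
    (g : GLq q) : combo σ (Pi.single g 1) = σ g := by
  simp [combo, Pi.single_apply, ite_smul]

end Combination

/-- A linear map killing the kernel of another factors through its range. -/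
theorem exists_factor_range {M N V' : Type} [AddCommGroup M] [Module k M] [AddCommGroup N]
    [Module k N] [AddCommGroup V'] [Module k V'] (g : M →ₗ[k] N) (f : M →ₗ[k] V')
    (h : LinearMap.ker g ≤ LinearMap.ker f) :
    ∃ f₀ : LinearMap.range g →ₗ[k] V', ∀ m, f₀ ⟨g m, LinearMap.mem_range_self g m⟩ = f m :=
  ⟨(LinearMap.ker g).liftQ f h ∘ₗ g.quotKerEquivRange.symm.toLinearMap, fun m => by
    simp only [LinearMap.comp_apply, LinearEquiv.coe_coe]
    rw [LinearMap.quotKerEquivRange_symm_apply_image, Submodule.mkQ_apply, Submodule.liftQ_apply]⟩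

/-- A simple quotient of an invariant subspace of a power of the functions on lines is a quotient
of an invariant subspace of the functions on lines. -/
theorem exists_line_quotient [Nontrivial V]
    (hsimple : ∀ U : Submodule k V, IsInv ρ U → U = ⊥ ∨ U = ⊤) (s : Finset (Lines q)) :
    ∀ (W : Submodule k (Lines q → Lines q → k)),
      (∀ g, ∀ F ∈ W, (fun L => lineRep q k g (F L)) ∈ W) →
      (∀ F ∈ W, ∀ L ∉ s, F L = 0) → ∀ f : W →ₗ[k] V, Function.Surjective f →
      (∀ g (F : W) (hF : (fun L => lineRep q k g (F.1 L)) ∈ W), f ⟨_, hF⟩ = ρ g (f F)) →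
      ∃ (U : Submodule k (Lines q → k)) (hU : IsInv (lineRep q k) U) (f₀ : U →ₗ[k] V),
        Function.Surjective f₀ ∧ ∀ g (w : U), f₀ ⟨_, hU g w.1 w.2⟩ = ρ g (f₀ w) := by
  classical
  induction s using Finset.induction with
  | empty =>
    intro W _ hsupp f hf _
    exfalso
    obtain ⟨v, hv⟩ := exists_ne (0 : V)
    obtain ⟨F, rfl⟩ := hf v
    have : F = 0 := Subtype.ext (funext fun L => hsupp _ F.2 L (Finset.notMem_empty L))
    exact hv (by rw [this, map_zero])
  | @insert L₀ s hL₀ ih =>
    intro W hW hsupp f hf hequiv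
    let evL : W →ₗ[k] (Lines q → k) := LinearMap.proj L₀ ∘ₗ W.subtype
    by_cases hker : LinearMap.ker evL ≤ LinearMap.ker f
    · obtain ⟨f₀, hf₀⟩ := exists_factor_range evL f hker
      have hU : IsInv (lineRep q k) (LinearMap.range evL) := by
        rintro g _ ⟨F, rfl⟩
        exact ⟨⟨_, hW g _ F.2⟩, rfl⟩
      refine ⟨_, hU, f₀, fun v => ?_, fun g w => ?_⟩
      · obtain ⟨F, rfl⟩ := hf v
        exact ⟨_, hf₀ F⟩
      · obtain ⟨_, F, rfl⟩ := w
        rw [show f₀ ⟨evL F, LinearMap.mem_range_self evL F⟩ = f F from hf₀ F]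
        exact (hf₀ ⟨_, hW g _ F.2⟩).trans (hequiv g F _)
    · let W' : Submodule k (Lines q → Lines q → k) := W ⊓ LinearMap.ker (LinearMap.proj L₀)
      let f' : W' →ₗ[k] V := f ∘ₗ Submodule.inclusion inf_le_left
      have hW' : ∀ g, ∀ F ∈ W', (fun L => lineRep q k g (F L)) ∈ W' := fun g F hF =>
        ⟨hW g F hF.1, by
          show lineRep q k g (F L₀) = 0
          rw [show F L₀ = 0 from hF.2, map_zero]⟩
      refine ih W' hW' (fun F hF L hL => ?_) f' ?_ fun g F hF => hequiv g ⟨F.1, F.2.1⟩ hF.1
      · by_cases hLL : L = L₀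
        · rw [hLL]
          exact hF.2
        · exact hsupp F hF.1 L (by simp [hLL, hL])
      · rw [← LinearMap.range_eq_top]
        refine (hsimple _ ?_).resolve_left fun h => hker fun F hF => ?_
        · rintro g _ ⟨F, rfl⟩
          exact ⟨⟨_, hW' g _ F.2⟩, hequiv g ⟨F.1, F.2.1⟩ (hW g _ F.2.1)⟩
        · have h1 := h.le (LinearMap.mem_range_self f' ⟨F.1, F.2, hF⟩)
          rwa [Submodule.mem_bot] at h1

/-- The dichotomy for simple modules with nontrivial unipotent action. -/
theorem kernel_or_line_constituent [FiniteDimensional k V] [NeZero (q : k)] {ζ : k}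
    (hζ : IsPrimitiveRoot ζ q) (hsimple : ∀ U : Submodule k V, IsInv ρ U → U = ⊥ ∨ U = ⊤)
    (hfix : FactorsLines ρ) (hu : ρ (transl 1) ≠ 1) :
    (∃ ι : V →ₗ[k] (Pairs q → k), Function.Injective ι ∧
        (∀ g v, ι (ρ g v) = pairRep q k g (ι v)) ∧
        ∃ ν, IsPairKernel ν ∧ ∀ v, opKer ν (ι v) = ι v) ∨
      ∃ (U : Submodule k (Lines q → k)) (hU : IsInv (lineRep q k) U) (f₀ : U →ₗ[k] V),
        Function.Surjective f₀ ∧ ∀ g (w : U), f₀ ⟨_, hU g w.1 w.2⟩ = ρ g (f₀ w) := by
  classical
  let _ : Fintype (GLq q) := Fintype.ofFinite _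
  obtain ⟨μ, hμ⟩ := exists_torus_functional hζ hu
  set lam := ∑ a : (ZMod q)ˣ, μ ∘ₗ ρ (torus a) with hlamdef
  have hlam : ∀ a : (ZMod q)ˣ, lam ∘ₗ ρ (torus a) = lam := fun a => by
    refine LinearMap.ext fun v => ?_
    simp only [hlamdef, LinearMap.comp_apply, LinearMap.sum_apply, ← Module.End.mul_apply,
      ← map_mul, torus_mul]
    exact Fintype.sum_bijective _ (Group.mulRight_bijective a) _ _ fun b => rfl
  by_cases hI : ∀ a : GLq q → k, combo (lineRep q k) a = 0 → combo ρ a = 0
  · -- the module is a constituent of the functions on lines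
    right
    obtain ⟨v, hv⟩ : ∃ v : V, v ≠ 0 := by
      by_contra h
      push Not at h
      exact hμ (LinearMap.ext fun v => by rw [h v, map_zero, LinearMap.zero_apply])
    have : Nontrivial V := ⟨⟨v, 0, hv⟩⟩
    let ev : (GLq q → k) →ₗ[k] V := LinearMap.applyₗ v ∘ₗ combo ρ
    let A : (GLq q → k) →ₗ[k] (Lines q → Lines q → k) :=
      LinearMap.pi fun L => LinearMap.applyₗ (Pi.single L 1) ∘ₗ combo (lineRep q k)
    have hevequiv : ∀ g a, ev (fun h => a (g⁻¹ * h)) = ρ g (ev a) := fun g a => by
      show combo ρ _ v = ρ g (combo ρ a v)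
      rw [← combo_mul_left, Module.End.mul_apply]
    have hevs : Function.Surjective ev := by
      rw [← LinearMap.range_eq_top]
      refine (hsimple _ ?_).resolve_left fun h => hv ?_
      · rintro g _ ⟨a, rfl⟩
        exact ⟨_, hevequiv g a⟩
      · have h1 := h.le (LinearMap.mem_range_self ev (Pi.single 1 1))
        rw [Submodule.mem_bot] at h1
        simpa [ev, combo_single] using h1
    have hkerA : LinearMap.ker A ≤ LinearMap.ker ev := fun a ha => by
      have h0 : combo (lineRep q k) a = 0 := (Pi.basisFun k (Lines q)).ext fun L => by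
        rw [Pi.basisFun_apply, LinearMap.zero_apply]
        exact congrFun ha L
      show combo ρ a v = 0
      rw [hI a h0, LinearMap.zero_apply]
    obtain ⟨f, hf⟩ := exists_factor_range A ev hkerA
    have hAequiv : ∀ g a, A (fun h => a (g⁻¹ * h)) = fun L => lineRep q k g (A a L) := by
      intro g a
      funext L
      show combo (lineRep q k) _ (Pi.single L 1) = _
      rw [← combo_mul_left, Module.End.mul_apply]
      rfl
    refine exists_line_quotient hsimple Finset.univ (LinearMap.range A) ?_
      (fun F _ L hL => absurd (Finset.mem_univ L) hL) f (fun w => ?_) fun g F hF => ?_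
    · rintro g _ ⟨a, rfl⟩
      exact ⟨_, hAequiv g a⟩
    · obtain ⟨a, rfl⟩ := hevs w
      exact ⟨_, hf a⟩
    · obtain ⟨_, a, rfl⟩ := F
      rw [show f ⟨A a, LinearMap.mem_range_self A a⟩ = ev a from hf a, ← hevequiv,
        ← hf fun h => a (g⁻¹ * h)]
      exact congrArg f (Subtype.ext (hAequiv g a).symm)
  · -- some kernel operator fixes the image
    left
    push Not at hI
    obtain ⟨a₀, ha₀, ha₀ne⟩ := hI
    let L : (GLq q → k) →ₗ[k] Module.Dual k V := (LinearMap.llcomp k V V k lam) ∘ₗ combo ρ
    set Λ := (LinearMap.ker (combo (lineRep q k))).map L with hΛdef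
    have hker_right : ∀ a ∈ LinearMap.ker (combo (lineRep q k)), ∀ h : GLq q,
        (fun g => a (g * h⁻¹)) ∈ LinearMap.ker (combo (lineRep q k)) := fun a ha h => by
      rw [LinearMap.mem_ker] at ha ⊢
      rw [← combo_mul_right, ha, zero_mul]
    have hker_left : ∀ a ∈ LinearMap.ker (combo (lineRep q k)), ∀ h : GLq q,
        (fun g => a (h⁻¹ * g)) ∈ LinearMap.ker (combo (lineRep q k)) := fun a ha h => by
      rw [LinearMap.mem_ker] at ha ⊢
      rw [← combo_mul_left, ha, mul_zero]
    have htop : Λ = ⊤ := by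
      have hinv : IsInv ρ Λ.dualCoannihilator := by
        intro g w hw
        rw [Submodule.mem_dualCoannihilator] at hw ⊢
        rintro _ ⟨a, ha, rfl⟩
        have := hw _ ⟨_, hker_right a ha g, rfl⟩
        show lam (combo ρ a (ρ g w)) = 0
        rw [← Module.End.mul_apply, combo_mul_right]
        exact this
      rcases hsimple _ hinv with h | h
      · rw [← Subspace.dualCoannihilator_dualAnnihilator_eq (W := Λ), h,
          Submodule.dualAnnihilator_bot]
      · exfalso
        have hall : ∀ a ∈ LinearMap.ker (combo (lineRep q k)), ∀ w, lam (combo ρ a w) = 0 := by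
          intro a ha w
          have hw : w ∈ Λ.dualCoannihilator := h ▸ Submodule.mem_top
          exact (Submodule.mem_dualCoannihilator _).mp hw _ ⟨a, ha, rfl⟩
        let N : Submodule k V := ⨅ g, LinearMap.ker (lam ∘ₗ ρ g)
        have hN : IsInv ρ N := fun g w hw => by
          simp only [N, Submodule.mem_iInf, LinearMap.mem_ker, LinearMap.comp_apply] at hw ⊢
          intro g'
          rw [← Module.End.mul_apply, ← map_mul]
          exact hw _
        rcases hsimple N hN with hN0 | hN0
        · refine ha₀ne (LinearMap.ext fun w => ?_)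
          rw [LinearMap.zero_apply, ← Submodule.mem_bot (R := k), ← hN0]
          simp only [N, Submodule.mem_iInf, LinearMap.mem_ker, LinearMap.comp_apply]
          intro g
          rw [← Module.End.mul_apply, combo_mul_left]
          exact hall _ (hker_left a₀ ha₀ g) w
        · refine hμ (LinearMap.ext fun w => ?_)
          have hw : w ∈ N := hN0 ▸ Submodule.mem_top
          simp only [N, Submodule.mem_iInf, LinearMap.mem_ker, LinearMap.comp_apply] at hw
          simpa using hw 1
    obtain ⟨a, ha, haμ⟩ : μ ∈ Λ := htop ▸ Submodule.mem_top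
    set b : GLq q → k := ∑ t : (ZMod q)ˣ, fun g => a (g * (torus t)⁻¹) with hbdef
    have hb : combo (lineRep q k) b = 0 := by
      rw [hbdef, map_sum]
      exact Finset.sum_eq_zero fun t _ => hker_right a ha (torus t)
    have hblam : ∀ w, lam (combo ρ b w) = lam w := fun w => by
      simp only [hbdef, map_sum, LinearMap.sum_apply, ← combo_mul_right, Module.End.mul_apply]
      calc ∑ t, lam (combo ρ a (ρ (torus t) w)) = ∑ t, μ (ρ (torus t) w) := by
            refine Finset.sum_congr rfl fun t _ => ?_
            rw [← haμ]; rfl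
        _ = lam w := by simp [hlamdef]
    have hbinv : ∀ g (s : (ZMod q)ˣ), b (g * torus s) = b g := fun g s => by
      simp only [hbdef, Finset.sum_apply]
      refine Fintype.sum_bijective (fun t => t * s⁻¹) (Group.mulRight_bijective _) _ _ fun t => ?_
      rw [← torus_mul, ← torus_inv, _root_.mul_inv_rev, inv_inv, mul_assoc]
    let ν : Pairs q → k := fun R => ∑ g, if g⁻¹ • (pBase : Pairs q) = R then b g else 0
    have hν : ∀ F : Pairs q → k,
        ∑ R, ν R * F R = ∑ g, b g * F (g⁻¹ • (pBase : Pairs q)) := fun F => by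
      simp only [ν, Finset.sum_mul, ite_mul, zero_mul]
      rw [Finset.sum_comm]
      simp
    have hline : ∀ M M' : Lines q, ∑ g, b g * (if g⁻¹ • M' = M then 1 else 0) = 0 := by
      intro M M'
      have h1 := congrFun (LinearMap.congr_fun hb (Pi.single M 1)) M'
      simp only [combo_apply, LinearMap.zero_apply, Pi.zero_apply, Finset.sum_apply, Pi.smul_apply,
        permRep_apply, Pi.single_apply, smul_eq_mul] at h1
      exact h1
    have hne : lam ≠ 0 := hμ
    refine ⟨embed ρ lam, embed_injective hsimple hfix hlam hne, embed_map hfix hlam, ν,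
      ⟨fun s R => ?_, fun M => ?_, fun M => ?_⟩, fun v => funext fun P => ?_⟩
    · refine Fintype.sum_bijective (fun g => g * torus s) (Group.mulRight_bijective _) _ _ fun g =>
        ?_
      simp only [hbinv]
      refine if_congr ?_ rfl rfl
      rw [_root_.mul_inv_rev, mul_smul, inv_smul_eq_iff, inv_smul_eq_iff, inv_smul_eq_iff]
    · have h1 := (hν fun R => if R.1.1 = M then 1 else 0).trans (hline M ∞)
      simpa [mul_ite] using h1
    · have h1 := (hν fun R => if R.1.2 = M then 1 else 0).trans (hline M ((0 : ZMod q) : Lines q))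
      simpa [mul_ite] using h1
    · rw [opKer_apply, hν]
      calc ∑ g, b g * embed ρ lam v (pairElt P • g⁻¹ • (pBase : Pairs q))
          = ∑ g, b g * lam (ρ g (ρ (pairElt P)⁻¹ v)) := by
            refine Finset.sum_congr rfl fun g _ => ?_
            rw [embed_eq hfix hlam (g := pairElt P * g⁻¹) (mul_smul _ _ _), _root_.mul_inv_rev,
              inv_inv, map_mul, Module.End.mul_apply]
        _ = lam (combo ρ b (ρ (pairElt P)⁻¹ v)) := by simp [combo_apply, map_sum]
        _ = embed ρ lam v P := by rw [hblam, embed_apply]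

end FLTAgent.LowerSquare
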