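import Fermat.Agent.LevelRaising.Hecke
import Fermat.Agent.LowerSquare.Constituents

/-!
# Modular symbols with values in a module over `GL₂(𝔽_q)`

Symbols of level `M` (`q ∤ M`) with values in functions on lines are symbols of level `q M`, and
symbols of level `q² M` give symbols with values in functions on pairs of lines, compatibly with
the good Hecke operators.
-/

set_option autoImplicit false

noncomputable section

open Matrix CongruenceSubgroup
open scoped MatrixGroups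

namespace FLTAgent.LowerSquare

open FLTAgent.LevelRaising

variable {q : ℕ} [Fact q.Prime]

/-- Reduction modulo `q` of an integral matrix (junk value `1`). -/
def redMat (q : ℕ) [Fact q.Prime] (A : M2) : GLq q :=
  if h : ((A.det : ℤ) : ZMod q) = 0 then 1 else
    GeneralLinearGroup.mkOfDetNeZero (A.map (Int.cast : ℤ → ZMod q)) (by
      rw [show A.map (Int.cast : ℤ → ZMod q) = (Int.castRingHom (ZMod q)).mapMatrix A from rfl,
        ← RingHom.map_det]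
      simpa using h)

theorem val_redMat {A : M2} (h : ((A.det : ℤ) : ZMod q) ≠ 0) :
    (redMat q A : Matrix (Fin 2) (Fin 2) (ZMod q)) = A.map (Int.cast : ℤ → ZMod q) := by
  rw [redMat, dif_neg h]; rfl

theorem redMat_apply {A : M2} (h : ((A.det : ℤ) : ZMod q) ≠ 0) (i j : Fin 2) :
    redMat q A i j = (A i j : ZMod q) := by
  rw [val_redMat h]; rfl

theorem redMat_mul {A B : M2} (hA : ((A.det : ℤ) : ZMod q) ≠ 0)
    (hB : ((B.det : ℤ) : ZMod q) ≠ 0) : redMat q (A * B) = redMat q A * redMat q B := by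
  have hAB : (((A * B).det : ℤ) : ZMod q) ≠ 0 := by
    rw [det_mul, Int.cast_mul]; exact mul_ne_zero hA hB
  refine Units.ext ?_
  rw [Units.val_mul, val_redMat hAB, val_redMat hA, val_redMat hB]
  exact (Int.castRingHom (ZMod q)).mapMatrix.map_mul A B

/-- Reduction modulo `q` on `SL₂(ℤ)`. -/
def redSL (q : ℕ) [Fact q.Prime] : SL(2, ℤ) →* GLq q where
  toFun γ := redMat q (γ : M2)
  map_one' := by
    refine Units.ext ?_
    rw [val_redMat (by simp)]
    simp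
  map_mul' γ δ := by
    rw [Matrix.SpecialLinearGroup.coe_mul]
    exact redMat_mul (by simp [γ.det_coe]) (by simp [δ.det_coe])

theorem redSL_apply (γ : SL(2, ℤ)) (i j : Fin 2) : redSL q γ i j = (γ i j : ZMod q) :=
  redMat_apply (by simp [γ.det_coe]) i j

theorem det_cast_sl (γ : SL(2, ℤ)) : (((γ : M2).det : ℤ) : ZMod q) ≠ 0 := by simp [γ.det_coe]

theorem redSL_eq_redMat (γ : SL(2, ℤ)) : redSL q γ = redMat q (γ : M2) := rfl

variable {k : Type} [Field k] {V W : Type} [AddCommGroup V] [Module k V] [AddCommGroup W]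
  [Module k W] {ρ : Representation k (GLq q) V} {σ : Representation k (GLq q) W}

variable (ρ) in
/-- Additive functions on pairs of cusps, equivariant for `Γ₀(M)`. -/
def VSymb (M : ℕ) : Submodule k (Cusp → Cusp → V) where
  carrier := {Φ | (∀ x y z, Φ x y + Φ y z = Φ x z) ∧
    ∀ γ ∈ Gamma0 M, ∀ x y, Φ (glQ γ • x) (glQ γ • y) = ρ (redSL q γ) (Φ x y)}
  zero_mem' := ⟨fun _ _ _ => add_zero 0, fun γ _ _ _ => (map_zero (ρ (redSL q γ))).symm⟩
  add_mem' := by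
    rintro Φ Ψ ⟨h1, h2⟩ ⟨h3, h4⟩
    refine ⟨fun x y z => ?_, fun γ hγ x y => ?_⟩
    · simp only [Pi.add_apply]; rw [← h1 x y z, ← h3 x y z]; abel
    · simp only [Pi.add_apply]; rw [h2 γ hγ, h4 γ hγ, map_add]
  smul_mem' := by
    rintro c Φ ⟨h1, h2⟩
    refine ⟨fun x y z => ?_, fun γ hγ x y => ?_⟩
    · simp only [Pi.smul_apply]; rw [← h1 x y z, smul_add]
    · simp only [Pi.smul_apply]; rw [h2 γ hγ, map_smul]

variable (ρ) in
/-- The Hecke operator `T_ℓ` on symbols with values in a module. -/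
def twOp (ℓ : ℕ) (Φ : Cusp → Cusp → V) : Cusp → Cusp → V := fun x y =>
  ∑ i : Option (Fin ℓ), ρ (redMat q (heckeFam ℓ i))⁻¹
    (Φ (ofMat (heckeFam ℓ i) • x) (ofMat (heckeFam ℓ i) • y))

variable (ρ) in
/-- An eigen symbol. -/
def IsEigen (M : ℕ) (S : Finset ℕ) (a : ℕ → k) (Φ : Cusp → Cusp → V) : Prop :=
  Φ ∈ VSymb ρ M ∧ ∀ ℓ, ℓ.Prime → ℓ ∉ S → twOp ρ ℓ Φ = a ℓ • Φ

variable (ρ) in
/-- There is no nonzero eigen symbol. -/
def NoEigen (M : ℕ) (S : Finset ℕ) (a : ℕ → k) : Prop :=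
  ∀ Φ, IsEigen ρ M S a Φ → Φ = 0

variable {M : ℕ} {S : Finset ℕ} {a : ℕ → k}

/-- An intertwining map sends eigen symbols to eigen symbols. -/
theorem IsEigen.comp {Φ : Cusp → Cusp → V} (h : IsEigen ρ M S a Φ) (f : V →ₗ[k] W)
    (hf : ∀ g v, f (ρ g v) = σ g (f v)) : IsEigen σ M S a fun x y => f (Φ x y) := by
  refine ⟨⟨fun x y z => ?_, fun γ hγ x y => ?_⟩, fun ℓ hℓ hℓS => funext fun x => funext fun y => ?_⟩
  · show f (Φ x y) + f (Φ y z) = f (Φ x z)
    rw [← map_add, h.1.1]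
  · show f (Φ _ _) = σ _ (f (Φ x y))
    rw [h.1.2 γ hγ, hf]
  · show ∑ i : Option (Fin ℓ), σ _ (f (Φ _ _)) = a ℓ • f (Φ x y)
    simp only [← hf, ← map_sum]
    rw [← map_smul f]
    exact congrArg f (congrFun (congrFun (h.2 ℓ hℓ hℓS) x) y)

theorem noEigen_of_injective (f : V →ₗ[k] W) (hinj : Function.Injective f)
    (hf : ∀ g v, f (ρ g v) = σ g (f v)) (h : NoEigen σ M S a) : NoEigen ρ M S a := fun Φ hΦ => by
  have := h _ (hΦ.comp f hf)
  funext x y
  exact hinj ((congrFun (congrFun this x) y).trans (map_zero f).symm)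

/-- Left exactness. -/
theorem noEigen_of_exact {U : Type} [AddCommGroup U] [Module k U]
    {τ : Representation k (GLq q) U} (f : V →ₗ[k] W) (hf : ∀ g v, f (ρ g v) = σ g (f v))
    (ι : U →ₗ[k] V) (hι : Function.Injective ι) (hιeq : ∀ g u, ι (τ g u) = ρ g (ι u))
    (hker : ∀ v, f v = 0 → ∃ u, ι u = v) (hU : NoEigen τ M S a) (hW : NoEigen σ M S a) :
    NoEigen ρ M S a := fun Φ hΦ => by
  have hmk := hW _ (hΦ.comp f hf)
  have hex : ∀ x y, ∃ u, ι u = Φ x y := fun x y => hker _ (congrFun (congrFun hmk x) y)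
  choose Ψ hΨ using hex
  have hΨe : IsEigen τ M S a Ψ := by
    refine ⟨⟨fun x y z => hι ?_, fun γ hγ x y => hι ?_⟩,
      fun ℓ hℓ hℓS => funext fun x => funext fun y => hι ?_⟩
    · rw [map_add, hΨ, hΨ, hΨ, hΦ.1.1]
    · rw [hιeq, hΨ, hΨ, hΦ.1.2 γ hγ]
    · simp only [twOp, Pi.smul_apply, map_sum, hιeq, map_smul, hΨ]
      exact congrFun (congrFun (hΦ.2 ℓ hℓ hℓS) x) y
  funext x y
  rw [← hΨ, hU Ψ hΨe]
  simp

/-! ### The lines through `Γ₀(M)` -/

theorem natCast_ne_zero_of_not_dvd {n : ℕ} (h : ¬ q ∣ n) : (n : ZMod q) ≠ 0 := fun h0 =>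
  h ((ZMod.natCast_eq_zero_iff _ _).mp h0)

/-- `T^b`. -/
def translSL (b : ℤ) : SL(2, ℤ) := ⟨!![1, b; 0, 1], by rw [Matrix.det_fin_two_of]; ring⟩

/-- `(1 0; c 1)`. -/
def lowerSL (c : ℤ) : SL(2, ℤ) := ⟨!![1, 0; c, 1], by rw [Matrix.det_fin_two_of]; ring⟩

theorem translSL_mem (b : ℤ) : translSL b ∈ Gamma0 M := by
  simp [Gamma0_mem, translSL]

theorem lowerSL_mem : lowerSL (M : ℤ) ∈ Gamma0 M := by
  simp [Gamma0_mem, lowerSL]

theorem redSL_transl (b : ℤ) : redSL q (translSL b) = transl (b : ZMod q) := by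
  refine ext_gl ?_ ?_ ?_ ?_ <;> rw [redSL_apply] <;> simp [translSL, transl, gl2_apply]

theorem exists_gamma0_smul_infty (hqM : ¬ q ∣ M) (L : Lines q) :
    ∃ γ ∈ Gamma0 M, redSL q γ • (OnePoint.infty : Lines q) = L := by
  cases L using OnePoint.rec with
  | infty => exact ⟨1, one_mem _, by rw [map_one, one_smul]⟩
  | coe x =>
    refine ⟨translSL ((x - (M : ZMod q)⁻¹).val : ℤ) * lowerSL M,
      mul_mem (translSL_mem _) lowerSL_mem, ?_⟩
    have hlow : redSL q (lowerSL (M : ℤ)) • (OnePoint.infty : Lines q) =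
        ((((M : ZMod q))⁻¹ : ZMod q) : Lines q) := by
      rw [OnePoint.smul_infty_eq_ite, redSL_apply, redSL_apply]
      simp [lowerSL, natCast_ne_zero_of_not_dvd hqM]
    rw [map_mul, mul_smul, hlow, redSL_transl, transl_smul_coe]
    simp

theorem exists_gamma0_smul_base (hqM : ¬ q ∣ M) (P : Pairs q) :
    ∃ γ ∈ Gamma0 M, redSL q γ • (pBase : Pairs q) = P := by
  obtain ⟨γ, hγ, hL⟩ := exists_gamma0_smul_infty hqM P.1.1
  have hne : (redSL q γ)⁻¹ • P.1.2 ≠ (OnePoint.infty : Lines q) := fun h => P.2 (by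
    rw [← hL, ← h, smul_inv_smul])
  obtain ⟨x, hx⟩ : ∃ x : ZMod q, ((x : ZMod q) : Lines q) = (redSL q γ)⁻¹ • P.1.2 := by
    revert hne
    generalize (redSL q γ)⁻¹ • P.1.2 = L
    intro hne
    cases L using OnePoint.rec with
    | infty => exact absurd rfl hne
    | coe x => exact ⟨x, rfl⟩
  refine ⟨γ * translSL (x.val : ℤ), mul_mem hγ (translSL_mem _), pairs_ext ?_ ?_⟩
  · rw [smul_pair_fst, map_mul, mul_smul, redSL_transl]
    show redSL q γ • transl _ • (OnePoint.infty : Lines q) = _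
    rw [transl_smul_infty, hL]
  · rw [smul_pair_snd, map_mul, mul_smul, redSL_transl]
    show redSL q γ • transl _ • ((0 : ZMod q) : Lines q) = _
    rw [transl_smul_coe, zero_add, Int.cast_natCast, ZMod.natCast_zmod_val, hx, smul_inv_smul]

/-! ### Symbols with values in functions on lines -/

theorem heckeFam_det_cast {ℓ : ℕ} (hℓq : ¬ q ∣ ℓ) (i : Option (Fin ℓ)) :
    (((heckeFam ℓ i).det : ℤ) : ZMod q) ≠ 0 := by
  rw [heckeFam_det, Int.cast_natCast]
  exact natCast_ne_zero_of_not_dvd hℓq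

theorem redMat_heckeFam_infty {ℓ : ℕ} (hℓq : ¬ q ∣ ℓ) (i : Option (Fin ℓ)) :
    redMat q (heckeFam ℓ i) • (OnePoint.infty : Lines q) = OnePoint.infty := by
  rw [OnePoint.smul_infty_eq_self_iff, redMat_apply (heckeFam_det_cast hℓq i), heckeFam_lower,
    Int.cast_zero]

/-- Symbols with values in functions on lines are symbols of level `q M`. -/
theorem noEigen_lines (hqM : ¬ q ∣ M) (hS : ∀ ℓ, ℓ.Prime → ℓ ∉ S → ℓ ≠ q)
    (h : ∀ Ψ ∈ Lev k (q * M), (∀ ℓ, ℓ.Prime → ℓ ∉ S → tOp k ℓ Ψ = a ℓ • Ψ) → Ψ = 0) :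
    NoEigen (lineRep q k) M S a := by
  intro Φ hΦ
  have hmem : (fun x y => Φ x y OnePoint.infty) ∈ Lev k (q * M) := by
    refine ⟨fun x y z => congrFun (hΦ.1.1 x y z) OnePoint.infty, fun γ hγ x y => ?_⟩
    have hd := mem_Gamma0_iff_dvd.mp hγ
    push_cast at hd
    have h10 : redSL q γ • (OnePoint.infty : Lines q) = OnePoint.infty := by
      rw [OnePoint.smul_infty_eq_self_iff, redSL_apply, ZMod.intCast_zmod_eq_zero_iff_dvd]
      exact (dvd_mul_right _ _).trans hd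
    show Φ _ _ OnePoint.infty = Φ x y OnePoint.infty
    rw [hΦ.1.2 γ (mem_Gamma0_iff_dvd.mpr ((dvd_mul_left _ _).trans hd)), permRep_apply,
      inv_smul_eq_iff.mpr h10.symm]
  have h0 := h _ hmem fun ℓ hℓ hℓS => funext fun x => funext fun y => by
    have hℓq : ¬ q ∣ ℓ := fun hd =>
      hS ℓ hℓ hℓS ((Nat.prime_dvd_prime_iff_eq (Fact.out) hℓ).mp hd).symm
    have h1 := congrFun (congrFun (congrFun (hΦ.2 ℓ hℓ hℓS) x) y) OnePoint.infty
    simp only [twOp, Finset.sum_apply, permRep_apply, inv_inv, redMat_heckeFam_infty hℓq] at h1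
    simp only [tOp, pullFam_apply, Finset.sum_apply, pull_apply]
    exact h1
  funext x y L
  obtain ⟨γ, hγ, rfl⟩ := exists_gamma0_smul_infty hqM L
  have h1 := hΦ.1.2 γ⁻¹ (inv_mem hγ) x y
  have h2 := congrFun (congrFun h0 (glQ γ⁻¹ • x)) (glQ γ⁻¹ • y)
  simp only [Pi.zero_apply] at h2
  rw [h1, permRep_apply, map_inv, inv_inv] at h2
  exact h2

/-! ### Symbols of level `q² M` -/

/-- `(q 0; 0 1)`. -/
def diagQ (q : ℕ) : M2 := !![(q : ℤ), 0; 0, 1]

theorem diagQ_det_ne_zero : (diagQ q).det ≠ 0 := by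
  simp [diagQ, (Fact.out : q.Prime).ne_zero]

/-- An integral matrix diagonal modulo `q` conjugates by `diagQ` into integral matrices. -/
theorem exists_conj_diagQ {M : ℕ} {A : M2} (h01 : (q : ℤ) ∣ A 0 1) (h10 : (q : ℤ) ∣ A 1 0)
    (hM : (M : ℤ) ∣ A 1 0) (hqM : ¬ q ∣ M) :
    ∃ A' : M2, A * diagQ q = diagQ q * A' ∧ A'.det = A.det ∧ ((q * M * q : ℕ) : ℤ) ∣ A' 1 0 := by
  obtain ⟨b, hb⟩ := h01
  have hqM' : ((q * M : ℕ) : ℤ) ∣ A 1 0 := by
    have hco : IsCoprime (q : ℤ) (M : ℤ) :=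
      Nat.isCoprime_iff_coprime.mpr (((Fact.out : q.Prime).coprime_iff_not_dvd).mpr hqM)
    push_cast
    exact hco.mul_dvd h10 hM
  refine ⟨!![A 0 0, b; (q : ℤ) * A 1 0, A 1 1], ?_, ?_, ?_⟩
  · ext i j
    fin_cases i <;> fin_cases j <;>
      simp [diagQ, Matrix.mul_apply, Fin.sum_univ_two, hb, mul_comm]
  · rw [Matrix.det_fin_two_of, Matrix.det_fin_two A, hb]
    ring
  · push_cast at hqM' ⊢
    rw [show ((q : ℤ) * M * q) = q * (q * M) by ring]
    simpa using mul_dvd_mul_left (q : ℤ) hqM'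

theorem dvd_of_smul_base {A : M2} (hA : ((A.det : ℤ) : ZMod q) ≠ 0)
    (h : redMat q A • (pBase : Pairs q) = pBase) : (q : ℤ) ∣ A 0 1 ∧ (q : ℤ) ∣ A 1 0 := by
  obtain ⟨h10, h01⟩ := apply_eq_zero_of_smul (congrArg (fun P : Pairs q => P.1.1) h)
    (congrArg (fun P : Pairs q => P.1.2) h)
  rw [redMat_apply hA, ZMod.intCast_zmod_eq_zero_iff_dvd] at h10 h01
  exact ⟨h01, h10⟩

variable {hqM : ¬ q ∣ M}

/-- A chosen element of `Γ₀(M)` sending `(∞, 0)` to a pair. -/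
def pairSL (hqM : ¬ q ∣ M) (P : Pairs q) : SL(2, ℤ) := (exists_gamma0_smul_base hqM P).choose

theorem pairSL_mem (P : Pairs q) : pairSL hqM P ∈ Gamma0 M :=
  (exists_gamma0_smul_base hqM P).choose_spec.1

theorem pairSL_smul (P : Pairs q) : redSL q (pairSL hqM P) • (pBase : Pairs q) = P :=
  (exists_gamma0_smul_base hqM P).choose_spec.2

/-- The symbol with values in functions on pairs of a symbol of level `q² M`. -/
def toPairs (hqM : ¬ q ∣ M) (Φ' : Cusp → Cusp → k) : Cusp → Cusp → (Pairs q → k) := fun x y P =>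
  Φ' ((ofMat (diagQ q))⁻¹ • (glQ (pairSL hqM P))⁻¹ • x)
    ((ofMat (diagQ q))⁻¹ • (glQ (pairSL hqM P))⁻¹ • y)

theorem toPairs_eq {Φ' : Cusp → Cusp → k} (hΦ' : Φ' ∈ Lev k (q * M * q)) {g : SL(2, ℤ)}
    (hg : g ∈ Gamma0 M) {P : Pairs q} (h : redSL q g • (pBase : Pairs q) = P) (x y : Cusp) :
    toPairs hqM Φ' x y P =
      Φ' ((ofMat (diagQ q))⁻¹ • (glQ g)⁻¹ • x) ((ofMat (diagQ q))⁻¹ • (glQ g)⁻¹ • y) := by
  set h' := g⁻¹ * pairSL hqM P with hh'
  have hb : redMat q (h' : M2) • (pBase : Pairs q) = pBase := by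
    rw [← redSL_eq_redMat, hh', map_mul, map_inv, mul_smul, pairSL_smul, inv_smul_eq_iff, h]
  obtain ⟨h01, h10⟩ := dvd_of_smul_base (by simp [h'.det_coe]) hb
  obtain ⟨A', hA', hdet, hlow⟩ := exists_conj_diagQ (M := M) h01 h10
    (mem_Gamma0_iff_dvd.mp (mul_mem (inv_mem hg) (pairSL_mem P))) hqM
  rw [h'.det_coe] at hdet
  have hmem : (⟨A', hdet⟩ : SL(2, ℤ)) ∈ Gamma0 (q * M * q) := mem_Gamma0_iff_dvd.mpr hlow
  have key : ∀ z : Cusp, glQ ⟨A', hdet⟩ • (ofMat (diagQ q))⁻¹ • (glQ (pairSL hqM P))⁻¹ • z =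
      (ofMat (diagQ q))⁻¹ • (glQ g)⁻¹ • z := by
    intro z
    have e : glQ h' * ofMat (diagQ q) = ofMat (diagQ q) * glQ ⟨A', hdet⟩ := by
      rw [← ofMat_coe, ← ofMat_coe, ← ofMat_mul (by rw [h'.det_coe]; exact one_ne_zero)
        diagQ_det_ne_zero, hA', ofMat_mul diagQ_det_ne_zero (by
          show A'.det ≠ 0; rw [hdet]; exact one_ne_zero)]
    rw [eq_inv_mul_of_mul_eq e.symm, hh', map_mul, map_inv]
    simp only [mul_smul, smul_inv_smul]
  rw [toPairs, ← hΦ'.2 _ hmem, key, key]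

theorem toPairs_mem {Φ' : Cusp → Cusp → k} (hΦ' : Φ' ∈ Lev k (q * M * q)) :
    toPairs hqM Φ' ∈ VSymb (pairRep q k) M := by
  refine ⟨fun x y z => funext fun P => hΦ'.1 _ _ _, fun γ hγ x y => funext fun P => ?_⟩
  rw [permRep_apply,
    toPairs_eq (hqM := hqM) hΦ' (mul_mem (inv_mem hγ) (pairSL_mem (hqM := hqM) P))
    (P := (redSL q γ)⁻¹ • P)
    (by rw [map_mul, map_inv, mul_smul, pairSL_smul])]
  simp only [toPairs, map_mul, map_inv, _root_.mul_inv_rev, inv_inv, mul_smul]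

/-- The conjugate of a Hecke matrix by two representatives of pairs. -/
theorem exists_hecke_conj {ℓ : ℕ} (hℓ : ℓ.Prime) (hℓq : ¬ q ∣ ℓ) (hℓM : ¬ ℓ ∣ q * M * q)
    (P : Pairs q) (i : Option (Fin ℓ)) :
    ∃ j, ∃ γ ∈ Gamma0 (q * M * q),
      heckeFam ℓ i * ((pairSL hqM P : SL(2, ℤ)) : M2) * diagQ q =
        ((pairSL hqM (redMat q (heckeFam ℓ i) • P) : SL(2, ℤ)) : M2) * diagQ q *
          (((γ : SL(2, ℤ)) : M2) * heckeFam ℓ j) := by
  set g := pairSL hqM P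
  set g' := pairSL hqM (redMat q (heckeFam ℓ i) • P)
  set A : M2 := ((g'⁻¹ : SL(2, ℤ)) : M2) * heckeFam ℓ i * (g : M2) with hA
  have hAdet : A.det = ℓ := by
    rw [hA, det_mul, det_mul, (g'⁻¹).det_coe, g.det_coe, heckeFam_det, one_mul, mul_one]
  have hAq : ((A.det : ℤ) : ZMod q) ≠ 0 := by
    rw [hAdet, Int.cast_natCast]; exact natCast_ne_zero_of_not_dvd hℓq
  have hb : redMat q A • (pBase : Pairs q) = pBase := by
    rw [hA, redMat_mul (by rw [det_mul, (g'⁻¹).det_coe, one_mul]; exact heckeFam_det_cast hℓq i)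
      (det_cast_sl _), redMat_mul (det_cast_sl _) (heckeFam_det_cast hℓq i),
      ← redSL_eq_redMat, ← redSL_eq_redMat, mul_smul, mul_smul, pairSL_smul, map_inv,
      inv_smul_eq_iff, pairSL_smul]
  obtain ⟨h01, h10⟩ := dvd_of_smul_base hAq hb
  have hM : (M : ℤ) ∣ A 1 0 := by
    have e1 := mem_Gamma0_iff_dvd.mp (inv_mem (pairSL_mem (hqM := hqM)
      (redMat q (heckeFam ℓ i) • P)))
    have e2 := mem_Gamma0_iff_dvd.mp (pairSL_mem (hqM := hqM) P)
    rw [hA]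
    simp only [Matrix.mul_apply, Fin.sum_univ_two, heckeFam_lower, mul_zero, add_mul, zero_mul,
      add_zero]
    exact dvd_add (dvd_mul_of_dvd_left (dvd_mul_of_dvd_left e1 _) _)
      (dvd_add (dvd_mul_of_dvd_right e2 _) (dvd_mul_of_dvd_right e2 _))
  obtain ⟨A', hA', hdet', hlow⟩ := exists_conj_diagQ h01 h10 hM hqM
  rw [hAdet] at hdet'
  obtain ⟨j, γ, hγ, hj⟩ := exists_gamma_mul_heckeFam hℓ hℓM hdet' hlow
  refine ⟨j, γ, hγ, ?_⟩
  rw [← hj, mul_assoc (g' : M2), ← hA', hA]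
  simp only [← mul_assoc]
  rw [← Matrix.SpecialLinearGroup.coe_mul, mul_inv_cancel, Matrix.SpecialLinearGroup.coe_one,
    one_mul]

/-- The good Hecke operators commute with the passage to functions on pairs. -/
theorem twOp_toPairs {ℓ : ℕ} (hℓ : ℓ.Prime) (hℓM : ¬ ℓ ∣ q * M * q) {Φ' : Cusp → Cusp → k}
    (hΦ' : Φ' ∈ Lev k (q * M * q)) :
    twOp (pairRep q k) ℓ (toPairs hqM Φ') = toPairs hqM (tOp k ℓ Φ') := by
  refine funext fun x => funext fun y => funext fun P => ?_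
  have hℓq : ¬ q ∣ ℓ := fun hd => hℓM
    ((((Nat.prime_dvd_prime_iff_eq (Fact.out) hℓ).mp hd) ▸ dvd_rfl : ℓ ∣ q).trans
      (dvd_mul_left q _))
  choose j γ hγ he using exists_hecke_conj (hqM := hqM) hℓ hℓq hℓM P
  have hh : ∀ i, ∃ h : SL(2, ℤ), diagQ q * ((γ i : SL(2, ℤ)) : M2) = (h : M2) * diagQ q := by
    intro i
    obtain ⟨c, hc⟩ : (q : ℤ) ∣ (γ i : SL(2, ℤ)) 1 0 :=
      (Int.natCast_dvd_natCast.mpr (dvd_mul_left q (q * M))).trans (mem_Gamma0_iff_dvd.mp (hγ i))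
    have hdet := (γ i).det_coe
    rw [Matrix.det_fin_two, hc] at hdet
    refine ⟨⟨!![γ i 0 0, (q : ℤ) * γ i 0 1; c, γ i 1 1], by
      rw [Matrix.det_fin_two_of]; linear_combination hdet⟩, ?_⟩
    ext r t
    fin_cases r <;> fin_cases t <;>
      simp [diagQ, Matrix.mul_apply, Fin.sum_univ_two, hc, mul_comm]
  choose h hh using hh
  set g := pairSL hqM P
  set g' := fun i => pairSL hqM (redMat q (heckeFam ℓ i) • P)
  have hgd : ((g : M2) * diagQ q).det ≠ 0 := by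
    rw [det_mul, g.det_coe, one_mul]; exact diagQ_det_ne_zero
  have he' : ∀ i, heckeFam ℓ i * ((g : M2) * diagQ q) =
      ((g' i * h i : SL(2, ℤ)) : M2) * (diagQ q * heckeFam ℓ (j i)) := by
    intro i
    rw [← mul_assoc, he i, Matrix.SpecialLinearGroup.coe_mul, mul_assoc (g' i : M2),
      mul_assoc (g' i : M2), ← mul_assoc (diagQ q), hh, mul_assoc]
  have hinj : Function.Injective j := by
    intro i i' hii
    have h1 : heckeFam ℓ i =
        ((g' i * h i * (g' i' * h i')⁻¹ : SL(2, ℤ)) : M2) * heckeFam ℓ i' := by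
      refine right_cancel_of_det_ne_zero hgd ?_
      rw [mul_assoc, he', hii, he', ← mul_assoc ((g' i * h i * (g' i' * h i')⁻¹ : SL(2, ℤ)) : M2),
        ← Matrix.SpecialLinearGroup.coe_mul, inv_mul_cancel_right]
    refine heckeFam_right_unique hℓ (δ₁ := 1) ?_ (not_dvd_det_SL hℓ _) ((one_mul _).trans h1)
    rw [Matrix.det_one]; exact not_prime_dvd_one hℓ
  have hb : Function.Bijective j := (Finite.injective_iff_bijective).mp hinj
  have hterm : ∀ i (z : Cusp),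
      (ofMat (diagQ q))⁻¹ • (glQ (g' i))⁻¹ • ofMat (heckeFam ℓ i) • z =
        glQ (γ i) • ofMat (heckeFam ℓ (j i)) • (ofMat (diagQ q))⁻¹ • (glQ g)⁻¹ • z := by
    intro i z
    have hdet := heckeFam_det_ne_zero hℓ.ne_zero (ℓ := ℓ)
    have hgdet : (heckeFam ℓ i * (g : M2)).det ≠ 0 := by
      rw [det_mul, g.det_coe, mul_one]; exact hdet i
    have hg'det : ((g' i : M2) * diagQ q).det ≠ 0 := by
      rw [det_mul, (g' i).det_coe, one_mul]; exact diagQ_det_ne_zero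
    have hγdet : ((γ i : M2) * heckeFam ℓ (j i)).det ≠ 0 := by
      rw [det_mul, (γ i).det_coe, one_mul]; exact hdet _
    have e : ofMat (heckeFam ℓ i) * glQ g * ofMat (diagQ q) =
        glQ (g' i) * ofMat (diagQ q) * (glQ (γ i) * ofMat (heckeFam ℓ (j i))) := by
      rw [← ofMat_coe, ← ofMat_coe, ← ofMat_coe, ← ofMat_mul (hdet i) (sl_det_ne_zero _),
        ← ofMat_mul hgdet diagQ_det_ne_zero, he i, ofMat_mul hg'det hγdet,
        ofMat_mul (sl_det_ne_zero _) diagQ_det_ne_zero, ofMat_mul (sl_det_ne_zero _) (hdet _)]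
    have e' : (ofMat (diagQ q))⁻¹ * (glQ (g' i))⁻¹ * ofMat (heckeFam ℓ i) =
        glQ (γ i) * ofMat (heckeFam ℓ (j i)) * (ofMat (diagQ q))⁻¹ * (glQ g)⁻¹ := by
      calc (ofMat (diagQ q))⁻¹ * (glQ (g' i))⁻¹ * ofMat (heckeFam ℓ i)
          = (ofMat (diagQ q))⁻¹ * (glQ (g' i))⁻¹ *
              (ofMat (heckeFam ℓ i) * glQ g * ofMat (diagQ q)) *
              ((ofMat (diagQ q))⁻¹ * (glQ g)⁻¹) := by group
        _ = _ := by rw [e]; group
    have := congrArg (fun t : GL (Fin 2) ℚ => t • z) e'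
    simpa only [mul_smul] using this
  simp only [twOp, Finset.sum_apply, permRep_apply, inv_inv, toPairs, tOp, pullFam_apply,
    pull_apply]
  refine Fintype.sum_bijective j hb _ _ fun i => ?_
  show Φ' ((ofMat (diagQ q))⁻¹ • (glQ (g' i))⁻¹ • ofMat (heckeFam ℓ i) • x)
    ((ofMat (diagQ q))⁻¹ • (glQ (g' i))⁻¹ • ofMat (heckeFam ℓ i) • y) = _
  rw [hterm, hterm, hΦ'.2 _ (hγ i)]

/-- The symbol of a symbol of level `q² M` is an eigen symbol. -/
theorem isEigen_toPairs (hS : ∀ ℓ, ℓ.Prime → ℓ ∉ S → ¬ ℓ ∣ q * M * q) {Φ' : Cusp → Cusp → k}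
    (hΦ' : Φ' ∈ Lev k (q * M * q)) (hev : ∀ ℓ, ℓ.Prime → ℓ ∉ S → tOp k ℓ Φ' = a ℓ • Φ') :
    IsEigen (pairRep q k) M S a (toPairs hqM Φ') :=
  ⟨toPairs_mem hΦ', fun ℓ hℓ hℓS => by rw [twOp_toPairs hℓ (hS ℓ hℓ hℓS) hΦ', hev ℓ hℓ hℓS]; rfl⟩

theorem toPairs_ne_zero {Φ' : Cusp → Cusp → k} (hΦ' : Φ' ∈ Lev k (q * M * q)) (hne : Φ' ≠ 0) :
    toPairs hqM Φ' ≠ 0 := by
  intro h
  refine hne (funext fun x => funext fun y => ?_)
  have h1 := congrFun (congrFun (congrFun h (ofMat (diagQ q) • x)) (ofMat (diagQ q) • y)) pBase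
  rw [toPairs_eq hΦ' (one_mem _) (by rw [map_one, one_smul]), map_one, inv_one, one_smul, one_smul,
    inv_smul_smul, inv_smul_smul] at h1
  exact h1

end FLTAgent.LowerSquare
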