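import Fermat.Agent.SemistableFinals.MazurAssembly
import Fermat.Agent.GaloisImage.Det
import Mathlib.RingTheory.Nilpotent.Lemmas

/-!
# Eigenclasses with the eigenvalues of a semistable curve

For a semistable curve `W` and `q ≠ p`: no nonzero eigenclasses occur at a level at which `W` is
not residually modular, nor, at a level prime to `q`, with eigenvalues twisted at `q`; pushforwards
preserve eigenclasses; and the eigenclasses fixed by inertia at the places over `q` generate.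
-/

set_option autoImplicit false

noncomputable section

open Matrix AlgebraicCurve ModularCurve FLTAgent.GaloisAttach FLTAgent.SemistableHecke
open FLTAgent.SemistableFinals
open scoped Pointwise

namespace FLTAgent.LowerSquare

open FLTAgent.Density (GalQ Qbar)

variable {p : ℕ} [Fact p.Prime] {N : ℕ} [NeZero N]

/-- The Eichler–Shimura relation on `p`-torsion. -/
theorem frob_rel {ℓ : ℕ} (hℓ : ℓ.Prime) (hℓN : ¬ ℓ ∣ N * p) {A : ValuationSubring Qbar}
    (hA : A.LiesOverPrime ℓ) {σ : GalQ} (hσ : A.IsFrobeniusAt σ ℓ) {y : JZero N}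
    (hy : p • y = 0) :
    σ • σ • y + ℓ • y = heckeOperatorBar N ⟨ℓ, hℓ⟩ (σ • y) := by
  let := heckeModuleBar N
  have hJ := jacobianInputs N (Fact.out : p.Prime)
  have := hJ.smulComm
  obtain ⟨J', _, _, sp, F, hsp, hrel⟩ := hJ.specialization ℓ hℓ hℓN A hA
  let i : Nat.Primes := ⟨ℓ, hℓ⟩
  have hz : ∀ (τ : GalQ) {y : JZero N}, p • y = 0 → p • (τ • y) = 0 := fun τ y hy => by
    simpa only [pow_one] using pow_nsmul_smul_zero (p := p) (k := 1) τ (x := y) (by rwa [pow_one])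
  have hT : heckeOperatorBar N i (σ • y) = heckeGen i • σ • y := by
    rw [heckeModuleBar_smul_def (HeckeJacobian.heckeOperatorsCommuteBar N), heckeEvalBar_heckeGen]
  rw [hT, ← sub_eq_zero]
  refine hsp.injective_torsion _ ⟨1, ?_⟩ ?_
  · rw [pow_one, nsmul_sub, nsmul_add, hz σ (hz σ hy), smul_comm p ℓ y, hy,
      smul_comm p (heckeGen i), hz σ hy]
    simp
  · rw [map_sub, map_add, map_nsmul, hsp.hecke_comm, hsp.frobenius_comm σ hσ,
      hsp.frobenius_comm σ hσ, sub_eq_zero]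
    have := hrel (sp y)
    rwa [sub_add_eq_add_sub, sub_eq_zero] at this

/-- Inertia at a prime not dividing `N p` fixes the `p`-torsion. -/
theorem smul_eq_of_inertia {ℓ : ℕ} (hℓ : ℓ.Prime) (hℓN : ¬ ℓ ∣ N * p) {A : ValuationSubring Qbar}
    (hA : A.LiesOverPrime ℓ) {σ : GalQ} (hσ : σ ∈ A.inertiaSubgroupIn ℚ) {y : JZero N}
    (hy : p • y = 0) : σ • y = y := by
  let := heckeModuleBar N
  have hJ := jacobianInputs N (Fact.out : p.Prime)
  obtain ⟨J', _, _, sp, F, hsp, -⟩ := hJ.specialization ℓ hℓ hℓN A hA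
  rw [← sub_eq_zero]
  refine hsp.injective_torsion _ ⟨1, ?_⟩ ?_
  · have h := pow_nsmul_smul_zero (p := p) (k := 1) σ (x := y) (by rwa [pow_one])
    rw [nsmul_sub, h, pow_one, hy, sub_zero]
  · rw [map_sub, hsp.inertia_comm σ hσ, sub_self]

theorem heckeOperatorBar_galois {ℓ : ℕ} (hℓ : ℓ.Prime) (g : GalQ) (y : JZero N) :
    heckeOperatorBar N ⟨ℓ, hℓ⟩ (g • y) = g • heckeOperatorBar N ⟨ℓ, hℓ⟩ y := by
  let := heckeModuleBar N
  have := (jacobianInputs N Nat.prime_two).smulComm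
  have hT : ∀ y : JZero N, heckeOperatorBar N ⟨ℓ, hℓ⟩ y = heckeGen ⟨ℓ, hℓ⟩ • y := fun y => by
    rw [heckeModuleBar_smul_def (HeckeJacobian.heckeOperatorsCommuteBar N), heckeEvalBar_heckeGen]
  rw [hT, hT]
  exact (smul_comm g _ y).symm

/-- A Galois equivariant pushforward preserves eigenclasses. -/
theorem pushJ_mem_eigenTors {L : ℕ} [NeZero L]
    (φ : modularFunctionFieldBar N →ₐ[Qbar] modularFunctionFieldBar L)
    (hφ : ∀ σ : GalQ, SemilinearAut.IntertwinesAlong φ.toRingHom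
      (arithmeticGalois (modularFunctionFieldFull N) σ)
      (arithmeticGalois (modularFunctionFieldFull L) σ))
    {S : Finset ℕ} (hS : ∀ r : ℕ, r.Prime → r ∣ N * L * p → r ∈ S) {a : ℕ → ℕ} {x : JZero L}
    (hx : x ∈ eigenTors p L S a) : pushJ φ x ∈ eigenTors p N S a := by
  have hp0 : p • pushJ φ x = 0 := by rw [← map_nsmul, hx.1, map_zero]
  refine ⟨hp0, fun ℓ hℓ hℓS => ?_⟩
  obtain ⟨A, hA⟩ := Density.exists_liesOverPrime hℓ
  obtain ⟨σ, hσ⟩ := Density.exists_isFrobeniusAt A hℓ hA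
  have hNp : ¬ ℓ ∣ N * p := fun h => hℓS (hS ℓ hℓ (by
    rcases hℓ.dvd_mul.mp h with h | h
    · exact (h.mul_right L).mul_right p
    · exact dvd_mul_of_dvd_right h _))
  have hLp : ¬ ℓ ∣ L * p := fun h => hℓS (hS ℓ hℓ (by
    rw [mul_assoc]; exact h.mul_left N))
  have hg : ∀ (n : ℕ) (y : JZero N), σ • (n • y) = n • (σ • y) := fun n y =>
    map_nsmul (DistribSMul.toAddMonoidHom (JZero N) σ) n y
  have hg' : ∀ (n : ℕ) (y : JZero L), σ • (n • y) = n • (σ • y) := fun n y =>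
    map_nsmul (DistribSMul.toAddMonoidHom (JZero L) σ) n y
  have h1 := congrArg (pushJ φ) (frob_rel hℓ hLp hA hσ hx.1)
  rw [heckeOperatorBar_galois hℓ, hx.2 ℓ hℓ hℓS, map_add, map_nsmul, hg', map_nsmul,
    pushJ_galois φ σ (hφ σ), pushJ_galois φ σ (hφ σ), frob_rel hℓ hNp hA hσ hp0,
    heckeOperatorBar_galois hℓ, ← hg] at h1
  exact MulAction.injective σ h1

/-- No eigenclasses at a level where `W` is not residually modular. -/
theorem eigenTors_eq_zero_of_not_residual {W : WeierstrassCurve ℤ} {T : Finset ℕ} {S : Finset ℕ}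
    (hS : ∀ r : ℕ, r.Prime → r ∣ N * p → r ∈ S)
    (hSgood : ∀ r ∈ S, r.Prime → r ∉ T → W.IsGoodPrimeFor r → ¬ r ∣ N → r = p) {a : ℕ → ℕ}
    (ha : ∀ ℓ : ℕ, ℓ.Prime → W.IsGoodPrimeFor ℓ → (a ℓ : ZMod p) = (W.apOfModel ℓ : ZMod p))
    (hnot : ¬ ResidualOutside W p T N) : ∀ z ∈ eigenTors p N S a, z = 0 := by
  intro z hz
  by_contra hne
  refine hnot (residual_of_evalMod dvd_rfl S (fun r hr hd => hS r hr (hd.mul_right p)) hSgood a ha
    fun r hr => ?_)
  have hp : p.Prime := Fact.out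
  have h0 : (letI := heckeModuleBar N; goodIncl N (↑S : Set ℕ) r • z) = 0 :=
    formsKillTorsion N N p dvd_rfl hp _ r hr 1 z (by rw [pow_one]; exact hz.1)
  rw [goodIncl_smul_eigen hz r] at h0
  have h1 := addOrderOf_dvd_of_nsmul_eq_zero h0
  rw [(Nat.dvd_prime hp).mp (addOrderOf_dvd_of_nsmul_eq_zero hz.1) |>.resolve_left
    fun h => hne (AddMonoid.addOrderOf_eq_one_iff.mp h)] at h1
  exact (ZMod.val_eq_zero _).mp (Nat.eq_zero_of_dvd_of_lt h1 (ZMod.val_lt _))

section Curve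

variable {W : WeierstrassCurve ℤ} (b : Module.Basis (Fin 2) (ZMod p) (GaloisImage.Tors W p))
variable {q : ℕ} [Fact q.Prime]

theorem exists_frobenius_matching (hΔ : W.Δ ≠ 0)
    (bq : Module.Basis (Fin 2) (ZMod q) (GaloisImage.Tors W q)) (g : GalQ) (S : Finset ℕ) :
    ∃ ℓ, ℓ.Prime ∧ ℓ ∉ S ∧ ∃ A : ValuationSubring Qbar, A.LiesOverPrime ℓ ∧ ∃ σ : GalQ,
      A.IsFrobeniusAt σ ℓ ∧ (∀ y : JZero N, p • y = 0 → g • y = σ • y) ∧
      GaloisImage.matRep W p b g = GaloisImage.matRep W p b σ ∧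
      GaloisImage.matRep W q bq g = GaloisImage.matRep W q bq σ := by
  have hp : p.Prime := Fact.out
  have hJ := jacobianInputs N hp
  obtain ⟨L₁, hfd₁, -, hL₁⟩ := exists_level (k := 1) (hJ.finite_torsion 1) hJ.stab hp.ne_zero
  set H : Subgroup GalQ := (GaloisImage.matRep W p b).ker ⊓ (GaloisImage.matRep W q bq).ker
  have hH : IsOpen (H : Set GalQ) := IsOpen.inter
    (GaloisImage.isOpen_of_matRep_ker_le b hΔ fun g hg => MonoidHom.mem_ker.mpr hg)
    (GaloisImage.isOpen_of_matRep_ker_le bq hΔ fun g hg => MonoidHom.mem_ker.mpr hg)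
  obtain ⟨L₂, hfd₂, hL₂⟩ := (krullTopology_mem_nhds_one_iff ℚ Qbar _).mp
    (hH.mem_nhds (one_mem _))
  have : FiniteDimensional ℚ L₂ := hfd₂
  have : FiniteDimensional ℚ L₁ := hfd₁
  have : FiniteDimensional ℚ (L₁ ⊔ L₂ : IntermediateField ℚ Qbar) :=
    IntermediateField.finiteDimensional_sup _ _
  set L := IntermediateField.normalClosure ℚ (L₁ ⊔ L₂ : IntermediateField ℚ Qbar) Qbar
  have : Normal ℚ L := normalClosure.normal ℚ _ Qbar
  have : IsGalois ℚ L := ⟨⟩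
  obtain ⟨ℓ, hℓ, hℓS, A, hA, -, σ, hσ, hgσ⟩ := FLTAgent.Density.exists_frobenius_agree L g S
  have hfix : ∀ y ∈ L, (σ⁻¹ * g) y = y := fun y hy => by
    rw [AlgEquiv.mul_apply, hgσ y hy, AlgEquiv.aut_inv, AlgEquiv.symm_apply_apply]
  have h₁ := (hL₁ (σ⁻¹ * g) fun y hy => hfix y
    (IntermediateField.le_normalClosure _ (le_sup_left (a := L₁) (b := L₂) hy))).1
  obtain ⟨hkp, hkq⟩ : GaloisImage.matRep W p b (σ⁻¹ * g) = 1 ∧
      GaloisImage.matRep W q bq (σ⁻¹ * g) = 1 := Subgroup.mem_inf.mp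
    (hL₂ ((IntermediateField.mem_fixingSubgroup_iff _ _).mpr fun y hy => hfix y
      (IntermediateField.le_normalClosure _ (le_sup_right (a := L₁) (b := L₂) hy))))
  refine ⟨ℓ, hℓ, hℓS, A, hA, σ, hσ, fun y hy => ?_, ?_, ?_⟩
  · conv_lhs => rw [show g = σ * (σ⁻¹ * g) by group, mul_smul, h₁ y (by rwa [pow_one])]
  · rw [show g = σ * (σ⁻¹ * g) by group, map_mul, hkp, mul_one]
  · rw [show g = σ * (σ⁻¹ * g) by group, map_mul, hkq, mul_one]

theorem trace_det_of_unipotent {R : Type} [CommRing R] [IsDomain R]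
    {m : Matrix (Fin 2) (Fin 2) R} (h : (m - 1) * (m - 1) = 0) : m.trace = 2 ∧ m.det = 1 := by
  have hnil : IsNilpotent (m - 1) := ⟨2, by rw [pow_two]; exact h⟩
  have htr : (m - 1).trace = 0 := (Matrix.isNilpotent_trace_of_isNilpotent hnil).eq_zero
  have hdet : (m - 1).det = 0 := by
    have := congrArg Matrix.det h
    rw [det_mul, det_zero] at this
    exact mul_self_eq_zero.mp this
  simp only [trace_fin_two, det_fin_two, Matrix.sub_apply, Matrix.one_apply, Fin.isValue, if_true,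
    zero_ne_one, one_ne_zero, if_false] at htr hdet ⊢
  exact ⟨by linear_combination htr, by linear_combination hdet + htr⟩

/-- No eigenclasses of level prime to `q` with eigenvalues twisted at `q`. -/
theorem eigenTors_eq_zero_of_twist (hp2 : p ≠ 2) (hΔ : W.Δ ≠ 0) (hW : W.IsSemistableModel)
    (hqp : q ≠ p) (hqN : ¬ q ∣ N) {S : Finset ℕ} (hS : ∀ r : ℕ, r.Prime → r ∣ N * p * q → r ∈ S)
    (hSbad : ∀ r : ℕ, r.Prime → (r : ℤ) ∣ W.Δ → r ∈ S) {a : ℕ → ℕ} {u : (ZMod q)ˣ}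
    (ha : ∀ ℓ : ℕ, ℓ.Prime → ℓ ∉ S → (ℓ : ZMod q) = u →
      (a ℓ : ZMod p) = -(W.apOfModel ℓ : ZMod p)) :
    ∀ z ∈ eigenTors p N S a, z = 0 := by
  intro z hz
  have hp : p.Prime := Fact.out
  have hq : q.Prime := Fact.out
  obtain ⟨b⟩ := GaloisImage.exists_basis (W := W) (p := p) hΔ
  obtain ⟨bq⟩ := GaloisImage.exists_basis (W := W) (p := q) hΔ
  obtain ⟨A, hA⟩ := Density.exists_liesOverPrime hq
  obtain ⟨g, hg, hdet⟩ := GaloisImage.exists_det_eq bq hΔ hA (Units.ne_zero u)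
  obtain ⟨htr, hdetp⟩ := trace_det_of_unipotent
    (GaloisImage.unipotent_of_ne b hp2 hW hq hA hqp hg)
  obtain ⟨ℓ, hℓ, hℓS, B, hB, σ, hσ, hyσ, hpσ, hqσ⟩ :=
    exists_frobenius_matching (N := N) b hΔ bq g S
  have hgood : W.IsGoodPrimeFor ℓ := fun hd => hℓS (hSbad ℓ hℓ hd)
  have hℓp : ℓ ≠ p := fun h => hℓS (hS ℓ hℓ (h ▸ (dvd_mul_left p N).mul_right q))
  have hℓq : ℓ ≠ q := fun h => hℓS (hS ℓ hℓ (by rw [h]; exact dvd_mul_left q _))
  obtain ⟨htrℓ, hdetℓ⟩ := ECTorsion.trace_det_frobeniusAt hℓ hgood hℓp hB hσ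
  obtain ⟨-, hdetq⟩ := ECTorsion.trace_det_frobeniusAt (p := q) hℓ hgood hℓq hB hσ
  have hu : (ℓ : ZMod q) = u := by
    rw [← hdetq, ← LinearMap.det_toMatrix bq, ← hdet, hqσ]
    rfl
  have hap : (W.apOfModel ℓ : ZMod p) = 2 := by
    rw [← htrℓ, WeierstrassCurve.Affine.Point.galoisTrace_def,
      LinearMap.trace_eq_matrix_trace (ZMod p) b, ← htr, hpσ]
    rfl
  have hℓ1 : (ℓ : ZMod p) = 1 := by
    rw [← hdetℓ, ← LinearMap.det_toMatrix b, ← hdetp, hpσ]
    rfl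
  have hσz : σ • z = z := by
    rw [← hyσ z hz.1]
    exact smul_eq_of_inertia (p := p) hq (fun h => (hq.dvd_mul.mp h).elim hqN fun h' =>
      hqp ((Nat.prime_dvd_prime_iff_eq hq hp).mp h')) hA hg hz.1
  have hrel := frob_rel hℓ (fun h => hℓS (hS ℓ hℓ (h.mul_right q))) hB hσ hz.1
  rw [hσz, hσz, hz.2 ℓ hℓ hℓS] at hrel
  have hmod : ∀ n : ℕ, n • z = (n : ZMod p).val • z := fun n => by
    conv_lhs => rw [← Nat.mod_add_div n p, add_nsmul, mul_comm, mul_nsmul', hz.1, smul_zero,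
      add_zero]
    rw [ZMod.val_natCast]
  have h4 : (4 : ℕ) • z = 0 := by
    have h : ((1 + ℓ + 2 : ℕ) : ZMod p) = (((4 : ℕ)) : ZMod p) := by push_cast; rw [hℓ1]; norm_num
    rw [hmod, ← h, ← hmod, add_nsmul, add_nsmul, one_nsmul, hrel, ← add_nsmul, hmod]
    rw [Nat.cast_add, ha ℓ hℓ hℓS hu, hap, Nat.cast_ofNat, neg_add_cancel, ZMod.val_zero,
      zero_nsmul]
  by_contra hne
  have h := (addOrderOf_dvd_of_nsmul_eq_zero h4)
  rw [(Nat.dvd_prime hp).mp (addOrderOf_dvd_of_nsmul_eq_zero hz.1) |>.resolve_left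
    fun h => hne (AddMonoid.addOrderOf_eq_one_iff.mp h)] at h
  exact hp2 ((Nat.prime_dvd_prime_iff_eq hp Nat.prime_two).mp
    (hp.dvd_of_dvd_pow (show p ∣ 2 ^ 2 from h)))

/-- Two inertia elements at `q ≠ p` of a semistable curve: `(σ - 1) (τ - 1) = 0`. -/
theorem sub_one_mul_sub_one (hp2 : p ≠ 2) (hW : W.IsSemistableModel) {A : ValuationSubring Qbar}
    (hA : A.LiesOverPrime q) (hqp : q ≠ p) {σ τ : GalQ} (hσ : σ ∈ A.inertiaSubgroupIn ℚ)
    (hτ : τ ∈ A.inertiaSubgroupIn ℚ) :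
    (GaloisImage.matRep W p b σ - 1) * (GaloisImage.matRep W p b τ - 1) = 0 := by
  have hq : q.Prime := Fact.out
  refine ext_of_mulVec_single fun j => ?_
  have e : ⇑(b.repr (b j)) = Pi.single j (1 : ZMod p) := by
    rw [b.repr_self]; exact Finsupp.single_eq_pi_single j 1
  rw [zero_mulVec, ← mulVec_mulVec, ← e, GaloisImage.matRep_sub_one_mulVec,
    GaloisImage.matRep_sub_one_mulVec]
  have h1 := GaloisImage.smul_sub_mem_torE1 (ECReduction.inertiaElt_of_mem hσ)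
    (GaloisImage.smul_sub_mem_torE0 hp2 (hW q hq) hq hA (ECReduction.inertiaElt_of_mem hτ) (b j))
  rw [GaloisImage.torE1_eq_bot hp2 (ECReduction.val_nat_eq_one hq hA fun h =>
    hqp ((Nat.prime_dvd_prime_iff_eq hq Fact.out).1 h)), Submodule.mem_bot] at h1
  rw [h1, map_zero, Finsupp.coe_zero]

/-- Vectors fixed by the elements fixing a nonzero matrix, and their translates, generate. -/
theorem mem_of_translates {G : Type*} [Group G] {V : Type*} [AddCommGroup V] [Module (ZMod p) V]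
    (ρ : G →* Matrix (Fin 2) (Fin 2) (ZMod p)) (π : G →* Module.End (ZMod p) V)
    (hspan : Function.Surjective
      (MonoidAlgebra.lift (ZMod p) (Matrix (Fin 2) (Fin 2) (ZMod p)) G ρ))
    (hfac : ∀ X, MonoidAlgebra.lift (ZMod p) (Matrix (Fin 2) (Fin 2) (ZMod p)) G ρ X = 0 →
      MonoidAlgebra.lift (ZMod p) (Module.End (ZMod p) V) G π X = 0)
    (U : AddSubgroup V) (I : Set G) {B : Matrix (Fin 2) (Fin 2) (ZMod p)} (hB : B ≠ 0)
    (hIB : ∀ σ ∈ I, ρ σ * B = B)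
    (hU : ∀ w, (∀ σ ∈ I, π σ w = w) → ∀ g, π g w ∈ U) (v : V) : v ∈ U := by
  set R := MonoidAlgebra.lift (ZMod p) (Matrix (Fin 2) (Fin 2) (ZMod p)) G ρ
  set E := MonoidAlgebra.lift (ZMod p) (Module.End (ZMod p) V) G π
  have hfac' : ∀ X Y, R X = R Y → E X = E Y := fun X Y h => sub_eq_zero.mp (by
    rw [← map_sub]; exact hfac _ (by rw [map_sub, h, sub_self]))
  choose lift hlift using hspan
  have hfix : ∀ Y w, ∀ σ ∈ I, π σ (E (lift (B * Y)) w) = E (lift (B * Y)) w := by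
    intro Y w σ hσ
    have h := hfac' (MonoidAlgebra.single σ 1 * lift (B * Y)) (lift (B * Y)) (by
      rw [map_mul, MonoidAlgebra.lift_single, one_smul, hlift, ← mul_assoc, hIB σ hσ])
    rw [map_mul, MonoidAlgebra.lift_single, one_smul] at h
    exact LinearMap.congr_fun h w
  have hmove : ∀ w, (∀ σ ∈ I, π σ w = w) → ∀ X, E X w ∈ U := by
    intro w hw X
    induction X using MonoidAlgebra.induction_linear with
    | zero => rw [map_zero]; exact U.zero_mem
    | add f g hf hg => rw [map_add]; exact U.add_mem hf hg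
    | single g t =>
      rw [MonoidAlgebra.lift_single, LinearMap.smul_apply, ← ZMod.natCast_zmod_val t,
        Nat.cast_smul_eq_nsmul]
      exact U.nsmul_mem (hU w hw g) _
  obtain ⟨r, c, hrc⟩ : ∃ r c, B r c ≠ 0 := by
    by_contra! h
    exact hB (Matrix.ext h)
  have h1 : E (lift (Matrix.single 0 r (B r c)⁻¹) * lift (B * Matrix.single c 0 1) +
      lift (Matrix.single 1 r (B r c)⁻¹) * lift (B * Matrix.single c 1 1)) = 1 := by
    rw [← map_one E]
    refine hfac' _ _ ?_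
    rw [map_add, map_mul, map_mul, map_one, hlift, hlift, hlift, hlift, ← mul_assoc, ← mul_assoc]
    ext i j
    fin_cases i <;> fin_cases j <;>
      simp [hrc]
  have h2 := LinearMap.congr_fun h1 v
  rw [map_add, map_mul, map_mul, Module.End.one_apply] at h2
  rw [← h2]
  exact U.add_mem (hmove _ (hfix _ v) _) (hmove _ (hfix _ v) _)

/-- The eigenclasses fixed by inertia over `q` generate the eigenclasses. -/
theorem eigenTors_induction (hp2 : p ≠ 2) (hΔ : W.Δ ≠ 0) (hW : W.IsSemistableModel)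
    (hirr : W.ModRepIsIrreducible p) (hqp : q ≠ p) {S : Finset ℕ}
    (hS : ∀ r : ℕ, r.Prime → r ∣ N * p → r ∈ S)
    (hSbad : ∀ r : ℕ, r.Prime → (r : ℤ) ∣ W.Δ → r ∈ S) {a : ℕ → ℕ}
    (ha : ∀ ℓ : ℕ, ℓ.Prime → W.IsGoodPrimeFor ℓ → (a ℓ : ZMod p) = (W.apOfModel ℓ : ZMod p))
    (U : AddSubgroup (JZero N))
    (hU : ∀ x ∈ eigenTors p N S a, ∀ A : ValuationSubring Qbar, A.LiesOverPrime q →
      (∀ σ ∈ A.inertiaSubgroupIn ℚ, σ • x = x) → x ∈ U) :
    ∀ x ∈ eigenTors p N S a, x ∈ U := by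
  intro x hx
  obtain ⟨b⟩ := GaloisImage.exists_basis (W := W) (p := p) hΔ
  set ρ := GaloisImage.matRep W p b
  set π := eigenAct p N S a
  have h2 : (2 : ZMod p) ≠ 0 := GaloisImage.two_ne_zero_of_ne_two hp2
  obtain ⟨hspan, hrel⟩ := lift_surjective_and_eigenAct_rel hp2 b hΔ hirr S a hS hSbad ha
  set R := MonoidAlgebra.lift (ZMod p) (Matrix (Fin 2) (Fin 2) (ZMod p)) GalQ ρ
  set E := MonoidAlgebra.lift (ZMod p) (Module.End (ZMod p) (eigenTors p N S a)) GalQ π
  have hfac : ∀ X Y, R X = R Y → E X = E Y := fun X Y h => sub_eq_zero.mp (by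
    rw [← map_sub]; exact trace_rel_factor h2 ρ π hspan hrel (by rw [map_sub, h, sub_self]))
  have hE1 : ∀ g, E (MonoidAlgebra.single g 1) = π g := fun g => by
    rw [MonoidAlgebra.lift_single, one_smul]
  obtain ⟨A, hA⟩ := Density.exists_liesOverPrime (Fact.out : q.Prime)
  by_cases hall : ∀ σ ∈ A.inertiaSubgroupIn ℚ, ρ σ = 1
  · refine hU x hx A hA fun σ hσ => ?_
    have h := hfac (MonoidAlgebra.single σ 1) 1 (by
      rw [MonoidAlgebra.lift_single, one_smul, map_one]; exact hall σ hσ)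
    rw [hE1, map_one] at h
    exact congrArg Subtype.val (LinearMap.congr_fun h ⟨x, hx⟩)
  push Not at hall
  obtain ⟨τ, hτ, hτ1⟩ := hall
  refine mem_of_translates (V := eigenTors p N S a) ρ π hspan
    (fun X hX => trace_rel_factor h2 ρ π hspan hrel hX)
    (U.comap (eigenTors p N S a).subtype) (A.inertiaSubgroupIn ℚ : Set GalQ) (B := ρ τ - 1)
    (sub_ne_zero.mpr hτ1) (fun σ hσ => ?_) (fun w hw g => ?_) ⟨x, hx⟩
  · have h0 := sub_one_mul_sub_one b hp2 hW hA hqp hσ hτ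
    rw [sub_mul, one_mul, sub_eq_zero] at h0
    exact h0
  · refine hU _ (smul_mem_eigenTors g w.2) (g • A) (Density.smul_liesOverPrime g hA) fun σ hσ => ?_
    have h' := Density.mem_inertiaSubgroupIn_smul hσ g⁻¹
    rw [inv_smul_smul, inv_inv] at h'
    have h'' := congrArg Subtype.val (hw _ h')
    rw [coe_eigenAct, mul_smul, mul_smul, inv_smul_eq_iff] at h''
    exact h''

end Curve

end FLTAgent.LowerSquare

end
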