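import Fermat.Agent.HeckeJacobian.KummerMap
import Fermat.Agent.SemistableHecke.Pushforward
import Fermat.Prelude.Def_FLTPrelim_Ramification

/-!
# The geometric input of lowering a square from the level

At level `q² M` (`q ∤ M`) the group `Γ₀(q² M)` is conjugate by `D = diag (q, 1)` to the elements of
`Γ₀(M)` fixing the ordered pair of lines `(∞, 0)` modulo `q`.  A kernel is a function on ordered
pairs of distinct lines, invariant under the torus, with vanishing fibre sums.  The input says that
for a torsion class fixed by inertia at `q` and killed by both pushforwards to level `q M` the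
kernel combination of the translates of its Kummer character vanishes on a principal congruence
subgroup.
-/

set_option autoImplicit false

noncomputable section

open CongruenceSubgroup
open scoped MatrixGroups

namespace FLTAgent.LowerSquare

open ModularCurve FLTAgent.HeckeJacobian FLTAgent.SemistableHecke

local notation "Qbar" => AlgebraicClosure ℚ

/-- The line through `(a, c)` modulo `q`. -/
def lineOf (q : ℕ) (a c : ℤ) : Option (ZMod q) :=
  if (c : ZMod q) = 0 then none else some ((a : ZMod q) * (c : ZMod q)⁻¹)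

/-- The images of the lines `∞` and `0`. -/
def pairOf (q : ℕ) (g : SL(2, ℤ)) : Option (ZMod q) × Option (ZMod q) :=
  (lineOf q (g 0 0) (g 1 0), lineOf q (g 0 1) (g 1 1))

/-- A kernel: torus invariant, zero on the diagonal, with vanishing fibre sums. -/
structure IsKernel {q : ℕ} [NeZero q] {k : Type*} [CommRing k]
    (ν : Option (ZMod q) × Option (ZMod q) → k) : Prop where
  diag : ∀ L, ν (L, L) = 0
  invariant : ∀ (u : (ZMod q)ˣ) (L L' : Option (ZMod q)),
    ν (L.map ((u : ZMod q) * ·), L'.map ((u : ZMod q) * ·)) = ν (L, L')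
  sum_fst : ∀ L, ∑ L', ν (L, L') = 0
  sum_snd : ∀ L', ∑ L, ν (L, L') = 0

/-- Kernels kill the classes fixed by inertia at `q` which both pushforwards kill. -/
def OperatorKills : Prop :=
  ∀ (q p M : ℕ) [NeZero q] [NeZero M] [NeZero (q * M)] [NeZero (q * M * q)] [Algebra Qbar ℂ],
    q.Prime → p.Prime → p ≠ 2 → q ≠ p → ¬ q ∣ M →
    ∀ A : ValuationSubring Qbar, A.LiesOverPrime q →
    ∀ x : JZero (q * M * q), p • x = 0 → (∀ σ ∈ A.inertiaSubgroupIn ℚ, σ • x = x) →
      pushJ (heckeAlphaBar Qbar (q * M) q) x = 0 → pushJ (heckeBetaBar Qbar (q * M) q) x = 0 →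
    ∀ c : Additive (Gamma0 (q * M * q)) →+ Additive ℂˣ, KummerRel (q * M * q) p x c →
    ∀ ν : Option (ZMod q) × Option (ZMod q) → ZMod p, IsKernel ν →
    ∃ L : ℕ, 0 < L ∧ q * M ∣ L ∧
      ∀ g : Option (ZMod q) × Option (ZMod q) → SL(2, ℤ),
        (∀ P, P.1 ≠ P.2 → g P ∈ Gamma0 M ∧ pairOf q (g P) = P) →
      ∀ γ ∈ Gamma L, ∀ δ : Option (ZMod q) × Option (ZMod q) → Gamma0 (q * M * q),
        (∀ P, P.1 ≠ P.2 → !![(q : ℤ), 0; 0, 1] * ((δ P : SL(2, ℤ)) : Matrix (Fin 2) (Fin 2) ℤ) =
          (((g P)⁻¹ * γ * g P : SL(2, ℤ)) : Matrix (Fin 2) (Fin 2) ℤ) * !![(q : ℤ), 0; 0, 1]) →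
        ∑ P, (ν P).val • c (Additive.ofMul (δ P)) = 0

end FLTAgent.LowerSquare

end
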