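import Fermat.Agent.LowerSquare.SymbolModules
import Fermat.Agent.ModularityLifting.SymbolLift

/-!
# Lifting symbols with values in a quotient module to equivariant potentials

A symbol with values in a quotient of a module by invariant vectors lifts, up to a nonzero scalar,
to a potential on `SL₂(ℤ)` which is affine equivariant for `Γ₀(M)`. When `3` vanishes one passes
through the level `M r` and applies the operator at `r`.
-/

set_option autoImplicit false

noncomputable section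

open Matrix CongruenceSubgroup
open scoped MatrixGroups

namespace FLTAgent.LowerSquare

open FLTAgent.LevelRaising FLTAgent.ModularityLifting

variable {q : ℕ} [Fact q.Prime] {k : Type} [Field k] {V W : Type} [AddCommGroup V] [Module k V]
  [AddCommGroup W] [Module k W] {ρ : Representation k (GLq q) V} {σ : Representation k (GLq q) W}
  {M : ℕ}

/-! ### Hecke sums of equivariant functions -/

theorem exists_perm_heckeFam {ℓ : ℕ} (hℓ : ℓ.Prime) (hℓM : ¬ ℓ ∣ M) {γ : SL(2, ℤ)}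
    (hγ : γ ∈ Gamma0 M) :
    ∃ (π : Option (Fin ℓ) → Option (Fin ℓ)) (h : Option (Fin ℓ) → SL(2, ℤ)),
      Function.Bijective π ∧ (∀ i, h i ∈ Gamma0 M) ∧
        ∀ i, heckeFam ℓ i * (γ : M2) = ((h i : SL(2, ℤ)) : M2) * heckeFam ℓ (π i) := by
  have hfac : ∀ i, ∃ i', ∃ γ' ∈ Gamma0 M,
      heckeFam ℓ i * (γ : M2) = ((γ' : SL(2, ℤ)) : M2) * heckeFam ℓ i' := fun i => by
    refine exists_gamma_mul_heckeFam hℓ hℓM ?_ ?_
    · rw [Matrix.det_mul, heckeFam_det, γ.det_coe, mul_one]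
    · rw [Matrix.mul_apply, Fin.sum_univ_two, heckeFam_lower, zero_mul, zero_add]
      exact dvd_mul_of_dvd_right (mem_Gamma0_iff_dvd.mp hγ) _
  choose π h hh he using hfac
  refine ⟨π, h, (Finite.injective_iff_bijective).mp fun i i' hii => ?_, hh, he⟩
  have e : heckeFam ℓ i * (γ : M2) =
      ((h i * (h i')⁻¹ : SL(2, ℤ)) : M2) * heckeFam ℓ i' * (γ : M2) := by
    rw [mul_assoc, he i', ← mul_assoc, ← Matrix.SpecialLinearGroup.coe_mul,
      inv_mul_cancel_right, ← hii]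
    exact he i
  refine heckeFam_right_unique hℓ (δ₁ := 1) ?_ (not_dvd_det_SL hℓ (h i * (h i')⁻¹)) ?_
  · rw [Matrix.det_one]; exact not_prime_dvd_one hℓ
  · rw [one_mul]; exact mul_sl_inj e

variable (ρ) in
/-- The Hecke sum of a function on a space with an action of `GL₂(ℚ)`. -/
def heckeSum (ℓ : ℕ) {X : Type} [MulAction (GL (Fin 2) ℚ) X] (P : X → V) (x : X) : V :=
  ∑ i : Option (Fin ℓ), ρ (redMat q (heckeFam ℓ i))⁻¹ (P (ofMat (heckeFam ℓ i) • x))

/-- The Hecke sum of an affine equivariant function is affine equivariant. -/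
theorem heckeSum_equiv {ℓ : ℕ} (hℓ : ℓ.Prime) (hℓM : ¬ ℓ ∣ M) (hℓq : ¬ q ∣ ℓ) {X : Type}
    [MulAction (GL (Fin 2) ℚ) X] {P : X → V} {F : SL(2, ℤ) → V}
    (hP : ∀ γ ∈ Gamma0 M, ∀ x, P (glQ γ • x) = ρ (redSL q γ) (P x) + F γ) {γ : SL(2, ℤ)}
    (hγ : γ ∈ Gamma0 M) :
    ∃ C, (∀ x, heckeSum ρ ℓ P (glQ γ • x) = ρ (redSL q γ) (heckeSum ρ ℓ P x) + C) ∧
      ((∀ δ ∈ Gamma0 M, F δ = 0) → C = 0) := by
  obtain ⟨π, h, hπ, hh, he⟩ := exists_perm_heckeFam hℓ hℓM hγ
  have hd := heckeFam_det_cast (q := q) hℓq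
  have hred : ∀ i, (redMat q (heckeFam ℓ i))⁻¹ * redSL q (h i) =
      redSL q γ * (redMat q (heckeFam ℓ (π i)))⁻¹ := fun i => by
    have e : redMat q (heckeFam ℓ i) * redSL q γ = redSL q (h i) * redMat q (heckeFam ℓ (π i)) := by
      rw [redSL_eq_redMat, redSL_eq_redMat, ← redMat_mul (hd _) (det_cast_sl _), he,
        redMat_mul (det_cast_sl _) (hd _)]
    rw [inv_mul_eq_iff_eq_mul, ← mul_assoc, e, mul_inv_cancel_right]
  refine ⟨∑ i, ρ (redMat q (heckeFam ℓ i))⁻¹ (F (h i)), fun x => ?_,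
    fun hF => Finset.sum_eq_zero fun i _ => by rw [hF _ (hh i), map_zero]⟩
  have hterm : ∀ i, ρ (redMat q (heckeFam ℓ i))⁻¹ (P (ofMat (heckeFam ℓ i) • glQ γ • x)) =
      ρ (redSL q γ) (ρ (redMat q (heckeFam ℓ (π i)))⁻¹ (P (ofMat (heckeFam ℓ (π i)) • x))) +
        ρ (redMat q (heckeFam ℓ i))⁻¹ (F (h i)) := fun i => by
    rw [smul_smul, ← ofMat_coe, ← ofMat_mul (heckeFam_det_ne_zero hℓ.ne_zero i) (sl_det_ne_zero γ),
      he, ofMat_mul (sl_det_ne_zero _) (heckeFam_det_ne_zero hℓ.ne_zero _), ofMat_coe,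
      ← smul_smul, hP _ (hh i), map_add, ← Module.End.mul_apply, ← map_mul, hred, map_mul,
      Module.End.mul_apply]
  simp only [heckeSum, hterm, Finset.sum_add_distrib, map_sum]
  congr 1
  exact Fintype.sum_bijective π hπ _ _ fun i => rfl

theorem twOp_mem {ℓ : ℕ} (hℓ : ℓ.Prime) (hℓM : ¬ ℓ ∣ M) (hℓq : ¬ q ∣ ℓ)
    {Φ : Cusp → Cusp → V} (hΦ : Φ ∈ VSymb ρ M) : twOp ρ ℓ Φ ∈ VSymb ρ M := by
  refine ⟨fun x y z => ?_, fun γ hγ x y => ?_⟩
  · simp only [twOp, ← Finset.sum_add_distrib, ← map_add, hΦ.1]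
  · obtain ⟨C, hC, hC0⟩ := heckeSum_equiv (ρ := ρ) hℓ hℓM hℓq (X := Cusp × Cusp)
      (P := fun z => Φ z.1 z.2) (F := fun _ => 0)
      (fun δ hδ z => by rw [add_zero]; exact hΦ.2 δ hδ z.1 z.2) hγ
    have := hC (x, y)
    rw [hC0 fun _ _ => rfl, add_zero] at this
    exact this

/-- Intertwiners commute with the Hecke operators. -/
theorem map_twOp (f : V →ₗ[k] W) (hf : ∀ g v, f (ρ g v) = σ g (f v)) (ℓ : ℕ)
    (Φ : Cusp → Cusp → V) (x y : Cusp) :
    f (twOp ρ ℓ Φ x y) = twOp σ ℓ (fun x y => f (Φ x y)) x y := by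
  simp only [twOp, map_sum, hf]

theorem twOp_smul (ℓ : ℕ) (c : k) (Φ : Cusp → Cusp → V) :
    twOp ρ ℓ (c • Φ) = c • twOp ρ ℓ Φ := by
  funext x y
  simp only [twOp, Pi.smul_apply, map_smul, Finset.smul_sum]

theorem twOp_add (ℓ : ℕ) (Φ Ψ : Cusp → Cusp → V) :
    twOp ρ ℓ (Φ + Ψ) = twOp ρ ℓ Φ + twOp ρ ℓ Ψ := by
  funext x y
  simp only [twOp, Pi.add_apply, map_add, Finset.sum_add_distrib]

/-! ### Lifts on `SL₂(ℤ)` -/

variable (ρ) in
/-- A potential: affine equivariant and zero at `1`. -/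
def IsPot (M : ℕ) (F : SL(2, ℤ) → V) : Prop :=
  F 1 = 0 ∧ ∀ γ ∈ Gamma0 M, ∀ g, F (γ * g) = ρ (redSL q γ) (F g) + F γ

theorem vsymb_self {Φ : Cusp → Cusp → V} (hΦ : Φ ∈ VSymb ρ M) (x : Cusp) : Φ x x = 0 :=
  left_eq_add.mp (hΦ.1 x x x).symm

variable (π : V →ₗ[k] W) (hπ : Function.Surjective π) (heq : ∀ g v, π (ρ g v) = σ g (π v))
  (hneg : ρ (redSL q (-1)) = 1)

include hπ heq in
/-- An equivariant lift of an equivariant function. -/
theorem exists_module_lift (f : SL(2, ℤ) → W)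
    (hf : ∀ γ ∈ Gamma0 M, ∀ g, f (γ * g) = σ (redSL q γ) (f g)) :
    ∃ F : SL(2, ℤ) → V, (∀ γ ∈ Gamma0 M, ∀ g, F (γ * g) = ρ (redSL q γ) (F g)) ∧
      ∀ g, π (F g) = f g := by
  refine ⟨fun g => ρ (redSL q (gamPart M g)) (Function.surjInv hπ
    (f ((g⁻¹ : SL(2, ℤ)) : SL(2, ℤ) ⧸ Gamma0 M).out⁻¹)), fun γ hγ g => ?_, fun g => ?_⟩
  · simp only [gamPart_mul_left hγ, coset_mul_left hγ, map_mul, Module.End.mul_apply]
  · rw [heq, Function.surjInv_eq hπ]
    conv_rhs => rw [← gamPart_mul_out (L := M) g]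
    rw [hf _ (gamPart_mem g)]

/-- A function on `SL₂(ℤ)` invariant under `S` and `(ST)⁻¹` is constant. -/
theorem eq_one_of_gen {E : Type} (D : SL(2, ℤ) → E) (h1 : ∀ g, D (g * mS) = D g)
    (h2 : ∀ g, D (g * mU⁻¹) = D g) (g : SL(2, ℤ)) : D g = D 1 := by
  let K : Subgroup SL(2, ℤ) :=
    { carrier := {h | ∀ g, D (g * h) = D g}
      one_mem' := fun g => by rw [mul_one]
      mul_mem' := fun {p q} hp hq g => by rw [← mul_assoc, hq, hp]
      inv_mem' := fun {p} hp g => by conv_rhs => rw [← inv_mul_cancel_right g p, hp] }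
  have hK : (⊤ : Subgroup SL(2, ℤ)) ≤ K := by
    rw [← SpecialLinearGroup.SL2Z_generators, Subgroup.closure_le]
    rintro _ (rfl | rfl)
    · exact h1
    · show mT ∈ K
      rw [show mT = mS⁻¹ * mU from (inv_mul_cancel_left _ _).symm]
      exact mul_mem (inv_mem (show mS ∈ K from h1))
        (by simpa using inv_mem (show mU⁻¹ ∈ K from h2))
  simpa using hK (Subgroup.mem_top g) 1

include hπ heq hneg in
/-- **A symbol lifts to a potential**, if `3` is invertible or there are no elliptic points. -/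
theorem exists_pot_lift (h2 : (2 : k) ≠ 0)
    (h3 : IsUnit (3 : k) ∨ ∀ g : SL(2, ℤ), g * mU * g⁻¹ ∉ Gamma0 M)
    {Φ : Cusp → Cusp → W} (hΦ : Φ ∈ VSymb σ M) :
    ∃ F : SL(2, ℤ) → V, IsPot ρ M F ∧
      ∀ g, π (F g) = Φ OnePoint.infty (glQ g • OnePoint.infty) := by
  set Gb : SL(2, ℤ) → W := fun g => Φ OnePoint.infty (glQ g • OnePoint.infty) with hGbdef
  have hneg' : ∀ g : SL(2, ℤ), Gb (-g) = Gb g := fun g => by simp only [Gb, glQ_neg_smul]
  have hsub : ∀ h g, Gb (g * h) - Gb g =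
      Φ (glQ g • OnePoint.infty) (glQ g • glQ h • OnePoint.infty) := fun h g => by
    rw [sub_eq_iff_eq_add', hΦ.1, ← glQ_mul_smul]
  have hstep : ∀ h, ∀ γ ∈ Gamma0 M, ∀ g,
      Gb (γ * g * h) - Gb (γ * g) = σ (redSL q γ) (Gb (g * h) - Gb g) := fun h γ hγ g => by
    rw [hsub, hsub, glQ_mul_smul, glQ_mul_smul, hΦ.2 γ hγ]
  obtain ⟨A, hA, hA'⟩ := exists_module_lift π hπ heq (fun g => Gb (g * mS) - Gb g) (hstep mS)
  obtain ⟨B, hB, hB'⟩ := exists_module_lift π hπ heq (fun g => Gb (g * mU⁻¹) - Gb g) (hstep mU⁻¹)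
  obtain ⟨χ, hχ, hχ1⟩ := exists_orbit_weight (R := k) (L := M) h3
  have hAneg : ∀ g, A (-g) = A g := fun g => by
    rw [← neg_one_mul g, hA _ neg_one_mem_Gamma0', hneg, Module.End.one_apply]
  have hBneg : ∀ g, B (-g) = B g := fun g => by
    rw [← neg_one_mul g, hB _ neg_one_mem_Gamma0', hneg, Module.End.one_apply]
  have hχneg : ∀ g, χ (-g) = χ g := fun g => by rw [← neg_one_mul g, hχ _ neg_one_mem_Gamma0']
  let a : SL(2, ℤ) → V := fun g => (2 : k)⁻¹ • (A g - A (g * mS))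
  let b : SL(2, ℤ) → V := fun g => B g - χ g • (B g + B (g * mU⁻¹) + B (g * mU⁻¹ * mU⁻¹))
  have hU3 : ∀ g : SL(2, ℤ), g * mU⁻¹ * mU⁻¹ * mU⁻¹ = -g := fun g => by
    rw [mul_assoc, mul_assoc, ← mul_assoc mU⁻¹, inv_mul_inv_mul_inv_mU, mul_neg, mul_one]
  obtain ⟨G, hG1, -, hGS, hGU⟩ := exists_stepSum a b
    (fun g => by simp only [a, neg_mul, hAneg])
    (fun g => by simp only [b, neg_mul, hBneg, hχneg])
    (fun g => by
      simp only [a, mul_assoc g, mS_mul_mS, mul_neg, mul_one, hAneg]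
      rw [← smul_add]
      simp)
    (fun g => by
      simp only [b, hU3, neg_mul, hBneg]
      set s := B g + B (g * mU⁻¹) + B (g * mU⁻¹ * mU⁻¹) with hs
      rw [show B (g * mU⁻¹) + B (g * mU⁻¹ * mU⁻¹) + B g = s by rw [hs]; abel,
        show B (g * mU⁻¹ * mU⁻¹) + B g + B (g * mU⁻¹) = s by rw [hs]; abel]
      calc _ = s - (χ g + χ (g * mU⁻¹) + χ (g * mU⁻¹ * mU⁻¹)) • s := by
            rw [add_smul, add_smul, hs]; abel
        _ = 0 := by rw [hχ1, one_smul, sub_self])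
  have haeq : ∀ γ ∈ Gamma0 M, ∀ g, a (γ * g) = ρ (redSL q γ) (a g) := fun γ hγ g => by
    simp only [a, mul_assoc γ, hA γ hγ, map_smul, map_sub]
  have hbeq : ∀ γ ∈ Gamma0 M, ∀ g, b (γ * g) = ρ (redSL q γ) (b g) := fun γ hγ g => by
    simp only [b, mul_assoc γ, hB γ hγ, hχ γ hγ, map_smul, map_sub, map_add]
  refine ⟨G, ⟨hG1, fun γ hγ g => ?_⟩, fun g => ?_⟩
  · have := eq_one_of_gen (fun g => G (γ * g) - ρ (redSL q γ) (G g))
      (fun g => by simp only [← mul_assoc, hGS, haeq γ hγ, map_add]; abel)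
      (fun g => by simp only [← mul_assoc, hGU, hbeq γ hγ, map_add]; abel) g
    rw [mul_one, hG1, map_zero, sub_zero, sub_eq_iff_eq_add'] at this
    exact this
  · have hra : ∀ g, π (a g) = Gb (g * mS) - Gb g := fun g => by
      simp only [a, map_smul, map_sub, hA', mul_assoc g, mS_mul_mS, mul_neg, mul_one, hneg']
      rw [sub_sub_eq_add_sub, show Gb (g * mS) - Gb g + Gb (g * mS) - Gb g =
        (2 : k) • (Gb (g * mS) - Gb g) by rw [two_smul]; abel, inv_smul_smul₀ h2]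
    have hrb : ∀ g, π (b g) = Gb (g * mU⁻¹) - Gb g := fun g => by
      simp only [b, map_sub, map_smul, map_add, hB', hU3, hneg']
      rw [show Gb (g * mU⁻¹) - Gb g + (Gb (g * mU⁻¹ * mU⁻¹) - Gb (g * mU⁻¹)) +
        (Gb g - Gb (g * mU⁻¹ * mU⁻¹)) = 0 by abel, smul_zero, sub_zero]
    have := eq_one_of_gen (fun g => π (G g) - Gb g)
      (fun g => by simp only [hGS, map_add, hra]; abel)
      (fun g => by simp only [hGU, map_add, hrb]; abel) g
    rw [hG1, map_zero, zero_sub, show Gb 1 = 0 by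
      rw [hGbdef]; simp only [map_one, one_smul]; exact vsymb_self hΦ _, neg_zero,
        sub_eq_zero] at this
    exact this

/-! ### Raising the level by an auxiliary prime -/

/-- The first representative carries a translate onto each one. -/
theorem exists_heckeFam_section {r : ℕ} (hr : r.Prime) (hrM : ¬ r ∣ M) (i : Option (Fin r)) :
    ∃ s γ : SL(2, ℤ), s ∈ Gamma0 M ∧ γ ∈ Gamma0 M ∧
      heckeFam r none * (s : M2) = (γ : M2) * heckeFam r i := by
  rcases i with _ | j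
  · exact ⟨1, 1, one_mem _, one_mem _, by simp⟩
  by_cases hj : (j : ℕ) = 0
  · obtain ⟨x, y, hxy⟩ : IsCoprime (r : ℤ) (M : ℤ) :=
      Nat.isCoprime_iff_coprime.mpr ((hr.coprime_iff_not_dvd).mpr hrM)
    refine ⟨⟨!![x, -y; (M : ℤ), (r : ℤ)], by rw [det_fin_two_of]; linear_combination hxy⟩,
      ⟨!![(r : ℤ) * x, -y; (M : ℤ), 1], by rw [det_fin_two_of]; linear_combination hxy⟩,
      mem_Gamma0_iff_dvd.mpr (by simp), mem_Gamma0_iff_dvd.mpr (by simp), ?_⟩
    ext a b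
    fin_cases a <;> fin_cases b <;> simp [Matrix.mul_apply, Fin.sum_univ_two, hj]
    all_goals ring
  · obtain ⟨x, y, hxy⟩ : IsCoprime (r : ℤ) (((j : ℕ) : ℤ) * (M : ℤ)) := by
      rw [← Int.natCast_mul]
      refine Nat.isCoprime_iff_coprime.mpr ((hr.coprime_iff_not_dvd).mpr fun hd => ?_)
      rcases hr.dvd_mul.mp hd with h | h
      · exact absurd (Nat.le_of_dvd (Nat.pos_of_ne_zero hj) h) (not_le.mpr j.isLt)
      · exact hrM h
    refine ⟨⟨!![1, 0; y * (M : ℤ), 1], by rw [det_fin_two_of]; ring⟩,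
      ⟨!![(r : ℤ), -((j : ℕ) : ℤ); y * (M : ℤ), x], by rw [det_fin_two_of]; linear_combination hxy⟩,
      mem_Gamma0_iff_dvd.mpr (by simp), mem_Gamma0_iff_dvd.mpr (by simp), ?_⟩
    ext a b
    fin_cases a <;> fin_cases b <;> simp [Matrix.mul_apply, Fin.sum_univ_two] <;>
      first | ring1 | linear_combination (-1 : ℤ) * hxy

include hπ heq hneg in
/-- **Lifting through an auxiliary prime.** -/
theorem exists_pot_lift_aux (h2 : (2 : k) ≠ 0) {r : ℕ} (hr : r.Prime) (hrM : ¬ r ∣ M)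
    (hrq : ¬ q ∣ r) (hr3 : r % 3 = 2) {Φ : Cusp → Cusp → W} (hΦ : Φ ∈ VSymb σ M) {c : k}
    (hev : twOp σ r Φ = c • Φ) :
    ∃ F : SL(2, ℤ) → V, IsPot ρ M F ∧
      ∀ g, π (F g) = c • Φ OnePoint.infty (glQ g • OnePoint.infty) := by
  have hd := heckeFam_det_cast (q := q) hrq
  have hdet := heckeFam_det_ne_zero hr.ne_zero (ℓ := r)
  -- the pulled symbol
  set α := heckeFam r none with hα
  have hconj : ∀ h ∈ Gamma0 (M * r), ∃ h' ∈ Gamma0 M, α * (h : M2) =
      ((h' : SL(2, ℤ)) : M2) * α := by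
    intro h hh
    obtain ⟨t, ht⟩ := mem_Gamma0_iff_dvd.mp hh
    push_cast at ht
    have hdh := h.det_coe
    rw [det_fin_two, ht] at hdh
    refine ⟨⟨!![h 0 0, (r : ℤ) * h 0 1; (M : ℤ) * t, h 1 1], by
      rw [det_fin_two_of]; linear_combination hdh⟩, mem_Gamma0_iff_dvd.mpr (by simp), ?_⟩
    ext a b
    fin_cases a <;> fin_cases b <;> simp [hα, Matrix.mul_apply, Fin.sum_univ_two, ht] <;> ring
  set Φ' : Cusp → Cusp → W := fun x y =>
    σ (redMat q α)⁻¹ (Φ (ofMat α • x) (ofMat α • y)) with hΦ'def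
  have hΦ' : Φ' ∈ VSymb σ (M * r) := by
    refine ⟨fun x y z => by simp only [Φ', ← map_add, hΦ.1], fun h hh x y => ?_⟩
    obtain ⟨h', hh', he⟩ := hconj h hh
    have hr' : redMat q α * redSL q h = redSL q h' * redMat q α := by
      rw [redSL_eq_redMat, redSL_eq_redMat, ← redMat_mul (hd none) (det_cast_sl _), he,
        redMat_mul (det_cast_sl _) (hd none)]
    have hs : ∀ z : Cusp, ofMat α • glQ h • z = glQ h' • ofMat α • z := fun z => by
      rw [smul_smul, smul_smul, ← ofMat_coe, ← ofMat_coe,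
        ← ofMat_mul (hdet none) (sl_det_ne_zero _),
        ← ofMat_mul (sl_det_ne_zero _) (hdet none), he]
    simp only [Φ', hs, hΦ.2 h' hh']
    rw [← Module.End.mul_apply, ← map_mul, ← Module.End.mul_apply, ← map_mul]
    congr 2
    rw [inv_mul_eq_iff_eq_mul, ← mul_assoc, hr', mul_inv_cancel_right]
  obtain ⟨F', ⟨-, hF'⟩, hF'π⟩ := exists_pot_lift π hπ heq hneg h2
    (Or.inr fun g => mU_conj_not_mem hr (dvd_mul_left r M) hr3 g) hΦ'
  choose s δ hs hδ hsδ using exists_heckeFam_section hr hrM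
  -- translation of the sections
  have hperm : ∀ γ ∈ Gamma0 M, ∃ τ : Option (Fin r) → Option (Fin r), Function.Bijective τ ∧
      ∀ i, ∃ h ∈ Gamma0 (M * r), s i * γ = h * s (τ i) := by
    intro γ hγ
    obtain ⟨τ, γ', hτ, hγ', he⟩ := exists_perm_heckeFam hr hrM hγ
    refine ⟨τ, hτ, fun i => ⟨s i * γ * (s (τ i))⁻¹, ?_, (inv_mul_cancel_right _ _).symm⟩⟩
    have hh'' : δ i * γ' i * (δ (τ i))⁻¹ ∈ Gamma0 M :=
      mul_mem (mul_mem (hδ i) (hγ' i)) (inv_mem (hδ _))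
    have e : α * ((s i * γ * (s (τ i))⁻¹ : SL(2, ℤ)) : M2) =
        ((δ i * γ' i * (δ (τ i))⁻¹ : SL(2, ℤ)) : M2) * α := by
      have hτi : α = ((δ (τ i) : SL(2, ℤ)) : M2) * heckeFam r (τ i) *
          (((s (τ i))⁻¹ : SL(2, ℤ)) : M2) := by
        rw [← hsδ, mul_assoc, ← Matrix.SpecialLinearGroup.coe_mul, mul_inv_cancel,
          Matrix.SpecialLinearGroup.coe_one, mul_one]
      conv_rhs => rw [hτi]
      rw [Matrix.SpecialLinearGroup.coe_mul, Matrix.SpecialLinearGroup.coe_mul, ← mul_assoc,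
        ← mul_assoc, hsδ, mul_assoc ((δ i : SL(2, ℤ)) : M2), he, ← mul_assoc, ← mul_assoc,
        ← mul_assoc, ← Matrix.SpecialLinearGroup.coe_mul (δ i * γ' i * (δ (τ i))⁻¹),
        inv_mul_cancel_right, Matrix.SpecialLinearGroup.coe_mul]
    have e10 := congrFun (congrFun e 1) 0
    simp only [hα, heckeFam_none, Matrix.mul_apply, Fin.sum_univ_two, Matrix.of_apply,
      Matrix.cons_val', Matrix.cons_val_zero, Matrix.cons_val_one, Matrix.cons_val_fin_one,
      zero_mul, one_mul, zero_add, mul_zero, add_zero] at e10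
    rw [mem_Gamma0_iff_dvd]
    push_cast
    exact e10 ▸ mul_dvd_mul_right (mem_Gamma0_iff_dvd.mp hh'') _
  set P2 : SL(2, ℤ) → V := fun g => ∑ i, ρ (redSL q (s i))⁻¹ (F' (s i * g)) with hP2
  have hP2eq : ∀ γ ∈ Gamma0 M, ∃ C, ∀ g, P2 (γ * g) = ρ (redSL q γ) (P2 g) + C := by
    intro γ hγ
    obtain ⟨τ, hτ, hh⟩ := hperm γ hγ
    choose h hhm hhe using hh
    refine ⟨∑ i, ρ (redSL q (s i))⁻¹ (F' (h i)), fun g => ?_⟩
    have hterm : ∀ i, ρ (redSL q (s i))⁻¹ (F' (s i * (γ * g))) =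
        ρ (redSL q γ) (ρ (redSL q (s (τ i)))⁻¹ (F' (s (τ i) * g))) +
          ρ (redSL q (s i))⁻¹ (F' (h i)) := fun i => by
      rw [← mul_assoc, hhe, mul_assoc, hF' _ (hhm i), map_add, ← Module.End.mul_apply, ← map_mul,
        ← Module.End.mul_apply, ← map_mul, ← map_inv, ← map_inv, ← map_mul, ← map_mul]
      congr 4
      rw [inv_mul_eq_iff_eq_mul, ← mul_assoc, hhe, mul_inv_cancel_right]
    simp only [P2, hterm, Finset.sum_add_distrib, map_sum]
    congr 1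
    exact Fintype.sum_bijective τ hτ _ _ fun i => rfl
  refine ⟨fun g => P2 g - P2 1, ⟨sub_self _, fun γ hγ g => ?_⟩, fun g => ?_⟩
  · obtain ⟨C, hC⟩ := hP2eq γ hγ
    have h1 := hC 1
    rw [mul_one] at h1
    show P2 (γ * g) - P2 1 = ρ (redSL q γ) (P2 g - P2 1) + (P2 γ - P2 1)
    rw [hC g, h1, map_sub]
    abel
  · have hev' := congrFun (congrFun hev OnePoint.infty) (glQ g • OnePoint.infty)
    simp only [twOp, Pi.smul_apply] at hev'
    rw [← hev', map_sub, hP2, map_sum, map_sum, ← Finset.sum_sub_distrib]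
    refine Finset.sum_congr rfl fun i => fun _ => ?_
    simp only [heq, hF'π, mul_one, glQ_mul_smul, Φ']
    have hact : ∀ z : Cusp, ofMat α • glQ (s i) • z = glQ (δ i) • ofMat (heckeFam r i) • z :=
      fun z => by
        rw [smul_smul, smul_smul, ← ofMat_coe, ← ofMat_coe,
          ← ofMat_mul (hdet none) (sl_det_ne_zero _),
          ← ofMat_mul (sl_det_ne_zero _) (hdet i), hsδ]
    have hfix : ofMat (heckeFam r i) • OnePoint.infty = (OnePoint.infty : Cusp) := by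
      rw [OnePoint.smul_infty_eq_self_iff, ofMat_apply (hdet i), heckeFam_lower, Int.cast_zero]
    have hg1 : glQ (1 : SL(2, ℤ)) • OnePoint.infty = (OnePoint.infty : Cusp) := by
      rw [map_one, one_smul]
    rw [← map_sub, ← map_sub, sub_eq_iff_eq_add'.mpr (hΦ.1 _ (ofMat α • glQ (s i) • OnePoint.infty)
      (ofMat α • glQ (s i) • glQ g • OnePoint.infty)).symm, hact, hact, hΦ.2 _ (hδ i), hfix,
      ← Module.End.mul_apply, ← map_mul, ← Module.End.mul_apply, ← map_mul]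
    congr 2
    have hm : redMat q α * redSL q (s i) = redSL q (δ i) * redMat q (heckeFam r i) := by
      rw [redSL_eq_redMat, redSL_eq_redMat, ← redMat_mul (hd none) (det_cast_sl _), hsδ,
        redMat_mul (det_cast_sl _) (hd i)]
    rw [← _root_.mul_inv_rev, hm, _root_.mul_inv_rev, inv_mul_cancel_right]

end FLTAgent.LowerSquare
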