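import Mathlib.Topology.Compactification.OnePoint.ProjectiveLine
import Mathlib.RepresentationTheory.Basic
import Mathlib.FieldTheory.Finite.Basic

/-!
# Functions on the projective line over `𝔽_q`

The group `GL₂(𝔽_q)` acts on the lines and on the ordered pairs of distinct lines.  An invariant
subspace of the functions on lines is either contained in the constants or contains all functions
with vanishing sum, as soon as `2` is invertible.
-/

set_option autoImplicit false

noncomputable section

open Matrix OnePoint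
open scoped MatrixGroups

namespace FLTAgent.LowerSquare

/-- `GL₂(𝔽_q)`. -/
abbrev GLq (q : ℕ) : Type := GL (Fin 2) (ZMod q)

/-- The lines of `𝔽_q²`. -/
abbrev Lines (q : ℕ) : Type := OnePoint (ZMod q)

variable {q : ℕ} [Fact q.Prime]

instance instDecidableEqLines : DecidableEq (Lines q) :=
  inferInstanceAs (DecidableEq (Option (ZMod q)))

/-- The matrix `(a b; c d)`. -/
def gl2 (a b c d : ZMod q) (h : a * d - b * c ≠ 0) : GLq q :=
  GeneralLinearGroup.mkOfDetNeZero !![a, b; c, d] (by rwa [Matrix.det_fin_two_of])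

theorem gl2_apply (a b c d : ZMod q) (h : a * d - b * c ≠ 0) (i j : Fin 2) :
    gl2 a b c d h i j = !![a, b; c, d] i j := rfl

omit [Fact (Nat.Prime q)] in
theorem ext_gl {g g' : GLq q} (h00 : g 0 0 = g' 0 0) (h01 : g 0 1 = g' 0 1)
    (h10 : g 1 0 = g' 1 0) (h11 : g 1 1 = g' 1 1) : g = g' := by
  refine Units.ext (Matrix.ext fun i j => ?_)
  fin_cases i <;> fin_cases j
  exacts [h00, h01, h10, h11]

/-- `(1 b; 0 1)`. -/
def transl (b : ZMod q) : GLq q := gl2 1 b 0 1 (by simp)

/-- `(1 0; c 1)`. -/
def lowTransl (c : ZMod q) : GLq q := gl2 1 0 c 1 (by simp)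

/-- `(a 0; 0 1)`. -/
def torus (a : (ZMod q)ˣ) : GLq q := gl2 (a : ZMod q) 0 0 1 (by simp)

/-- `(0 1; 1 0)`. -/
def swapLines : GLq q := gl2 0 1 1 0 (by simp)

theorem transl_mul (a b : ZMod q) : transl a * transl b = transl (a + b) := by
  refine ext_gl ?_ ?_ ?_ ?_ <;>
    simp [transl, gl2_apply, Matrix.mul_apply, Fin.sum_univ_two, add_comm]

theorem torus_mul (a b : (ZMod q)ˣ) : torus a * torus b = torus (a * b) := by
  refine ext_gl ?_ ?_ ?_ ?_ <;>
    simp [torus, gl2_apply, Matrix.mul_apply, Fin.sum_univ_two]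

theorem transl_zero : (transl 0 : GLq q) = 1 := by
  refine ext_gl ?_ ?_ ?_ ?_ <;> simp [transl, gl2_apply]

theorem torus_one : (torus 1 : GLq q) = 1 := by
  refine ext_gl ?_ ?_ ?_ ?_ <;> simp [torus, gl2_apply]

theorem transl_inv (b : ZMod q) : (transl b)⁻¹ = transl (-b) :=
  inv_eq_of_mul_eq_one_right (by rw [transl_mul, add_neg_cancel, transl_zero])

theorem torus_inv (a : (ZMod q)ˣ) : (torus a)⁻¹ = torus a⁻¹ :=
  inv_eq_of_mul_eq_one_right (by rw [torus_mul, mul_inv_cancel, torus_one])

theorem transl_smul_infty (b : ZMod q) : transl b • (∞ : Lines q) = ∞ := by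
  simp [smul_infty_eq_self_iff, transl, gl2_apply]

theorem transl_smul_coe (b x : ZMod q) :
    transl b • (x : Lines q) = ((x + b : ZMod q) : Lines q) := by
  simp [smul_some_eq_ite, transl, gl2_apply]

theorem torus_smul_infty (a : (ZMod q)ˣ) : torus a • (∞ : Lines q) = ∞ := by
  simp [smul_infty_eq_self_iff, torus, gl2_apply]

theorem torus_smul_coe (a : (ZMod q)ˣ) (x : ZMod q) :
    torus a • (x : Lines q) = (((a : ZMod q) * x : ZMod q) : Lines q) := by
  simp [smul_some_eq_ite, torus, gl2_apply]

theorem swap_mul_self : (swapLines : GLq q) * swapLines = 1 := by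
  refine ext_gl ?_ ?_ ?_ ?_ <;>
    simp [swapLines, gl2_apply, Matrix.mul_apply, Fin.sum_univ_two]

theorem swap_smul_infty : (swapLines : GLq q) • (∞ : Lines q) = ((0 : ZMod q) : Lines q) := by
  simp [smul_infty_eq_ite, swapLines, gl2_apply]

theorem swap_smul_zero : (swapLines : GLq q) • ((0 : ZMod q) : Lines q) = ∞ := by
  simp [smul_some_eq_ite, swapLines, gl2_apply]

theorem swap_smul_coe {x : ZMod q} (hx : x ≠ 0) :
    (swapLines : GLq q) • (x : Lines q) = ((x⁻¹ : ZMod q) : Lines q) := by
  simp [smul_some_eq_ite, swapLines, gl2_apply, hx]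

/-- Pairs of distinct lines are the images of `(∞, 0)`. -/
theorem exists_smul_pair {L L' : Lines q} (h : L ≠ L') :
    ∃ g : GLq q, g • (∞ : Lines q) = L ∧ g • ((0 : ZMod q) : Lines q) = L' := by
  cases L using OnePoint.rec with
  | infty =>
    cases L' using OnePoint.rec with
    | infty => exact absurd rfl h
    | coe b => exact ⟨transl b, transl_smul_infty b, by rw [transl_smul_coe, zero_add]⟩
  | coe a =>
    cases L' using OnePoint.rec with
    | infty =>
      refine ⟨gl2 a 1 1 0 (by simp), ?_, ?_⟩
      · simp [smul_infty_eq_ite, gl2_apply]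
      · simp [smul_some_eq_ite, gl2_apply]
    | coe b =>
      have hab : a * 1 - b * 1 ≠ 0 := by
        rw [mul_one, mul_one, sub_ne_zero]
        exact fun e => h (by rw [e])
      refine ⟨gl2 a b 1 1 hab, ?_, ?_⟩
      · simp [smul_infty_eq_ite, gl2_apply]
      · simp [smul_some_eq_ite, gl2_apply]

theorem exists_smul_infty (L : Lines q) : ∃ g : GLq q, g • (∞ : Lines q) = L := by
  by_cases h : L = ((0 : ZMod q) : Lines q)
  · exact ⟨swapLines, by rw [swap_smul_infty, h]⟩
  · obtain ⟨g, hg, -⟩ := exists_smul_pair h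
    exact ⟨g, hg⟩

/-- The elements fixing `∞` and `0` are diagonal. -/
theorem apply_eq_zero_of_smul {g : GLq q} (h1 : g • (∞ : Lines q) = ∞)
    (h0 : g • ((0 : ZMod q) : Lines q) = ((0 : ZMod q) : Lines q)) :
    g 1 0 = 0 ∧ g 0 1 = 0 := by
  refine ⟨smul_infty_eq_self_iff.mp h1, ?_⟩
  rw [smul_some_eq_ite] at h0
  split_ifs at h0 with h
  · exact absurd h0.symm (OnePoint.coe_ne_infty _)
  · simp only [mul_zero, zero_add] at h0 h
    have := OnePoint.coe_injective h0
    rw [div_eq_zero_iff] at this
    exact this.resolve_right h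

section Perm

variable (k : Type) [CommRing k] (X : Type) [MulAction (GLq q) X]

/-- Functions on a set with an action, `(g f) x = f (g⁻¹ x)`. -/
def permRep : Representation k (GLq q) (X → k) where
  toFun g :=
    { toFun := fun f x => f (g⁻¹ • x)
      map_add' := fun _ _ => rfl
      map_smul' := fun _ _ => rfl }
  map_one' := LinearMap.ext fun f => funext fun x => by simp
  map_mul' g h := LinearMap.ext fun f => funext fun x => by
    simp [mul_smul]

omit [Fact (Nat.Prime q)] in
theorem permRep_apply (g : GLq q) (f : X → k) (x : X) : permRep k X g f x = f (g⁻¹ • x) := rfl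

omit [Fact (Nat.Prime q)] in
theorem permRep_single [DecidableEq X] (g : GLq q) (x : X) :
    permRep k X g (Pi.single x 1) = Pi.single (g • x) 1 := by
  funext y
  simp only [permRep_apply, Pi.single_apply, inv_smul_eq_iff]

end Perm

/-- Stability of a subspace under a representation. -/
def IsInv {k V G : Type} [CommRing k] [AddCommGroup V] [Module k V] [Monoid G]
    (ρ : Representation k G V) (W : Submodule k V) : Prop :=
  ∀ g, ∀ w ∈ W, ρ g w ∈ W

section Lines

variable (q) in
/-- Functions on lines. -/
abbrev lineRep (k : Type) [CommRing k] : Representation k (GLq q) (Lines q → k) :=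
  permRep k (Lines q)

variable (k : Type) [Field k]

/-- Functions on lines with vanishing sum. -/
def sumZero : Submodule k (Lines q → k) where
  carrier := {f | ∑ L, f L = 0}
  zero_mem' := by simp
  add_mem' := fun {f g} hf hg => by
    show ∑ L, (f + g) L = 0
    simp only [Pi.add_apply, Finset.sum_add_distrib]
    rw [show ∑ L, f L = 0 from hf, show ∑ L, g L = 0 from hg, add_zero]
  smul_mem' := fun c f hf => by
    show ∑ L, (c • f) L = 0
    simp only [Pi.smul_apply, smul_eq_mul, ← Finset.mul_sum]
    rw [show ∑ L, f L = 0 from hf, mul_zero]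

theorem mem_sumZero {f : Lines q → k} : f ∈ sumZero k ↔ ∑ L, f L = 0 := Iff.rfl

theorem isInv_sumZero : IsInv (lineRep q k) (sumZero k) := fun g f hf => by
  rw [mem_sumZero] at hf ⊢
  rw [← hf]
  exact Fintype.sum_bijective _ (MulAction.bijective g⁻¹) _ _ fun L => rfl

variable {k}

/-- A subspace containing one difference of point masses contains `sumZero`. -/
theorem sumZero_le_of_single {W : Submodule k (Lines q → k)}
    (hW : IsInv (lineRep q k) W) {a b : Lines q} (hab : a ≠ b)
    (h : (Pi.single a 1 - Pi.single b 1 : Lines q → k) ∈ W) : sumZero k ≤ W := by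
  classical
  obtain ⟨g, hga, hgb⟩ := exists_smul_pair hab
  have hall : ∀ c d : Lines q, (Pi.single c 1 - Pi.single d 1 : Lines q → k) ∈ W := by
    intro c d
    by_cases hcd : c = d
    · simp [hcd]
    obtain ⟨g', hc, hd⟩ := exists_smul_pair hcd
    have := hW (g' * g⁻¹) _ h
    have e1 : (g' * g⁻¹) • a = c := by rw [mul_smul, ← hga, inv_smul_smul, hc]
    have e2 : (g' * g⁻¹) • b = d := by rw [mul_smul, ← hgb, inv_smul_smul, hd]
    rwa [map_sub, permRep_single, permRep_single, e1, e2] at this
  intro f hf
  have : f = ∑ c, f c • (Pi.single c 1 - Pi.single (∞ : Lines q) 1 : Lines q → k) := by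
    simp only [smul_sub, Finset.sum_sub_distrib, ← Finset.sum_smul]
    rw [(mem_sumZero k).mp hf, zero_smul, sub_zero]
    funext x
    simp [Finset.sum_apply, Pi.single_apply]
  rw [this]
  exact W.sum_mem fun c _ => W.smul_mem _ (hall c _)

/-- An invariant subspace is contained in the constants or contains `sumZero`. -/
theorem le_const_or_sumZero_le (h2 : (2 : k) ≠ 0) {W : Submodule k (Lines q → k)}
    (hW : IsInv (lineRep q k) W) :
    (∀ f ∈ W, ∀ L L', f L = f L') ∨ sumZero k ≤ W := by
  classical
  refine or_iff_not_imp_left.mpr fun hne => ?_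
  push Not at hne
  obtain ⟨φ, hφ, a, b, hab⟩ := hne
  obtain ⟨g, hga, hgb⟩ := exists_smul_pair (fun e : a = b => hab (by rw [e]))
  set ψ := lineRep q k g⁻¹ φ with hψdef
  have hψ : ψ ∈ W := hW _ _ hφ
  have hψab : ψ ∞ ≠ ψ ((0 : ZMod q) : Lines q) := by
    simpa [hψdef, permRep_apply, hga, hgb] using hab
  by_cases hq : (q : k) = 1
  swap
  · -- average over the torus and antisymmetrise
    set w := ∑ t : (ZMod q)ˣ, lineRep q k (torus t) ψ with hwdef
    have hw : w ∈ W := W.sum_mem fun t _ => hW _ _ hψ
    have hwval : ∀ x, w x = ∑ t : (ZMod q)ˣ, ψ ((torus t)⁻¹ • x) := fun x => by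
      simp [hwdef, permRep_apply]
    have hcard : ((Fintype.card (ZMod q)ˣ : ℕ) : k) = (q : k) - 1 := by
      rw [ZMod.card_units, Nat.cast_sub (Fact.out : q.Prime).one_le, Nat.cast_one]
    have hwinf : w ∞ = ((q : k) - 1) * ψ ∞ := by
      rw [hwval, ← hcard]
      simp only [torus_inv, torus_smul_infty, Finset.sum_const, Finset.card_univ, nsmul_eq_mul]
    have hw0 : w ((0 : ZMod q) : Lines q) = ((q : k) - 1) * ψ ((0 : ZMod q) : Lines q) := by
      rw [hwval, ← hcard]
      rw [Finset.sum_congr rfl fun t _ => show ψ ((torus t)⁻¹ • ((0 : ZMod q) : Lines q)) =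
          ψ ((0 : ZMod q) : Lines q) by rw [torus_inv, torus_smul_coe, mul_zero],
        Finset.sum_const, Finset.card_univ, nsmul_eq_mul]
    have hwconst : ∀ x : ZMod q, x ≠ 0 → w (x : Lines q) = w ((1 : ZMod q) : Lines q) := by
      intro x hx
      rw [hwval, hwval]
      refine Fintype.sum_bijective (fun t => t * (Units.mk0 x hx)⁻¹)
        (Group.mulRight_bijective _) _ _ fun t => ?_
      rw [torus_inv, torus_smul_coe, torus_inv, torus_smul_coe, mul_one, _root_.mul_inv_rev,
        inv_inv, Units.val_mul, Units.val_mk0, mul_comm]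
    have hdiff : w - lineRep q k swapLines w =
        (((q : k) - 1) * (ψ ∞ - ψ ((0 : ZMod q) : Lines q))) •
          (Pi.single (∞ : Lines q) 1 - Pi.single ((0 : ZMod q) : Lines q) 1 : Lines q → k) := by
      have hsinv : (swapLines : GLq q)⁻¹ = swapLines := inv_eq_of_mul_eq_one_right swap_mul_self
      funext x
      cases x using OnePoint.rec with
      | infty =>
        simp [permRep_apply, hsinv, swap_smul_infty, hwinf, hw0, mul_sub]
      | coe x =>
        by_cases hx : x = 0
        · subst hx
          simp [permRep_apply, hsinv, swap_smul_zero, hwinf, hw0, mul_sub]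
        · simp [permRep_apply, hsinv, swap_smul_coe hx, hwconst x hx,
            hwconst x⁻¹ (inv_ne_zero hx), hx]
    have hc : ((q : k) - 1) * (ψ ∞ - ψ ((0 : ZMod q) : Lines q)) ≠ 0 :=
      mul_ne_zero (sub_ne_zero.mpr hq) (sub_ne_zero.mpr hψab)
    refine sumZero_le_of_single hW (OnePoint.infty_ne_coe (0 : ZMod q)) ?_
    rw [← inv_smul_smul₀ hc (Pi.single (∞ : Lines q) 1 -
      Pi.single ((0 : ZMod q) : Lines q) 1 : Lines q → k), ← hdiff]
    exact W.smul_mem _ (sub_mem hw (hW _ _ hw))
  · -- average over the translations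
    have key : ∀ f ∈ W, 2 * f ∞ - ∑ L, f L ≠ 0 → sumZero k ≤ W := by
      intro f hf hA
      set w := ∑ t : ZMod q, lineRep q k (transl t) f with hwdef
      have hw : w ∈ W := W.sum_mem fun t _ => hW _ _ hf
      have hwinf : w ∞ = f ∞ := by
        simp [hwdef, permRep_apply, transl_inv, transl_smul_infty, hq]
      have hwcoe : ∀ x : ZMod q, w (x : Lines q) = ∑ t : ZMod q, f (t : Lines q) := fun x => by
        simp only [hwdef, Finset.sum_apply, permRep_apply, transl_inv, transl_smul_coe]
        exact Fintype.sum_bijective (fun t => x + -t)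
          ((Equiv.neg _).trans (Equiv.addLeft x)).bijective _ _ fun t => rfl
      have hS : ∑ L, f L = f ∞ + ∑ t : ZMod q, f (t : Lines q) := Fintype.sum_option f
      have hwval : w - (fun _ => w ((0 : ZMod q) : Lines q)) =
          (2 * f ∞ - ∑ L, f L) • (Pi.single (∞ : Lines q) 1 : Lines q → k) := by
        funext x
        cases x using OnePoint.rec with
        | infty => simp [hwinf, hwcoe, hS]; ring
        | coe x => simp [hwcoe]
      have hmem := hW swapLines _ hw
      have hconst : lineRep q k swapLines (fun _ => w ((0 : ZMod q) : Lines q)) =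
          (fun _ => w ((0 : ZMod q) : Lines q)) := rfl
      have hd : w - lineRep q k swapLines w = (2 * f ∞ - ∑ L, f L) •
          (Pi.single (∞ : Lines q) 1 - Pi.single ((0 : ZMod q) : Lines q) 1 : Lines q → k) := by
        have hs : Pi.single ((0 : ZMod q) : Lines q) (1 : k) =
            lineRep q k swapLines (Pi.single ∞ 1) := by
          rw [permRep_single, swap_smul_infty]
        rw [smul_sub, hs, ← _root_.map_smul, ← hwval, map_sub, hconst]
        abel
      refine sumZero_le_of_single hW (OnePoint.infty_ne_coe (0 : ZMod q)) ?_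
      rw [← inv_smul_smul₀ hA (Pi.single (∞ : Lines q) 1 -
        Pi.single ((0 : ZMod q) : Lines q) 1 : Lines q → k), ← hd]
      exact W.smul_mem _ (sub_mem hw hmem)
    by_contra hcon
    have hall : ∀ f ∈ W, 2 * f ∞ = ∑ L, f L := fun f hf =>
      sub_eq_zero.mp (by_contra fun h => hcon (key f hf h))
    have hL : ∀ L, 2 * φ L = ∑ L', φ L' := fun L => by
      obtain ⟨g', hg'⟩ := exists_smul_infty L
      have := hall _ (hW g'⁻¹ _ hφ)
      simp only [permRep_apply, inv_inv, hg'] at this
      rw [this]
      exact Fintype.sum_bijective _ (MulAction.bijective g') _ _ fun L => rfl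
    exact hab (mul_left_cancel₀ h2 ((hL a).trans (hL b).symm))

end Lines

end FLTAgent.LowerSquare
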