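import Fermat.Agent.LowerSquare.TorsionOfSymb
import Fermat.Agent.LowerSquare.EigenTorsion
import Mathlib.FieldTheory.Finite.GaloisField

/-!
# Eigen symbols of eigenclasses, and the coefficient field

An eigenclass in the `p`-torsion of `J₀(L)` gives an eigen symbol with values in `ℤ/p`; where no
eigenclasses occur there are no eigen symbols with values in a field of characteristic `p`.
-/

set_option autoImplicit false

noncomputable section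

open Matrix CongruenceSubgroup ModularCurve AlgebraicCurve
open ModularCurve.Period
open scoped MatrixGroups

namespace FLTAgent.LowerSquare

open FLTAgent.LevelRaising FLTAgent.HeckeJacobian FLTAgent.SemistableFinals

local notation "Qbar" => AlgebraicClosure ℚ

variable {p : ℕ} [Fact p.Prime] [Algebra Qbar ℂ] {L : ℕ} [NeZero L] {S : Finset ℕ}

/-- An eigenclass gives an eigen symbol. -/
theorem exists_symb_of_torsion (hS : ∀ ℓ, ℓ.Prime → ℓ ∣ L * p → ℓ ∈ S) {a : ℕ → ℕ}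
    (hne : ∀ m : ℕ, 0 < m → ∃ ℓ, ℓ.Prime ∧ ℓ ∉ S ∧ (ℓ : ZMod m) = 1 ∧ (a ℓ : ZMod p) ≠ 2)
    {x : JZero L} (hx : x ∈ eigenTors p L S a) (hx0 : x ≠ 0) :
    ∃ Φ ∈ Lev (ZMod p) L, Φ ≠ 0 ∧
      ∀ ℓ, ℓ.Prime → ℓ ∉ S → tOp (ZMod p) ℓ Φ = (a ℓ : ZMod p) • Φ := by
  have hp : p.Prime := Fact.out
  obtain ⟨c, hc⟩ := KummerRel.exists_of_torsion hp.ne_zero hx.1
  have hex : ∀ γ, ∃ z : ZMod p, expZ p z = c γ := fun γ => by
    obtain ⟨m, hm⟩ := exists_expChar_eq hp.ne_zero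
      (DFunLike.congr_fun (hc.nsmul_eq_zero hp.ne_zero) γ)
    exact ⟨(m : ZMod p), (expZ_intCast p m).trans hm⟩
  choose ψf hψf using hex
  let ψ : Additive (Gamma0 L) →+ ZMod p := AddMonoidHom.mk' ψf fun γ δ =>
    expZ_injective p (by rw [map_add, hψf, hψf, hψf, map_add])
  have hψc : (expZ p).comp ψ = c := AddMonoidHom.ext hψf
  obtain ⟨Φ, hΦ, hper⟩ := exists_symb_of_parabolic (ψ := ψ) fun γ hγ => expZ_injective p (by
    rw [map_zero]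
    exact (hψf _).trans (hc.parabolic hp.ne_zero γ hγ))
  have hout : ∀ ℓ, ℓ.Prime → ℓ ∉ S → ¬ ℓ ∣ L := fun ℓ _ h hd =>
    h (hS ℓ ‹_› (hd.mul_right p))
  have hTψ : ∀ ℓ (hℓ : ℓ.Prime) (h : ℓ ∉ S) (g : Additive (Gamma0 L)),
      perHom (tOp_mem (R := ZMod p) hℓ (hout ℓ hℓ h) hΦ) g = (a ℓ : ZMod p) * ψ g := by
    intro ℓ hℓ h g
    have : NeZero ℓ := ⟨hℓ.ne_zero⟩
    have h1 := hc.hecke ⟨ℓ, hℓ⟩
    have h2 := KummerRel.nsmul' hp.ne_zero hc (a ℓ)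
    rw [← hx.2 ℓ hℓ h] at h2
    have e := DFunLike.congr_fun (h1.unique hp.ne_zero h2) g
    change heckeHom L ℓ (Additive ℂˣ) c g = a ℓ • c g at e
    rw [← hψc, heckeHom_comp, ← hper, heckeHom_perHom hℓ (hout ℓ hℓ h) hΦ, AddMonoidHom.comp_apply,
      AddMonoidHom.comp_apply, ← map_nsmul, nsmul_eq_mul] at e
    rw [← hper]
    exact expZ_injective p e
  obtain ⟨ℓ₀, hℓ₀, hℓ₀S, hℓ₀1, hℓ₀a⟩ := hne (L * p) (Nat.pos_of_ne_zero
    (Nat.mul_ne_zero (NeZero.ne L) hp.ne_zero))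
  have h0p : (ℓ₀ : ZMod p) = 1 := by
    have := congrArg (ZMod.castHom (dvd_mul_left p L) (ZMod p)) hℓ₀1
    rwa [map_natCast, map_one] at this
  have h0L : (ℓ₀ : ZMod L) = 1 := by
    have := congrArg (ZMod.castHom (dvd_mul_right L p) (ZMod L)) hℓ₀1
    rwa [map_natCast, map_one] at this
  have hmem := tOp_mem (R := ZMod p) hℓ₀ (hout ℓ₀ hℓ₀ hℓ₀S) hΦ
  set Φ' : Cusp → Cusp → ZMod p := tOp (ZMod p) ℓ₀ Φ - (2 : ZMod p) • Φ
  have hΦ' : Φ' ∈ Lev (ZMod p) L := sub_mem hmem (Submodule.smul_mem _ _ hΦ)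
  refine ⟨Φ', hΦ', fun h0 => ?_, fun ℓ hℓ hℓS => ?_⟩
  · have hψ0 : ψ = 0 := AddMonoidHom.ext fun g => by
      have h1 := hTψ ℓ₀ hℓ₀ hℓ₀S g
      have h2 : perHom hmem g = 2 * ψ g := by
        rw [← hper]
        have h3 : tOp (ZMod p) ℓ₀ Φ = (2 : ZMod p) • Φ := sub_eq_zero.mp h0
        show tOp (ZMod p) ℓ₀ Φ _ _ = _
        rw [h3]
        rfl
      rw [h2] at h1
      exact (mul_eq_zero.mp (show ((a ℓ₀ : ZMod p) - 2) * ψ g = 0 by
        linear_combination -h1)).resolve_left (sub_ne_zero.mpr hℓ₀a)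
    refine hx0 (KummerRel.eq_zero hp.ne_zero ?_)
    rwa [← hψc, hψ0, AddMonoidHom.comp_zero] at hc
  · set D : Cusp → Cusp → ZMod p := tOp (ZMod p) ℓ Φ - (a ℓ : ZMod p) • Φ
    have hD : D ∈ Lev (ZMod p) L :=
      sub_mem (tOp_mem hℓ (hout ℓ hℓ hℓS) hΦ) (Submodule.smul_mem _ _ hΦ)
    have hD0 : perHom hD = 0 := AddMonoidHom.ext fun g => by
      have h1 := hTψ ℓ hℓ hℓS g
      rw [← hper] at h1
      exact sub_eq_zero.mpr h1
    have hDT := tOp_eq_of_periods_eq_zero hD hD0 hℓ₀ h0L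
    have hcomm : tOp (ZMod p) ℓ (tOp (ZMod p) ℓ₀ Φ) = tOp (ZMod p) ℓ₀ (tOp (ZMod p) ℓ Φ) := by
      by_cases h : ℓ = ℓ₀
      · rw [h]
      · exact tOp_comm hℓ hℓ₀ h (hout ℓ hℓ hℓS) (hout ℓ₀ hℓ₀ hℓ₀S) hΦ
    have hTe : tOp (ZMod p) ℓ Φ = D + (a ℓ : ZMod p) • Φ := (sub_add_cancel _ _).symm
    simp only [Φ', map_sub, map_smul]
    rw [hcomm, hTe, map_add, hDT, map_smul, h0p]
    module

/-- Eigen symbols over a field of characteristic `p` vanish where eigenclasses do. -/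
theorem symb_eq_zero_of_torsion (hp2 : p ≠ 2) (hS : ∀ ℓ, ℓ.Prime → ℓ ∣ L * p → ℓ ∈ S) {a : ℕ → ℕ}
    (hne : ∀ m : ℕ, 0 < m → ∃ ℓ, ℓ.Prime ∧ ℓ ∉ S ∧ (ℓ : ZMod m) = 1 ∧ (a ℓ : ZMod p) ≠ 2)
    (h3 : p = 3 → ∃ r, r.Prime ∧ r ∉ S ∧ r % 3 = 2 ∧ (a r : ZMod p) ≠ 0)
    (hzero : ∀ z ∈ eigenTors p L S a, z = 0) {k : Type} [Field k] [CharP k p]
    {Ψ : Cusp → Cusp → k} (hΨ : Ψ ∈ Lev k L)
    (heig : ∀ ℓ, ℓ.Prime → ℓ ∉ S → tOp k ℓ Ψ = (a ℓ : k) • Ψ) : Ψ = 0 := by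
  have hp : p.Prime := Fact.out
  let : Algebra (ZMod p) k := (ZMod.castHom dvd_rfl k).toAlgebra
  funext x y
  refine (Module.forall_dual_apply_eq_zero_iff (ZMod p) (Ψ x y)).mp fun f => ?_
  set Φ : Cusp → Cusp → ZMod p := fun x y => f (Ψ x y)
  have hΦ : Φ ∈ Lev (ZMod p) L := ⟨fun x y z => by simp only [Φ]; rw [← map_add, hΨ.1],
    fun γ hγ x y => congrArg f (hΨ.2 γ hγ x y)⟩
  have hΦe : ∀ ℓ, ℓ.Prime → ℓ ∉ S → tOp (ZMod p) ℓ Φ = (a ℓ : ZMod p) • Φ := fun ℓ hℓ hℓS => by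
    funext x y
    have h := congrArg f (congrFun (congrFun (heig ℓ hℓ hℓS) x) y)
    simp only [tOp, pullFam_apply, Finset.sum_apply, pull_apply, map_sum, Pi.smul_apply,
      smul_eq_mul] at h ⊢
    rw [h, ← nsmul_eq_mul, map_nsmul, nsmul_eq_mul]
  obtain ⟨z, hz, hK⟩ := exists_torsion_of_symb hp2 hS a hne h3 hΦ hΦe
  rw [hzero z hz] at hK
  have hper : perHom hΦ = 0 := AddMonoidHom.ext fun g => expZ_injective p (by
    rw [AddMonoidHom.zero_apply, map_zero]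
    exact DFunLike.congr_fun (hK.unique hp.ne_zero KummerRel.zero) g)
  obtain ⟨ℓ, hℓ, hℓS, hℓ1, hℓa⟩ := hne (L * p) (Nat.pos_of_ne_zero
    (Nat.mul_ne_zero (NeZero.ne L) hp.ne_zero))
  have h0p : (ℓ : ZMod p) = 1 := by
    have := congrArg (ZMod.castHom (dvd_mul_left p L) (ZMod p)) hℓ1
    rwa [map_natCast, map_one] at this
  have h0 := eq_zero_of_periods hΦ (dvd_mul_right L p) (fun γ _ hγ0 => by
    rw [hper, AddMonoidHom.zero_apply]) hℓ hℓ1 (c := (a ℓ : ZMod p))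
    (by rw [h0p, one_add_one_eq_two]; exact hℓa) (hΦe ℓ hℓ hℓS)
  exact congrFun (congrFun h0 x) y

omit [Algebra Qbar ℂ] in
/-- A finite field of characteristic `p` with a primitive `q`-th root of unity. -/
theorem exists_field_root (q : ℕ) [Fact q.Prime] (hqp : q ≠ p) :
    ∃ (k : Type) (_ : Field k) (_ : Finite k) (_ : CharP k p),
      (q : k) ≠ 0 ∧ ∃ ζ : k, IsPrimitiveRoot ζ q := by
  have hp : p.Prime := Fact.out
  have hq : q.Prime := Fact.out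
  have hn : q - 1 ≠ 0 := by have := hq.two_le; omega
  let k := GaloisField p (q - 1)
  have : CharP k p := inferInstance
  refine ⟨k, inferInstance, inferInstance, inferInstance, fun h => hqp
    ((Nat.prime_dvd_prime_iff_eq hp hq).mp ((CharP.cast_eq_zero_iff k p q).mp h)).symm, ?_⟩
  have : Fintype k := Fintype.ofFinite k
  classical
  have hdvd : q ∣ Fintype.card kˣ := by
    rw [Fintype.card_units, ← Nat.card_eq_fintype_card, GaloisField.card p (q - 1) hn,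
      ← ZMod.natCast_eq_zero_iff, Nat.cast_sub (Nat.one_le_pow _ _ hp.pos), Nat.cast_pow,
      Nat.cast_one, ZMod.pow_card_sub_one_eq_one, sub_self]
    intro h
    rw [ZMod.natCast_eq_zero_iff] at h
    exact hqp ((Nat.prime_dvd_prime_iff_eq hq hp).mp h)
  obtain ⟨u, hu⟩ := exists_prime_orderOf_dvd_card q hdvd
  exact ⟨u, IsPrimitiveRoot.coe_units_iff.mpr (IsPrimitiveRoot.iff_orderOf.mpr hu)⟩

end FLTAgent.LowerSquare

end
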