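import Fermat.Agent.HeckeJacobian.Lattice
import Fermat.Agent.LevelRaising.Hecke
import Fermat.Agent.ModularityLifting.SymbolLift
import Fermat.Agent.Periods.Primitive

/-!
# Periods of symbols of level `Γ₀(L)`

The period homomorphism, its compatibility with the Hecke correspondence, symbols with prescribed
parabolic periods, and the vanishing of eigen symbols whose periods vanish on a principal
congruence subgroup.
-/

set_option autoImplicit false

noncomputable section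

open Matrix CongruenceSubgroup ModularCurve
open ModularCurve.Period
open scoped MatrixGroups

namespace FLTAgent.LowerSquare

open FLTAgent.LevelRaising FLTAgent.HeckeJacobian

variable {R : Type} [CommRing R] {L : ℕ} {Φ : Cusp → Cusp → R}

theorem symb_diag (hΦ : Φ ∈ Lev R L) (x : Cusp) : Φ x x = 0 := by
  linear_combination hΦ.1 x x x

/-- A period does not depend on the base point. -/
theorem period_base (hΦ : Φ ∈ Lev R L) {γ : SL(2, ℤ)} (hγ : γ ∈ Gamma0 L) (x y : Cusp) :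
    Φ x (glQ γ • x) = Φ y (glQ γ • y) := by
  linear_combination hΦ.1 y x (glQ γ • x) - hΦ.1 y (glQ γ • y) (glQ γ • x) + hΦ.2 γ hγ y x

/-- The periods of a symbol. -/
def perHom (hΦ : Φ ∈ Lev R L) : Additive (Gamma0 L) →+ R :=
  AddMonoidHom.mk'
    (fun γ => Φ OnePoint.infty (glQ ((Additive.toMul γ : Gamma0 L) : SL(2, ℤ)) • OnePoint.infty))
    fun a b => by
    rw [toMul_add, Subgroup.coe_mul, map_mul, mul_smul,
      ← hΦ.1 OnePoint.infty (glQ ((Additive.toMul a : Gamma0 L) : SL(2, ℤ)) • OnePoint.infty),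
      hΦ.2 _ (Additive.toMul a).2]

theorem perHom_apply (hΦ : Φ ∈ Lev R L) (γ : Gamma0 L) (x : Cusp) :
    perHom hΦ (Additive.ofMul γ) = Φ x (glQ (γ : SL(2, ℤ)) • x) :=
  period_base hΦ γ.2 OnePoint.infty x

theorem perHom_parabolic (hΦ : Φ ∈ Lev R L) : IsParabolicHom (Gamma0 L) (perHom hΦ) := by
  intro γ hγ
  obtain ⟨d, hd⟩ := Periods.exists_conj_lowerLeft_eq_zero hγ
  rw [perHom_apply hΦ γ (glQ d • OnePoint.infty)]
  have h0 : glQ (d⁻¹ * (γ : SL(2, ℤ)) * d) • (OnePoint.infty : Cusp) = OnePoint.infty := by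
    rw [OnePoint.smul_infty_eq_ite, glQ_apply, hd]; simp
  rw [map_mul, map_mul, map_inv, mul_smul, mul_smul, inv_smul_eq_iff] at h0
  rw [h0, symb_diag hΦ]

/-- `(ℓ 0; 0 1)`. -/
def ellMat (ℓ : ℕ) : M2 := !![(ℓ : ℤ), 0; 0, 1]

theorem ellMat_det (ℓ : ℕ) : (ellMat ℓ).det = (ℓ : ℤ) := by simp [ellMat, Matrix.det_fin_two_of]

theorem ellMat_mul_conjD (ℓ : ℕ) [NeZero ℓ] (k : gamma0Sub L ℓ) :
    ellMat ℓ * (((k : Gamma0 L) : SL(2, ℤ)) : M2) =
      (((conjD L ℓ k : Gamma0 L) : SL(2, ℤ)) : M2) * ellMat ℓ := by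
  obtain ⟨c, hc⟩ := dvd_ell L ℓ k
  have hℓ : (ℓ : ℤ) ≠ 0 := by exact_mod_cast NeZero.ne ℓ
  rw [coe_conjD, conjDMat, hc, Int.mul_ediv_cancel_left _ hℓ]
  ext i j
  fin_cases i <;> fin_cases j <;>
    simp [ellMat, Matrix.mul_apply, Fin.sum_univ_two, hc, mul_comm]

variable [NeZero L]

/-- The Hecke correspondence on periods is the operator `T_ℓ` on symbols. -/
theorem heckeHom_perHom {ℓ : ℕ} [NeZero ℓ] (hℓ : ℓ.Prime) (hℓL : ¬ ℓ ∣ L) (hΦ : Φ ∈ Lev R L) :
    heckeHom L ℓ R (perHom hΦ) = perHom (tOp_mem hℓ hℓL hΦ) := by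
  classical
  set s : Gamma0 L ⧸ gamma0Sub L ℓ → Gamma0 L := fun q => q.out
  have hs : ∀ q, (s q : Gamma0 L ⧸ gamma0Sub L ℓ) = q := fun q => QuotientGroup.out_eq' q
  have hD : ∀ q, (ellMat ℓ * (((s q)⁻¹ : Gamma0 L) : SL(2, ℤ)) : M2).det = (ℓ : ℤ) := fun q => by
    rw [det_mul, ellMat_det, ((s q)⁻¹ : Gamma0 L).1.det_coe, mul_one]
  have hfac : ∀ q, ∃ i, ∃ γ ∈ Gamma0 L,
      ellMat ℓ * ((((s q)⁻¹ : Gamma0 L) : SL(2, ℤ)) : M2) =
        ((γ : SL(2, ℤ)) : M2) * heckeFam ℓ i := fun q => by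
    refine exists_gamma_mul_heckeFam hℓ hℓL (hD q) ?_
    rw [Matrix.mul_apply, Fin.sum_univ_two]
    refine dvd_add ?_ (dvd_mul_of_dvd_right (mem_Gamma0_iff_dvd.mp ((s q)⁻¹).2) _)
    simp [ellMat]
  choose j γ hγ hj using hfac
  have hinj : Function.Injective j := by
    intro q q' hqq
    set k : Gamma0 L := (s q)⁻¹ * s q' with hk
    have e : ellMat ℓ * ((k : SL(2, ℤ)) : M2) =
        (((γ q * (γ q')⁻¹ : SL(2, ℤ))) : M2) * ellMat ℓ := by
      have h1 := hj q
      rw [hqq] at h1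
      calc ellMat ℓ * ((k : SL(2, ℤ)) : M2)
          = ellMat ℓ * ((((s q)⁻¹ : Gamma0 L) : SL(2, ℤ)) : M2) * ((s q' : SL(2, ℤ)) : M2) := by
            rw [mul_assoc, ← Matrix.SpecialLinearGroup.coe_mul, hk, Subgroup.coe_mul]
        _ = ((γ q : SL(2, ℤ)) : M2) * (heckeFam ℓ (j q') * ((s q' : SL(2, ℤ)) : M2)) := by
            rw [h1, mul_assoc]
        _ = ((γ q : SL(2, ℤ)) : M2) * ((((γ q')⁻¹ : SL(2, ℤ)) : M2) * ellMat ℓ) := by
            congr 1
            have h2 := congrArg (fun M : M2 => (((γ q')⁻¹ : SL(2, ℤ)) : M2) * M *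
              ((s q' : SL(2, ℤ)) : M2)) (hj q')
            simp only [← mul_assoc, ← Matrix.SpecialLinearGroup.coe_mul, inv_mul_cancel,
              Matrix.SpecialLinearGroup.coe_one, one_mul] at h2
            rw [← h2, mul_assoc, ← Matrix.SpecialLinearGroup.coe_mul]
            simp
        _ = _ := by rw [← mul_assoc, ← Matrix.SpecialLinearGroup.coe_mul]
    have hcℓ : (ℓ : ℤ) ∣ (k : SL(2, ℤ)) 1 0 := by
      have h1 := congrFun (congrFun e 1) 0
      simp only [Matrix.mul_apply, Fin.sum_univ_two, ellMat, Matrix.of_apply, Matrix.cons_val',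
        Matrix.cons_val_zero, Matrix.cons_val_one, Matrix.cons_val_fin_one, zero_mul, one_mul,
        zero_add, mul_zero, add_zero] at h1
      exact ⟨_, h1.trans (mul_comm _ _)⟩
    have hmem : k ∈ gamma0Sub L ℓ := by
      rw [Subgroup.mem_subgroupOf]
      refine mem_Gamma0_iff_dvd.mpr ?_
      push_cast
      exact (Nat.isCoprime_iff_coprime.mpr ((hℓ.coprime_iff_not_dvd.mpr hℓL).symm)).mul_dvd
        (mem_Gamma0_iff_dvd.mp k.2) hcℓ
    rw [← hs q, ← hs q', QuotientGroup.eq]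
    exact hmem
  have hb : Function.Bijective j :=
    (Fintype.bijective_iff_injective_and_card j).mpr ⟨hinj, by
      rw [card_gamma0_quotient L ℓ hℓ, if_neg hℓL, Fintype.card_option, Fintype.card_fin]⟩
  set G : Cusp → R := fun y => Φ OnePoint.infty y
  have hG : ∀ δ : Gamma0 L, ∀ y, G (glQ (δ : SL(2, ℤ)) • y) = perHom hΦ (Additive.ofMul δ) + G y :=
    fun δ y => by
      rw [perHom_apply hΦ δ OnePoint.infty]
      simp only [G]
      rw [← hΦ.2 δ δ.2 OnePoint.infty y, hΦ.1]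
  set P : Gamma0 L → (Cusp → R) →+ (Cusp → R) := fun g =>
    AddMonoidHom.mk' (fun f x => f (glQ (g : SL(2, ℤ)) • x)) fun _ _ => rfl
  set ι : R →+ (Cusp → R) := AddMonoidHom.mk' (fun r _ => r) fun _ _ => rfl
  set G₀ : Cusp → R := fun x => G (ofMat (ellMat ℓ) • x)
  have hD0 : (ellMat ℓ).det ≠ 0 := by rw [ellMat_det]; exact_mod_cast hℓ.ne_zero
  refine AddMonoidHom.ext fun g => ?_
  obtain ⟨g, rfl⟩ := Additive.ofMul.surjective g
  have key := transferHom_equivariant (gamma0Sub L ℓ) P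
    (fun a b x => funext fun y => congrArg x (by rw [Subgroup.coe_mul, map_mul, mul_smul])) ι
    (fun _ _ => rfl) ((perHom hΦ).comp (MonoidHom.toAdditive (conjD L ℓ))) G₀ (fun k => ?_) s hs g
  · have h1 := congrFun key OnePoint.infty
    simp only [P, ι, G₀, AddMonoidHom.mk'_apply, Finset.sum_apply, Pi.add_apply] at h1
    show transferHom (gamma0Sub L ℓ) _ (Additive.ofMul g) = _
    replace h1 := sub_eq_iff_eq_add.mpr h1
    rw [← Finset.sum_sub_distrib] at h1
    refine (show transferHom (gamma0Sub L ℓ)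
      ((perHom hΦ).comp (MonoidHom.toAdditive (conjD L ℓ)))
        (Additive.ofMul g) = _ from h1.symm).trans ?_
    rw [perHom_apply _ g OnePoint.infty, tOp, pullFam_apply]
    simp only [Finset.sum_apply, pull_apply]
    refine Fintype.sum_bijective j hb _ _ fun q => ?_
    have e : ∀ x : Cusp, ofMat (ellMat ℓ) • glQ (((s q)⁻¹ : Gamma0 L) : SL(2, ℤ)) • x =
        glQ (γ q) • ofMat (heckeFam ℓ (j q)) • x := fun x => by
      rw [← ofMat_coe, ← ofMat_coe, ← mul_smul, ← mul_smul, ← ofMat_mul hD0 (sl_det_ne_zero _),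
        hj q, ofMat_mul (sl_det_ne_zero _) (heckeFam_det_ne_zero hℓ.ne_zero _)]
    rw [e, e, ← hΦ.2 (γ q) (hγ q)]
    simp only [G]
    linear_combination -hΦ.1 OnePoint.infty (glQ (γ q) • ofMat (heckeFam ℓ (j q)) • OnePoint.infty)
      (glQ (γ q) • ofMat (heckeFam ℓ (j q)) • glQ (g : SL(2, ℤ)) • OnePoint.infty)
  · funext x
    show G (ofMat (ellMat ℓ) • glQ ((k : Gamma0 L) : SL(2, ℤ)) • x) =
      perHom hΦ (Additive.ofMul (conjD L ℓ k)) + G (ofMat (ellMat ℓ) • x)
    rw [← hG, ← ofMat_coe, ← ofMat_coe, ← mul_smul, ← mul_smul,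
      ← ofMat_mul hD0 (sl_det_ne_zero _), ← ofMat_mul (sl_det_ne_zero _) hD0, ellMat_mul_conjD]

omit [NeZero L] in
/-- Every parabolic homomorphism is the period homomorphism of a symbol. -/
theorem exists_symb_of_parabolic {ψ : Additive (Gamma0 L) →+ R}
    (hψ : IsParabolicHom (Gamma0 L) ψ) : ∃ (Φ : Cusp → Cusp → R) (hΦ : Φ ∈ Lev R L),
      perHom hΦ = ψ := by
  classical
  set H := (Gamma0 L).map (glQ : SL(2, ℤ) →* GL (Fin 2) ℚ)
  let rep : Cusp → Cusp := fun x => (Quotient.mk (MulAction.orbitRel H Cusp) x).out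
  have hsel : ∀ x, ∃ γ : Gamma0 L, glQ (γ : SL(2, ℤ)) • rep x = x := by
    intro x
    obtain ⟨⟨h, γ, hγ, rfl⟩, he⟩ : x ∈ MulAction.orbit H (rep x) :=
      MulAction.mem_orbit_symm.mp (Quotient.exact (Quotient.out_eq (s := MulAction.orbitRel H Cusp)
        (Quotient.mk _ x)))
    exact ⟨⟨γ, hγ⟩, he⟩
  choose sel hselx using hsel
  set G : Cusp → R := fun x => ψ (Additive.ofMul (sel x))
  have hfix : ∀ (π : Gamma0 L) (x : Cusp), glQ (π : SL(2, ℤ)) • x = x →
      ψ (Additive.ofMul π) = 0 := by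
    intro π x hx
    obtain ⟨u, rfl⟩ := ModularityLifting.exists_glQ_smul_infty x
    have h0 : glQ (u⁻¹ * (π : SL(2, ℤ)) * u) • (OnePoint.infty : Cusp) = OnePoint.infty := by
      rw [map_mul, map_mul, map_inv, mul_smul, mul_smul, hx, inv_smul_smul]
    have htr : (((π : SL(2, ℤ)) : M2)).trace =
        (((u⁻¹ * (π : SL(2, ℤ)) * u : SL(2, ℤ)) : M2)).trace := by
      rw [Matrix.SpecialLinearGroup.coe_mul, Matrix.trace_mul_comm,
        Matrix.SpecialLinearGroup.coe_mul, ← mul_assoc, ← Matrix.SpecialLinearGroup.coe_mul u,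
        mul_inv_cancel, Matrix.SpecialLinearGroup.coe_one, one_mul]
    obtain ⟨n, hn | hn⟩ := ModularityLifting.eq_zpow_of_smul_infty h0 <;>
    · refine hψ π ?_
      rw [htr, hn, Matrix.trace_fin_two]
      simp [ModularGroup.coe_T_zpow]
  have hG : ∀ γ : Gamma0 L, ∀ x, G (glQ (γ : SL(2, ℤ)) • x) = ψ (Additive.ofMul γ) + G x := by
    intro γ x
    have hrep : rep (glQ (γ : SL(2, ℤ)) • x) = rep x :=
      congrArg Quotient.out (Quotient.sound (s := MulAction.orbitRel H Cusp)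
        ⟨⟨glQ (γ : SL(2, ℤ)), _, γ.2, rfl⟩, rfl⟩)
    have h := hfix ((sel (glQ (γ : SL(2, ℤ)) • x))⁻¹ * (γ * sel x)) (rep x) (by
      rw [Subgroup.coe_mul, Subgroup.coe_mul, Subgroup.coe_inv, map_mul, map_mul, map_inv,
        mul_smul, mul_smul, hselx, inv_smul_eq_iff, ← hrep, hselx])
    rw [ofMul_mul, ofMul_mul, ofMul_inv, map_add, map_add, map_neg] at h
    simp only [G]
    linear_combination -h
  refine ⟨fun x y => G y - G x, ⟨fun x y z => by ring, fun γ hγ x y => ?_⟩,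
    AddMonoidHom.ext fun a => ?_⟩
  · show G (glQ γ • y) - G (glQ γ • x) = G y - G x
    linear_combination hG ⟨γ, hγ⟩ y - hG ⟨γ, hγ⟩ x
  · show G (glQ ((Additive.toMul a : Gamma0 L) : SL(2, ℤ)) • OnePoint.infty) - G OnePoint.infty = _
    rw [hG, add_sub_cancel_right, ofMul_toMul]

/-- `(1 b; 0 1)`. -/
def translGen (b : ℤ) : SL(2, ℤ) := ⟨!![1, b; 0, 1], by rw [Matrix.det_fin_two_of]; ring⟩

theorem translGen_mem {N : ℕ} (b : ℤ) : translGen b ∈ Gamma0 N := by simp [Gamma0_mem, translGen]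

omit [NeZero L] in
/-- An eigen symbol with periods vanishing on a principal congruence subgroup is zero, unless its
eigenvalue is Eisenstein. -/
theorem eq_zero_of_periods {K : Type} [Field K] {Φ : Cusp → Cusp → K} (hΦ : Φ ∈ Lev K L) {L' : ℕ}
    (hL : L ∣ L') (hper : ∀ γ ∈ Gamma L', ∀ hγ : γ ∈ Gamma0 L,
      perHom hΦ (Additive.ofMul ⟨γ, hγ⟩) = 0)
    {ℓ : ℕ} (hℓ : ℓ.Prime) (hℓ1 : (ℓ : ZMod L') = 1) {c : K} (hc : c ≠ 1 + (ℓ : K))
    (hT : tOp K ℓ Φ = c • Φ) : Φ = 0 := by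
  set G : Cusp → K := fun x => Φ OnePoint.infty x
  have hdiff : ∀ x y, Φ x y = G y - G x := fun x y => by
    simp only [G]; linear_combination hΦ.1 OnePoint.infty x y
  have hinv : ∀ (x : Cusp) (i : Option (Fin ℓ)), G (ofMat (heckeFam ℓ i) • x) = G x := by
    intro x i
    obtain ⟨h, hh, hd, e⟩ := ModularityLifting.exists_heckeFam_smul (L := L') hℓ hℓ1 x i
    have hh0 : h ∈ Gamma0 L := mem_Gamma0_iff_dvd.mpr
      ((Int.natCast_dvd_natCast.mpr hL).trans (mem_Gamma0_iff_dvd.mp hh))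
    have hT0 : translGen (h 0 1) ∈ Gamma0 L := translGen_mem _
    set g : SL(2, ℤ) := (translGen (h 0 1))⁻¹ * h with hg
    have ha : ((h 0 0 : ℤ) : ZMod L') = 1 := by
      have hdet := congrArg (Int.cast : ℤ → ZMod L') h.det_coe
      rw [Matrix.det_fin_two] at hdet
      push_cast at hdet
      rwa [Gamma0_mem.mp hh, mul_zero, sub_zero, hd, mul_one] at hdet
    have hgG : g ∈ Gamma L' := by
      rw [Gamma_mem]
      have e0 : (g : M2) = !![1, -(h 0 1); 0, 1] * (h : M2) := by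
        rw [hg, Matrix.SpecialLinearGroup.coe_mul, Matrix.SpecialLinearGroup.coe_inv,
          translGen, Matrix.adjugate_fin_two_of, neg_zero]
      simp only [e0, Matrix.mul_apply, Fin.sum_univ_two, Matrix.of_apply, Matrix.cons_val',
        Matrix.cons_val_zero, Matrix.cons_val_one, Matrix.cons_val_fin_one, Int.cast_add,
        Int.cast_mul, Int.cast_one, Int.cast_zero, Int.cast_neg, Gamma0_mem.mp hh, ha, hd]
      refine ⟨by ring, by ring, by ring, by ring⟩
    have hg0 : g ∈ Gamma0 L := mul_mem (inv_mem hT0) hh0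
    have hper' := hper g hgG hg0
    rw [perHom_apply hΦ ⟨g, hg0⟩ x] at hper'
    have hTinf : glQ (translGen (h 0 1)) • (OnePoint.infty : Cusp) = OnePoint.infty := by
      rw [OnePoint.smul_infty_eq_ite, glQ_apply]; simp [translGen]
    rw [e, show h = translGen (h 0 1) * g by rw [hg, mul_inv_cancel_left], map_mul, mul_smul]
    simp only [G]
    conv_lhs => rw [← hTinf, hΦ.2 _ hT0]
    linear_combination hper' - hΦ.1 OnePoint.infty x (glQ g • x)
  funext x y
  have h := congrFun (congrFun hT x) y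
  rw [tOp, pullFam_apply] at h
  simp only [Finset.sum_apply, pull_apply, Pi.smul_apply, smul_eq_mul, hdiff, hinv] at h
  rw [Finset.sum_const, Finset.card_univ, Fintype.card_option, Fintype.card_fin, nsmul_eq_mul,
    Nat.cast_add, Nat.cast_one] at h
  rw [hdiff]
  exact (mul_eq_zero.mp (show (c - (1 + (ℓ : K))) * (G y - G x) = 0 by
    linear_combination -h)).resolve_left (sub_ne_zero.mpr hc)

omit [NeZero L] in
/-- On symbols without periods `T_ℓ` is `1 + ℓ` for `ℓ ≡ 1` modulo the level. -/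
theorem tOp_eq_of_periods_eq_zero (hΦ : Φ ∈ Lev R L) (h : perHom hΦ = 0) {ℓ : ℕ} (hℓ : ℓ.Prime)
    (hℓ1 : (ℓ : ZMod L) = 1) : tOp R ℓ Φ = (1 + (ℓ : R)) • Φ := by
  set G : Cusp → R := fun x => Φ OnePoint.infty x
  have hdiff : ∀ x y, Φ x y = G y - G x := fun x y => by
    simp only [G]; linear_combination hΦ.1 OnePoint.infty x y
  have hinv : ∀ (x : Cusp) (i : Option (Fin ℓ)), G (ofMat (heckeFam ℓ i) • x) = G x := by
    intro x i
    obtain ⟨g, hg, -, e⟩ := ModularityLifting.exists_heckeFam_smul (L := L) hℓ hℓ1 x i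
    have h1 := perHom_apply hΦ ⟨g, hg⟩ x
    rw [h, AddMonoidHom.zero_apply, hdiff] at h1
    rw [e]
    linear_combination -h1
  funext x y
  rw [tOp, pullFam_apply]
  simp only [Finset.sum_apply, pull_apply, Pi.smul_apply, smul_eq_mul, hdiff, hinv]
  rw [Finset.sum_const, Finset.card_univ, Fintype.card_option, Fintype.card_fin, nsmul_eq_mul,
    Nat.cast_add, Nat.cast_one]
  ring

section Exp

variable (p : ℕ) [NeZero p]

/-- The exponential character of `ℤ/p`. -/
def expZ : ZMod p →+ Additive ℂˣ :=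
  ZMod.lift p ⟨expChar p, (expChar_eq_zero_iff (NeZero.ne p)).mpr dvd_rfl⟩

theorem expZ_intCast (m : ℤ) : expZ p (m : ZMod p) = expChar p m := ZMod.lift_coe _ _ _

theorem expZ_injective : Function.Injective (expZ p) := by
  rw [injective_iff_map_eq_zero]
  intro a ha
  obtain ⟨m, rfl⟩ := ZMod.intCast_surjective a
  rwa [expZ_intCast, expChar_eq_zero_iff (NeZero.ne p), ← ZMod.intCast_zmod_eq_zero_iff_dvd] at ha

end Exp

end FLTAgent.LowerSquare

end
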