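import Fermat.Agent.LowerSquare.CoeffSymbols
import Mathlib.NumberTheory.MulChar.Basic

/-!
# Simple modules with trivial unipotent action

Such a module factors through the determinant, so an eigen symbol with values in it gives a symbol
of level `M` with eigenvalues `η (ℓ) a ℓ`, `η` a character of order at most two.
-/

set_option autoImplicit false

noncomputable section

open Matrix CongruenceSubgroup
open scoped MatrixGroups

namespace FLTAgent.LowerSquare

open FLTAgent.LevelRaising

variable {q : ℕ} [Fact q.Prime] {k : Type} [Field k]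

theorem lowTransl_eq (c : ZMod q) : lowTransl c = swapLines * transl c * swapLines := by
  refine ext_gl ?_ ?_ ?_ ?_ <;>
    simp [lowTransl, swapLines, transl, gl2_apply, Matrix.mul_apply, Fin.sum_univ_two]

/-- `(a 0; 0 a⁻¹)`. -/
def torusDet (a : (ZMod q)ˣ) : GLq q :=
  gl2 (a : ZMod q) 0 0 (a⁻¹ : (ZMod q)ˣ) (by
    rw [mul_zero, sub_zero, ← Units.val_mul, mul_inv_cancel, Units.val_one]
    exact one_ne_zero)

theorem torusDet_apply (a : (ZMod q)ˣ) (i j : Fin 2) :
    torusDet a i j = !![(a : ZMod q), 0; 0, ((a⁻¹ : (ZMod q)ˣ) : ZMod q)] i j := rfl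

theorem torusDet_eq (a : (ZMod q)ˣ) :
    torusDet a = transl (a : ZMod q) * lowTransl (-((a⁻¹ : (ZMod q)ˣ) : ZMod q)) *
      transl (a : ZMod q) * (transl (-1) * lowTransl 1 * transl (-1)) := by
  refine ext_gl ?_ ?_ ?_ ?_ <;>
    simp only [torusDet_apply, lowTransl, transl, gl2_apply, Units.val_mul, Matrix.mul_apply,
      Fin.sum_univ_two, Matrix.of_apply, Matrix.cons_val', Matrix.cons_val_zero,
      Matrix.cons_val_one, Matrix.cons_val_fin_one, Units.val_inv_eq_inv_val] <;>
    field_simp <;> ring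

theorem scalar_smul_eq {g : GLq q} (h01 : g 0 1 = 0) (h10 : g 1 0 = 0) (h : g 0 0 = g 1 1)
    (L : Lines q) : g • L = L := by
  have hdet := g.det_ne_zero
  rw [Matrix.det_fin_two] at hdet
  simp only [h01, h10, mul_zero, sub_zero] at hdet
  cases L using OnePoint.rec with
  | infty => rw [OnePoint.smul_infty_eq_self_iff, h10]
  | coe x =>
    rw [OnePoint.smul_some_eq_ite, h10, h01, zero_mul, zero_add, if_neg (mul_ne_zero_iff.mp hdet).2,
      add_zero, h, mul_div_cancel_left₀ _ (mul_ne_zero_iff.mp hdet).2]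

variable {V : Type} [AddCommGroup V] [Module k V] {ρ : Representation k (GLq q) V}

theorem rho_transl_eq_one (hu : ρ (transl 1) = 1) (b : ZMod q) : ρ (transl b) = 1 := by
  have hn : ∀ n : ℕ, ρ (transl (n : ZMod q)) = 1 := by
    intro n
    induction n with
    | zero => rw [Nat.cast_zero, transl_zero, map_one]
    | succ n ih => rw [Nat.cast_succ, ← transl_mul, map_mul, ih, hu, one_mul]
  rw [← ZMod.natCast_zmod_val b]
  exact hn _

theorem rho_lowTransl_eq_one (hu : ρ (transl 1) = 1) (c : ZMod q) : ρ (lowTransl c) = 1 := by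
  rw [lowTransl_eq, map_mul, map_mul, rho_transl_eq_one hu, mul_one, ← map_mul, swap_mul_self,
    map_one]

theorem rho_torusDet_eq_one (hu : ρ (transl 1) = 1) (a : (ZMod q)ˣ) : ρ (torusDet a) = 1 := by
  rw [torusDet_eq]
  simp only [map_mul, rho_transl_eq_one hu, rho_lowTransl_eq_one hu, one_mul]

theorem rho_redSL_eq_one (hu : ρ (transl 1) = 1) (γ : SL(2, ℤ)) : ρ (redSL q γ) = 1 := by
  have hS : redSL q ModularGroup.S = transl (-1) * lowTransl 1 * transl (-1) := by
    refine ext_gl ?_ ?_ ?_ ?_ <;> rw [redSL_apply] <;>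
      simp [ModularGroup.S, lowTransl, transl, gl2_apply, Matrix.mul_apply, Fin.sum_univ_two]
  have hT : redSL q ModularGroup.T = transl 1 := by
    refine ext_gl ?_ ?_ ?_ ?_ <;> rw [redSL_apply] <;>
      simp [ModularGroup.T, transl, gl2_apply]
  have hle : (⊤ : Subgroup SL(2, ℤ)) ≤
      (MonoidHom.ker ((ρ : GLq q →* Module.End k V).comp (redSL q))) := by
    rw [← SpecialLinearGroup.SL2Z_generators, Subgroup.closure_le]
    rintro _ (rfl | rfl)
    · show ρ (redSL q ModularGroup.S) = 1
      simp [hS, map_mul, rho_transl_eq_one hu, rho_lowTransl_eq_one hu]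
    · show ρ (redSL q ModularGroup.T) = 1
      rw [hT, hu]
  exact hle (Subgroup.mem_top γ)

/-- Any element is a torus element times products of unipotent elements. -/
theorem rho_eq_rho_torus (hu : ρ (transl 1) = 1) (g : GLq q) :
    ∃ a : (ZMod q)ˣ, ρ g = ρ (torus a) := by
  have hdet := g.det_ne_zero
  rw [Matrix.det_fin_two] at hdet
  refine ⟨Units.mk0 _ hdet, ?_⟩
  set d : (ZMod q)ˣ := Units.mk0 _ hdet
  by_cases hc : g 1 0 = 0
  · rw [hc, mul_zero, sub_zero] at hdet
    obtain ⟨h00, h11⟩ := mul_ne_zero_iff.mp hdet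
    have e : g = torus d * torusDet (Units.mk0 _ h11)⁻¹ * transl (g 0 1 / g 0 0) := by
      refine ext_gl ?_ ?_ ?_ ?_ <;>
        simp [d, torus, torusDet_apply, transl, gl2_apply, Matrix.mul_apply, Fin.sum_univ_two, hc,
          h11]
      all_goals field_simp
    conv_lhs => rw [e]
    rw [map_mul, map_mul, rho_transl_eq_one hu, rho_torusDet_eq_one hu, mul_one, mul_one]
  · have hd : (d : ZMod q) = g 0 0 * g 1 1 - g 0 1 * g 1 0 := rfl
    have e : g = torus d * (transl ((g 0 0 / (d : ZMod q) - 1) / g 1 0) * lowTransl (g 1 0) *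
        transl ((g 1 1 - 1) / g 1 0)) := by
      have hd0 : (d : ZMod q) ≠ 0 := d.ne_zero
      refine ext_gl ?_ ?_ ?_ ?_ <;>
        simp [torus, lowTransl, transl, gl2_apply, Matrix.mul_apply, Fin.sum_univ_two] <;>
        field_simp <;> first | linear_combination hd | linear_combination -hd | linear_combination
    conv_lhs => rw [e]
    rw [map_mul, map_mul, map_mul, rho_transl_eq_one hu, rho_lowTransl_eq_one hu,
      rho_transl_eq_one hu, one_mul, one_mul, mul_one]

theorem rho_torus_mul_self (hfix : FactorsLines ρ) (hu : ρ (transl 1) = 1) (a : (ZMod q)ˣ) :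
    ρ (torus a) * ρ (torus a) = 1 := by
  have h := hfix (torus a * torus a * (torusDet a)⁻¹) fun L => by
    have e : torus a * torus a * (torusDet a)⁻¹ = gl2 (a : ZMod q) 0 0 (a : ZMod q) (by simp) := by
      rw [mul_inv_eq_iff_eq_mul]
      refine ext_gl ?_ ?_ ?_ ?_ <;>
        simp only [torus, torusDet_apply, gl2_apply, Units.val_mul, Matrix.mul_apply,
          Fin.sum_univ_two, Matrix.of_apply, Matrix.cons_val', Matrix.cons_val_zero,
          Matrix.cons_val_one, Matrix.cons_val_fin_one, Units.val_inv_eq_inv_val] <;>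
        field_simp <;> ring
    rw [e]
    exact scalar_smul_eq rfl rfl rfl L
  rw [← map_mul]
  conv_lhs => rw [← inv_mul_cancel_right (torus a * torus a) (torusDet a)]
  rw [map_mul, h, rho_torusDet_eq_one hu, one_mul]

/-- No eigen symbols with values in a simple module with trivial unipotent action. -/
theorem noEigen_of_transl_trivial
    (hsimple : ∀ U : Submodule k V, IsInv ρ U → U = ⊥ ∨ U = ⊤) (hfix : FactorsLines ρ)
    (hu : ρ (transl 1) = 1) {M : ℕ} {S : Finset ℕ} {a : ℕ → k}
    (hS : ∀ ℓ, ℓ.Prime → ℓ ∉ S → ℓ ≠ q)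
    (hno : ∀ η : MulChar (ZMod q) k, (∀ x, IsUnit x → η x * η x = 1) → ∀ Ψ ∈ Lev k M,
      (∀ ℓ, ℓ.Prime → ℓ ∉ S → tOp k ℓ Ψ = (η (ℓ : ZMod q) * a ℓ) • Ψ) → Ψ = 0) :
    NoEigen ρ M S a := by
  intro Φ hΦ
  -- the torus acts by scalars
  have hscal : ∀ u : (ZMod q)ˣ, ∃ c : k, ρ (torus u) = c • 1 ∧ c * c = 1 := by
    intro u
    have hsq := rho_torus_mul_self hfix hu u
    set U : Submodule k V := LinearMap.ker (ρ (torus u) - 1)
    have hU : IsInv ρ U := by
      intro g w hw
      simp only [U, LinearMap.mem_ker, LinearMap.sub_apply, Module.End.one_apply, sub_eq_zero]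
        at hw ⊢
      obtain ⟨b, hb⟩ := rho_eq_rho_torus hu g
      rw [hb, ← Module.End.mul_apply, ← map_mul, torus_mul, mul_comm, ← torus_mul, map_mul,
        Module.End.mul_apply, hw]
    rcases hsimple U hU with h | h
    · refine ⟨-1, LinearMap.ext fun v => ?_, by ring⟩
      have hv : ρ (torus u) v + v ∈ U := by
        simp only [U, LinearMap.mem_ker, LinearMap.sub_apply, Module.End.one_apply, map_add]
        rw [← Module.End.mul_apply, hsq, Module.End.one_apply]
        abel
      rw [h, Submodule.mem_bot, add_eq_zero_iff_eq_neg] at hv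
      simp [hv]
    · refine ⟨1, LinearMap.ext fun v => ?_, by ring⟩
      have hv : v ∈ U := h ▸ Submodule.mem_top
      simp only [U, LinearMap.mem_ker, LinearMap.sub_apply, Module.End.one_apply, sub_eq_zero] at hv
      simp [hv]
  by_cases hV : ∀ v : V, v = 0
  · exact funext fun x => funext fun y => hV _
  push Not at hV
  obtain ⟨v₀, hv₀⟩ := hV
  choose c hc hcc using hscal
  have hcinj : ∀ {s t : k}, s • (1 : Module.End k V) = t • 1 → s = t := fun {s t} h =>
    smul_left_injective k hv₀ (LinearMap.congr_fun h v₀)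
  let η₀ : (ZMod q)ˣ →* k :=
    { toFun := c
      map_one' := hcinj (by rw [← hc, torus_one, map_one, one_smul])
      map_mul' := fun u u' => hcinj (by
        rw [← hc, ← torus_mul, map_mul, hc, hc, smul_mul_smul_comm, one_mul]) }
  let η : MulChar (ZMod q) k := MulChar.ofUnitHom η₀.toHomUnits
  have hη : ∀ u : (ZMod q)ˣ, η (u : ZMod q) = c u := fun u => MulChar.ofUnitHom_coe _ u
  funext x y
  refine (Module.forall_dual_apply_eq_zero_iff k _).mp fun f => ?_
  have hmem : (fun x y => f (Φ x y)) ∈ Lev k M := by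
    refine ⟨fun x y z => ?_, fun γ hγ x y => ?_⟩
    · show f _ + f _ = f _
      rw [← map_add, hΦ.1.1]
    · show f _ = f _
      rw [hΦ.1.2 γ hγ, rho_redSL_eq_one hu]
      rfl
  have h0 := hno η (fun x hx => by obtain ⟨u, rfl⟩ := hx; rw [hη, hcc]) _ hmem fun ℓ hℓ hℓS =>
    funext fun x => funext fun y => by
    have hℓq : ¬ q ∣ ℓ := fun hd =>
      hS ℓ hℓ hℓS ((Nat.prime_dvd_prime_iff_eq (Fact.out) hℓ).mp hd).symm
    set l : (ZMod q)ˣ := Units.mk0 (ℓ : ZMod q) (natCast_ne_zero_of_not_dvd hℓq)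
    have hβ : ∀ i, ρ (redMat q (heckeFam ℓ i))⁻¹ = η (ℓ : ZMod q) • (1 : Module.End k V) := by
      intro i
      have hd := heckeFam_det_cast hℓq i
      have hcase : ρ (redMat q (heckeFam ℓ i)) = ρ (torus l) := by
        obtain ⟨b, hb⟩ := rho_eq_rho_torus hu (redMat q (heckeFam ℓ i))
        rcases i with _ | j
        · congr 1
          refine ext_gl ?_ ?_ ?_ ?_ <;>
            rw [redMat_apply hd] <;> simp [l, torus, gl2_apply]
        · have e : redMat q (heckeFam ℓ (some j)) = torus l * torusDet l⁻¹ *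
              transl ((j : ℕ) : ZMod q) := by
            refine ext_gl ?_ ?_ ?_ ?_ <;>
              rw [redMat_apply hd] <;>
              simp [l, torus, torusDet_apply, transl, gl2_apply, Matrix.mul_apply, Fin.sum_univ_two,
                natCast_ne_zero_of_not_dvd hℓq]
          rw [e, map_mul, map_mul, rho_transl_eq_one hu, rho_torusDet_eq_one hu, mul_one, mul_one]
      have hinv : ρ (redMat q (heckeFam ℓ i))⁻¹ = ρ (torus l) := by
        calc ρ (redMat q (heckeFam ℓ i))⁻¹
            = ρ (redMat q (heckeFam ℓ i))⁻¹ * (ρ (torus l) * ρ (torus l)) := by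
              rw [rho_torus_mul_self hfix hu, mul_one]
          _ = ρ (torus l) := by
              rw [← mul_assoc, ← hcase, ← map_mul, inv_mul_cancel, map_one, one_mul]
      rw [hinv, hc, ← hη, Units.val_mk0]
    have h1 := congrArg f (congrFun (congrFun (hΦ.2 ℓ hℓ hℓS) x) y)
    simp only [twOp, hβ, LinearMap.smul_apply, Module.End.one_apply, map_sum, map_smul,
      Pi.smul_apply, smul_eq_mul, ← Finset.mul_sum] at h1
    simp only [tOp, pullFam_apply, Finset.sum_apply, pull_apply, Pi.smul_apply, smul_eq_mul]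
    rw [mul_assoc, ← h1, ← mul_assoc, show η (ℓ : ZMod q) * η (ℓ : ZMod q) = 1 by
        rw [show (ℓ : ZMod q) = (l : ZMod q) from rfl, hη, hcc], one_mul]
  exact congrFun (congrFun h0 x) y

end FLTAgent.LowerSquare
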